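import Fermat.Agent.LT3.Profile
import Fermat.Agent.LT.Theta.Arch

/-!
# Spherical integrals of functions of a height

`integral_kernel_lin` is the spherical integral and `hhat0_arcosh` the eigenvalue on the height.
-/

set_option autoImplicit false
open MeasureTheory Filter Set
open scoped Real Topology

namespace Fermat.LT3
open Fermat.LT Fermat.LT.Theta

/-- The average of `F` over the interval cut out at radius `arcosh C`. -/
noncomputable def dAv (q : ℝ) (F : ℝ → ℂ) (C l : ℝ) : ℂ :=
  ((Real.sqrt (l ^ 2 + q))⁻¹ : ℝ) •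
    ∫ x in l * C - Real.sqrt (l ^ 2 + q) * Real.sqrt (C ^ 2 - 1)..
      l * C + Real.sqrt (l ^ 2 + q) * Real.sqrt (C ^ 2 - 1), F x

variable {q : ℝ} {F : ℝ → ℂ}

/-- The averages through a primitive. -/
lemma dAv_eq (hF : Continuous F) (C l : ℝ) :
    dAv q F C l = ((Real.sqrt (l ^ 2 + q))⁻¹ : ℝ) •
      ((∫ u in (0 : ℝ)..l * C + Real.sqrt (l ^ 2 + q) * Real.sqrt (C ^ 2 - 1), F u)
        - ∫ u in (0 : ℝ)..l * C - Real.sqrt (l ^ 2 + q) * Real.sqrt (C ^ 2 - 1), F u) := by
  rw [dAv, intervalIntegral.integral_interval_sub_left (hF.intervalIntegrable _ _)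
    (hF.intervalIntegrable _ _)]

/-- The averages are measurable. -/
lemma measurable_dAv (hF : Continuous F) : Measurable fun p : ℝ × ℝ => dAv q F p.1 p.2 := by
  have hP : Continuous fun x => ∫ u in (0 : ℝ)..x, F u :=
    intervalIntegral.continuous_primitive (fun a b => hF.intervalIntegrable a b) 0
  simp only [dAv_eq hF]
  exact (by fun_prop : Measurable fun p : ℝ × ℝ => (Real.sqrt (p.2 ^ 2 + q))⁻¹).smul
    ((hP.measurable.comp (by fun_prop : Measurable fun p : ℝ × ℝ =>
      p.2 * p.1 + Real.sqrt (p.2 ^ 2 + q) * Real.sqrt (p.1 ^ 2 - 1))).sub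
    (hP.measurable.comp (by fun_prop : Measurable fun p : ℝ × ℝ =>
      p.2 * p.1 - Real.sqrt (p.2 ^ 2 + q) * Real.sqrt (p.1 ^ 2 - 1))))

/-- The averages are continuous in the radius. -/
lemma continuous_dAv (hF : Continuous F) (l : ℝ) : Continuous fun C => dAv q F C l := by
  have hP : Continuous fun x => ∫ u in (0 : ℝ)..x, F u :=
    intervalIntegral.continuous_primitive (fun a b => hF.intervalIntegrable a b) 0
  simp only [dAv_eq hF]
  exact Continuous.const_smul (M := ℝ) ((hP.comp (by fun_prop : Continuous fun C : ℝ =>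
      l * C + Real.sqrt (l ^ 2 + q) * Real.sqrt (C ^ 2 - 1))).sub
    (hP.comp (by fun_prop : Continuous fun C : ℝ =>
      l * C - Real.sqrt (l ^ 2 + q) * Real.sqrt (C ^ 2 - 1)))) _

/-- The radius of the heights met. -/
noncomputable def dRad (q B C : ℝ) : ℝ :=
  (B + Real.sqrt |q| * Real.sqrt (C ^ 2 - 1)) * (C + Real.sqrt (C ^ 2 - 1))

/-- The averages of a bounded compactly supported function decay in the height. -/
lemma norm_dAv_le {B M : ℝ} (hB : ∀ x, B < |x| → F x = 0) (hM : ∀ x, ‖F x‖ ≤ M)
    {C : ℝ} (hC : 1 ≤ C) (l : ℝ) :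
    ‖dAv q F C l‖ ≤ 2 * M * Real.sqrt (C ^ 2 - 1) * Real.exp (dRad q B C ^ 2) *
      Real.exp (-(1 * l ^ 2)) := by
  have hM0 : 0 ≤ M := (norm_nonneg _).trans (hM 0)
  set s := Real.sqrt (C ^ 2 - 1)
  set r := Real.sqrt (l ^ 2 + q)
  have hs0 : 0 ≤ s := Real.sqrt_nonneg _
  have hr0 : 0 ≤ r := Real.sqrt_nonneg _
  by_cases hl : dRad q B C < |l|
  -- |l| beyond dRad: the interval lies outside the support of F
  · rw [dAv, intervalIntegral.integral_congr (g := fun _ => (0 : ℂ)) fun x hx => hB x ?_]
    · simp only [intervalIntegral.integral_zero, smul_zero, norm_zero]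
      positivity
    rw [uIcc_of_le (by nlinarith [mul_nonneg hr0 hs0]), mem_Icc] at hx
    have hr : r ≤ |l| + Real.sqrt |q| := by
      refine (Real.sqrt_le_iff).2 ⟨by positivity, ?_⟩
      have h2 := Real.sq_sqrt (abs_nonneg q)
      nlinarith [mul_nonneg (abs_nonneg l) (Real.sqrt_nonneg |q|), le_abs_self q, sq_abs l]
    have hCs : (C + s) * (C - s) = 1 := by
      have h2 : s ^ 2 = C ^ 2 - 1 := Real.sq_sqrt (by nlinarith)
      nlinarith
    have h1 : B + Real.sqrt |q| * s < |l| * (C - s) := by
      by_contra h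
      have := mul_le_mul_of_nonneg_left (not_lt.1 h) (by linarith : 0 ≤ C + s)
      rw [mul_left_comm, hCs, mul_one] at this
      unfold dRad at hl
      linarith
    have h3 : |l| * C - r * s ≤ |x| := by
      rcases le_total 0 l with h | h
      · rw [abs_of_nonneg h]; linarith [le_abs_self x]
      · rw [abs_of_nonpos h]; linarith [neg_abs_le x]
    have h4 : r * s ≤ (|l| + Real.sqrt |q|) * s := mul_le_mul_of_nonneg_right hr hs0
    linarith
  -- otherwise the Gaussian factor is at least 1; bound F by M on the interval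
  · have hl' := not_lt.1 hl
    have h2 : |l| ^ 2 ≤ dRad q B C ^ 2 := pow_le_pow_left₀ (abs_nonneg l) hl' 2
    rw [sq_abs] at h2
    have h1 : 1 ≤ Real.exp (dRad q B C ^ 2) * Real.exp (-(1 * l ^ 2)) := by
      rw [← Real.exp_add, Real.one_le_exp_iff]
      linarith
    rw [mul_assoc (2 * M * s)]
    refine le_trans ?_ (le_mul_of_one_le_right (by positivity) h1)
    rw [dAv, norm_smul, Real.norm_eq_abs, abs_inv, abs_of_nonneg hr0]
    calc r⁻¹ * ‖∫ x in l * C - r * s..l * C + r * s, F x‖
        ≤ r⁻¹ * (M * |(l * C + r * s) - (l * C - r * s)|) := by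
          refine mul_le_mul_of_nonneg_left ?_ (inv_nonneg.2 hr0)
          exact intervalIntegral.norm_integral_le_of_norm_le_const fun x _ => hM x
      _ = r⁻¹ * r * (2 * M * s) := by
          rw [show (l * C + r * s) - (l * C - r * s) = 2 * (r * s) by ring,
            abs_of_nonneg (by positivity)]
          ring
      _ ≤ 1 * (2 * M * s) := mul_le_mul_of_nonneg_right inv_mul_le_one (by positivity)
      _ = _ := one_mul _

/-- The average at a hyperbolic radius as an interval integral. -/
lemma dAv_cosh (F : ℝ → ℂ) {ρ : ℝ} (hρ : 0 < ρ) (l : ℝ) :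
    dAv q F (Real.cosh ρ) l = ((Real.sqrt (l ^ 2 + q))⁻¹ : ℝ) •
      ∫ x in l * Real.cosh ρ - Real.sqrt (l ^ 2 + q) * Real.sinh ρ..
        l * Real.cosh ρ + Real.sqrt (l ^ 2 + q) * Real.sinh ρ, F x := by
  rw [dAv]
  rw [show Real.cosh ρ ^ 2 - 1 = Real.sinh ρ ^ 2 by rw [Real.cosh_sq]; ring,
    Real.sqrt_sq (Real.sinh_pos_iff.2 hρ).le]

/-- Integrals against the profile. -/
lemma integral_profMeas {G : ℝ × ℝ → ℂ} {α e : ℝ} (he : 0 < e) (hi : Integrable G (profMeas α e)) :
    ∫ p, G p ∂(profMeas α e) = ((2 * π / e : ℝ) : ℂ) * ∫ C in Ioi (1 : ℝ),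
      ∫ x in α * C - e * Real.sqrt (C ^ 2 - 1)..α * C + e * Real.sqrt (C ^ 2 - 1), G (C, x) := by
  have hc : ENNReal.ofReal (2 * π / e) ≠ 0 := by
    rw [ne_eq, ENNReal.ofReal_eq_zero, not_le]; positivity
  rw [profMeas, integrable_smul_measure hc ENNReal.ofReal_ne_top] at hi
  have hR := measurableSet_profRegion α e
  rw [profMeas, integral_smul_measure, ENNReal.toReal_ofReal (by positivity), Complex.real_smul]
  congr 1
  replace hi : IntegrableOn G _ volume := hi
  rw [← integrable_indicator_iff hR, Measure.volume_eq_prod] at hi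
  rw [← integral_indicator hR, Measure.volume_eq_prod, integral_prod _ hi,
    ← integral_indicator measurableSet_Ioi]
  refine integral_congr_ae (Eventually.of_forall fun C => ?_)
  by_cases hC : 1 < C
  · have hle : α * C - e * Real.sqrt (C ^ 2 - 1) ≤ α * C + e * Real.sqrt (C ^ 2 - 1) := by
      nlinarith [mul_nonneg he.le (Real.sqrt_nonneg (C ^ 2 - 1))]
    rw [Set.indicator_of_mem (show C ∈ Ioi (1 : ℝ) from hC), intervalIntegral.integral_of_le hle,
      integral_Ioc_eq_integral_Ioo, ← integral_indicator measurableSet_Ioo]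
    refine integral_congr_ae (Eventually.of_forall fun x => ?_)
    by_cases hx : |x - α * C| < e * Real.sqrt (C ^ 2 - 1)
    · simp only [Set.indicator_apply, mem_ofPred_eq, mem_Ioo, hC, hx, and_self, if_true]
      rw [if_pos ⟨by linarith [(abs_lt.1 hx).1], by linarith [(abs_lt.1 hx).2]⟩]
    · simp only [Set.indicator_apply, mem_ofPred_eq, mem_Ioo, hx, and_false, if_false]
      rw [if_neg fun h => hx (abs_lt.2 ⟨by linarith [h.1], by linarith [h.2]⟩)]
  · rw [Set.indicator_of_notMem (show C ∉ Ioi (1 : ℝ) from hC)]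
    refine (integral_congr_ae (Eventually.of_forall fun x => ?_)).trans (integral_zero _ _)
    simp only [Set.indicator_apply, mem_ofPred_eq, hC, false_and, if_false]

/-- **The spherical integral.** A radial kernel about `w` applied to a function of `lin X` is an
integral of the averages `dAv`. -/
theorem integral_kernel_lin {k : ℝ → ℝ} (hk : Continuous k) (hks : HasCompactSupport k)
    (hF : Continuous F) {M : ℝ} (hM : ∀ x, ‖F x‖ ≤ M) (X : HV) (w : H3)
    (h : 0 < lin X w ^ 2 + qf X) :
    ∫ u, (k (coshd w u) : ℂ) * F (lin X u) ∂hmeas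
      = ((2 * π : ℝ) : ℂ) * ∫ C in Ioi (1 : ℝ), (k C : ℂ) * dAv (qf X) F C (lin X w) := by
  set e := Real.sqrt (lin X w ^ 2 + qf X)
  have he : 0 < e := Real.sqrt_pos.2 h
  set G : ℝ × ℝ → ℂ := fun p => (k p.1 : ℂ) * F p.2
  have hG : Continuous G := by fun_prop
  have hint : Integrable (fun u => G (coshd w u, lin X u)) hmeas :=
    integrable_kernel_mul hk hks w ((hF.comp (continuous_lin X)).measurable)
      (C := M) fun u _ => hM _
  have hm : Integrable G (profMeas (lin X w) e) := by
    rw [← map_profile X w h, integrable_map_measure hG.aestronglyMeasurable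
      (measurable_pairBase X w).aemeasurable]
    exact hint
  rw [show ∫ u, (k (coshd w u) : ℂ) * F (lin X u) ∂hmeas
      = ∫ p, G p ∂(profMeas (lin X w) e) from by
    rw [← map_profile X w h, integral_map (measurable_pairBase X w).aemeasurable
      hG.aestronglyMeasurable], integral_profMeas he hm, ← integral_const_mul, ← integral_const_mul]
  refine setIntegral_congr_fun measurableSet_Ioi fun C _ => ?_
  simp only [G, intervalIntegral.integral_const_mul, dAv, Complex.real_smul]
  push_cast
  ring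

/-- **The eigenvalue on the height.** `hhat0 k` is `2π` times the integral of `2 k(C) arcosh C` over
`C > 1`. -/
theorem hhat0_arcosh {k : ℝ → ℝ} (hk : Continuous k) (hks : HasCompactSupport k) :
    hhat0 k = ((2 * π : ℝ) : ℂ) * ∫ C in Ioi (1 : ℝ), (k C : ℂ) * (2 * Real.arcosh C : ℝ) := by
  -- profile of the null vector X = (1, 0, 0), where lin X is half the inverse height
  set X : HV := (1, 0, 0)
  have hl : ∀ u : H3, lin X u = ((H3.coord u).2)⁻¹ / 2 := fun u => by
    rw [lin_eq_coord, num]; simp [X]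
  have hb : ((1 : GL (Fin 2) ℂ) : H3) = base := rfl
  have hb2 : lin X base = 1 / 2 := by rw [lin_base, tr2]; simp [X]
  have hq : qf X = 0 := by simp [qf, X]
  set G : ℝ × ℝ → ℂ := fun p => (k p.1 : ℂ) * ((2 * p.2)⁻¹ : ℝ)
  have hGm : Measurable G := by fun_prop
  -- hhat0 k is a profile integral
  have e1 : hhat0 k = ∫ p, G p ∂(profMeas (1 / 2) (1 / 2)) ∧
      Integrable G (profMeas (1 / 2) (1 / 2)) := by
    have hprof := map_profile X base (by rw [hb2, hq]; norm_num)
    rw [hb2, hq, add_zero, Real.sqrt_sq (by norm_num : (0 : ℝ) ≤ 1 / 2)] at hprof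
    have e : (fun u => G (coshd base u, lin X u))
        = fun u => (k (coshd ((1 : GL (Fin 2) ℂ) : H3) u) : ℂ) * ((H3.coord u).2 : ℂ) := by
      funext u
      simp only [G, hl, hb]
      push_cast
      field_simp
    rw [← hprof, integral_map (measurable_pairBase X base).aemeasurable hGm.aestronglyMeasurable,
      integrable_map_measure hGm.aestronglyMeasurable (measurable_pairBase X base).aemeasurable,
      Function.comp_def, e]
    refine ⟨hhat0_eq hk, ?_⟩
    exact integrable_kernel_mul hk hks _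
      (Complex.continuous_ofReal.comp continuous_coord.snd).measurable
      (C := 2 * (H3.coord ((1 : GL (Fin 2) ℂ) : H3)).2 * (AKer.ofRadial k hk hks).range)
          fun u hu => by
        rw [Complex.norm_real, Real.norm_of_nonneg (H3.coord_pos u).le]
        exact (snd_le_coshd _ u).trans (mul_le_mul_of_nonneg_left hu
          (mul_nonneg zero_le_two (H3.coord_pos _).le))
  rw [e1.1, integral_profMeas (by norm_num) e1.2, ← integral_const_mul, ← integral_const_mul]
  refine setIntegral_congr_fun measurableSet_Ioi fun C (hC : 1 < C) => ?_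
  set s := Real.sqrt (C ^ 2 - 1)
  have hs0 : 0 ≤ s := Real.sqrt_nonneg _
  have hCs : (C + s) * (C - s) = 1 := by
    have h2 : s ^ 2 = C ^ 2 - 1 := Real.sq_sqrt (by nlinarith)
    nlinarith
  have hlo : 0 < C - s := by nlinarith
  -- the inner integral of 1 / x is 2 arcosh C
  have hlog : ∫ x in (1 / 2 * C - 1 / 2 * s)..(1 / 2 * C + 1 / 2 * s), x⁻¹ = 2 * Real.arcosh C := by
    rw [integral_inv_of_pos (by linarith) (by linarith),
      show (1 / 2 * C + 1 / 2 * s) / (1 / 2 * C - 1 / 2 * s) = (C + s) / (C - s) by field_simp,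
      show (C + s) / (C - s) = (C + s) ^ 2 by
        rw [div_eq_iff hlo.ne']; linear_combination -(C + s) * hCs,
      Real.log_pow, Real.arcosh]
    push_cast
    ring
  simp only [G, intervalIntegral.integral_const_mul, intervalIntegral.integral_ofReal]
  rw [show (fun x : ℝ => (2 * x)⁻¹) = fun x => (1 / 2 : ℝ) * x⁻¹ by funext x; rw [mul_inv]; ring,
    intervalIntegral.integral_const_mul, hlog]
  push_cast
  ring

/-- For `qf X ≠ 0` the quantity `lin X w ^ 2 + qf X` is positive almost everywhere. -/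
lemma ae_pos_len (X : HV) (h : qf X ≠ 0) : ∀ᵐ w ∂hmeas, 0 < lin X w ^ 2 + qf X := by
  -- Points have measure zero.
  have hnull : ∀ c : H3, hmeas {c} = 0 := fun c => by
    rw [hmeas, Measure.map_apply measurable_hmk (measurableSet_singleton c), hvol,
      withDensity_apply _ (measurable_hmk (measurableSet_singleton c)),
      Measure.restrict_restrict (measurable_hmk (measurableSet_singleton c))]
    refine setLIntegral_measure_zero _ _ (measure_mono_null (t := {H3.coord c}) ?_ (by
      rw [show ({H3.coord c} : Set (ℂ × ℝ)) = {(H3.coord c).1} ×ˢ {(H3.coord c).2} from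
        Set.singleton_prod_singleton.symm, Measure.volume_eq_prod, Measure.prod_prod,
          measure_singleton,
        zero_mul]))
    rintro p ⟨hp, -, hp2⟩
    simp only [mem_preimage, mem_singleton_iff] at hp
    rw [mem_singleton_iff, ← hp, hmk, H3.coord_mk_of_pos p.1 hp2]
  -- `lin ^ 2 + qf` is a sum of two squares,
  have key : ∀ (z : ℂ) (t : ℝ), 0 < t → lin X (H3.mk z t) ^ 2 + qf X
      = Complex.normSq (X.2.1 - (X.2.2 : ℂ) * z) + ((num X z / t - X.2.2 * t) / 2) ^ 2 := by
    intro z t ht
    have hq := qf_act (triMat z ht)⁻¹ X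
    rw [act_inv_triMat X z ht, qf] at hq
    rw [lin_mk_coord X z ht]
    simp only at hq
    linear_combination (-1 : ℝ) * hq
  -- which vanish together at `c` only.
  set c : H3 := H3.mk (X.2.1 / (X.2.2 : ℂ)) (Real.sqrt (num X (X.2.1 / (X.2.2 : ℂ)) / X.2.2))
  rw [ae_iff]
  refine measure_mono_null (t := {c}) (fun w hw => ?_) (hnull c)
  have ht := H3.coord_pos w
  set z := (H3.coord w).1
  set t := (H3.coord w).2
  simp only [mem_ofPred_eq, not_lt] at hw
  rw [← H3.mk_coord w, key z t ht] at hw
  have h1 := Complex.normSq_nonneg (X.2.1 - (X.2.2 : ℂ) * z)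
  have h2 := sq_nonneg ((num X z / t - X.2.2 * t) / 2)
  have e1 : X.2.1 = (X.2.2 : ℂ) * z := sub_eq_zero.1 (Complex.normSq_eq_zero.1 (by linarith))
  have e2 : num X z / t = X.2.2 * t := by
    have : ((num X z / t - X.2.2 * t) / 2) ^ 2 = 0 := by linarith
    rw [sq_eq_zero_iff] at this
    linarith
  have hd : X.2.2 ≠ 0 := fun hd => h (by simp [qf, e1, hd])
  have hz : z = X.2.1 / (X.2.2 : ℂ) := by
    rw [e1, mul_div_cancel_left₀ _ (by exact_mod_cast hd)]
  rw [mem_singleton_iff, ← H3.mk_coord w]
  change H3.mk z t = _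
  rw [div_eq_iff ht.ne'] at e2
  simp only [c, ← hz, e2]
  congr 1
  rw [show X.2.2 * t * t / X.2.2 = t ^ 2 by field_simp, Real.sqrt_sq ht.le]

end Fermat.LT3
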