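import Fermat.Agent.LT3.Coef.Samp
import Fermat.Agent.LT3.Coef.Prof

/-!
# The samples satisfy the averaging identity

For a pairing `(φ, ψ)` the weight of one variable may be moved to the other one in
`∫∫ k(d(w, u)) Σ φ i u · aM n (ψ i) w`; with the eigenfunction equation this gives `Samp.Avg` with
`n = q3 / 3`.
-/

set_option autoImplicit false
open Matrix MeasureTheory Filter Set
open scoped Real Topology

namespace Fermat.LT3
open Fermat.LT Fermat.LT.Theta

/-- The diagonal action of an element of `GL₂(ℤ[ω])` on `H3 × H3` is a measurable embedding. -/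
lemma measurableEmbedding_gC2 (δ : GL (Fin 2) EI) :
    MeasurableEmbedding fun p : H3 × H3 => (gC δ • p.1, gC δ • p.2) :=
  ((MeasurableEquiv.smul (gC δ)).prodCongr (MeasurableEquiv.smul (gC δ))).measurableEmbedding

/-- The weight `rho0` sums to one along every orbit of `GL₂(ℤ[ω])`. -/
lemma hasSum_rho0_orbit (w : H3) : HasSum (fun δ : GL (Fin 2) EI => rho0 (gC δ • w)) 1 :=
  ((Subgroup.topEquiv (G := GL (Fin 2) EI)).toEquiv.hasSum_iff
    (f := fun δ : GL (Fin 2) EI => rho0 (gC δ • w))).1 (part_rho0.hasSum w)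

/-- Cutting an integral along `Γ` through a measurable map to `H3`. -/
lemma hasSum_cut {α : Type*} [MeasurableSpace α] {μ : Measure α} {f : α → ℂ} (hf : Integrable f μ)
    (T : α → H3) (hT : Measurable T) :
    HasSum (fun δ : GL (Fin 2) EI => ∫ v, (rho0 (gC δ • T v) : ℂ) * f v ∂μ) (∫ v, f v ∂μ) := by
  refine hasSum_integral_of_dominated_convergence (fun δ v => rho0 (gC δ • T v) * ‖f v‖)
    (fun δ => ?_) (fun δ => Eventually.of_forall fun v => ?_)
    (Eventually.of_forall fun v => ((hasSum_rho0_orbit _).mul_right _).summable) ?_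
    (Eventually.of_forall fun v => ?_)
  · exact ((Complex.measurable_ofReal.comp
      ((part_rho0.measurable_comp δ).comp hT)).aestronglyMeasurable).mul hf.1
  · rw [norm_mul, part_rho0.norm_smul]
  · simp only [((hasSum_rho0_orbit _).mul_right _).tsum_eq, one_mul]
    exact hf.norm
  · simpa using ((hasSum_rho0_orbit (T v)).map Complex.ofRealCLM
      Complex.ofRealCLM.continuous).mul_right (f v)

/-- The weight may sit on either variable. -/
theorem swap_weight {G : H3 × H3 → ℂ}
    (hinv : ∀ (δ : GL (Fin 2) EI) w u, G (gC δ • w, gC δ • u) = G (w, u))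
    (h1 : Integrable (fun p => (rho0 p.1 : ℂ) * G p) (hmeas.prod hmeas))
    (h2 : Integrable (fun p => (rho0 p.2 : ℂ) * G p) (hmeas.prod hmeas)) :
    ∫ p, (rho0 p.1 : ℂ) * G p ∂(hmeas.prod hmeas) =
      ∫ p, (rho0 p.2 : ℂ) * G p ∂(hmeas.prod hmeas) := by
  have s1 := hasSum_cut h1 Prod.snd measurable_snd
  have s2 := hasSum_cut h2 Prod.fst measurable_fst
  have e : ∀ δ : GL (Fin 2) EI, ∫ p, (rho0 (gC δ • p.2) : ℂ) *
      ((rho0 p.1 : ℂ) * G p) ∂(hmeas.prod hmeas)
      = ∫ p, (rho0 (gC δ⁻¹ • p.1) : ℂ) * ((rho0 p.2 : ℂ) * G p) ∂(hmeas.prod hmeas) := by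
    intro δ
    have hm := (measurePreserving_smul_H3 (gC δ⁻¹)).prod (measurePreserving_smul_H3 (gC δ⁻¹))
    rw [← hm.integral_comp (measurableEmbedding_gC2 δ⁻¹)]
    refine integral_congr_ae (Eventually.of_forall fun p => ?_)
    simp only [Prod.map_apply', hinv, smul_smul, ← map_mul, mul_inv_cancel, map_one, one_smul]
    ring
  simp only [e] at s1
  exact s1.unique ((Equiv.inv (GL (Fin 2) EI)).hasSum_iff.2 s2)

variable {ι : Type*} [Fintype ι] {φ : ι → H3 → ℂ} {ψ : ι → Lz → ℂ} (n : ℤ)

/-- The height series of a function. -/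
noncomputable def aM (f : Lz → ℂ) (F : ℝ → ℂ) (w : H3) : ℂ :=
  ∑' X : {X : Lz // q3 X = n}, f X.1 * F (lin (vec X.1) w)

/-- The height of a point is unchanged when point and vector are moved by the same `γ`. -/
lemma lin_vec_dact (γ : GL (Fin 2) EI) (X : Lz) (w : H3) :
    lin (vec (dact γ.val X)) (gC γ • w) = lin (vec X) w := by
  rw [vec_dact, lin_act]

/-- `GL₂(ℤ[ω])` preserves the norm `q3`. -/
lemma q3_dact_gl (γ : GL (Fin 2) EI) (X : Lz) : q3 (dact γ.val X) = q3 X := by
  rw [q3_dact, ← Matrix.GeneralLinearGroup.val_det_apply, norm_unit_EI, one_mul]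

/-- The action of `γ` on the vectors of norm `n`, as a bijection. -/
noncomputable def dequivN (γ : GL (Fin 2) EI) : {X : Lz // q3 X = n} ≃ {X : Lz // q3 X = n} :=
  (dequiv γ).subtypeEquiv fun X => by
    change q3 X = n ↔ q3 (dact γ.val X) = n
    rw [q3_dact_gl]

omit [Fintype ι] in
/-- Equivariance of the height series. -/
lemma aM_dact (γ : GL (Fin 2) EI) {f g : Lz → ℂ}
    (h : ∀ X, g (dact (γ : Matrix (Fin 2) (Fin 2) EI) X) = f X) (F : ℝ → ℂ) (w : H3) :
    aM n g F (gC γ • w) = aM n f F w := by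
  rw [aM, aM, ← (dequivN n γ).tsum_eq]
  refine tsum_congr fun X => ?_
  have e : ((dequivN n γ X).1 : Lz) = dact γ.val X.1 := rfl
  rw [e, h, lin_vec_dact]

/-- The invariant sum of the pairing. -/
noncomputable def pairSum (φ : ι → H3 → ℂ) (ψ : ι → Lz → ℂ) (F : ℝ → ℂ) (w : H3) : ℂ :=
  ∑ i, φ i w * aM n (ψ i) F w

/-- The points of norm `n` which carry weight have positive length almost everywhere. -/
def Nondeg (n : ℤ) (ψ : ι → Lz → ℂ) : Prop :=
  ∀ i, ∀ X : {X : Lz // q3 X = n}, ∀ᵐ u ∂hmeas, ψ i X.1 = 0 ∨ 0 < lin (vec X.1) u ^ 2 + qf (vec X.1)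

omit [Fintype ι] in
/-- A nonzero norm is nondegenerate. -/
lemma nondeg_of_ne {n : ℤ} (hn : n ≠ 0) (ψ : ι → Lz → ℂ) : Nondeg n ψ := fun _ X => by
  filter_upwards [ae_pos_len (vec X.1) (fun h => hn (by
    have h2 := q3_eq X.1
    rw [h, X.2] at h2
    exact_mod_cast (show ((n : ℤ) : ℝ) = 0 by linarith)))] with u hu
  exact Or.inr hu

variable {n}

/-- Bound for the height series. -/
lemma exists_aM_bound {α : Type*} {f : α → Lz → ℂ} (hf : ∃ B, 0 ≤ B ∧ ∀ M X, ‖f M X‖ ≤ B) (n : ℤ)
    {F : ℝ → ℂ} (hF : Samp.Decay F) :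
    ∃ C, 0 ≤ C ∧ ∀ (M : α) (w : H3),
      Summable (fun X : {X : Lz // q3 X = n} => ‖f M X.1 * F (lin (vec X.1) w)‖) ∧
      ∑' X : {X : Lz // q3 X = n}, ‖f M X.1 * F (lin (vec X.1) w)‖
        ≤ C * (1 + (H3.coord w).2) * (1 + ((H3.coord w).2)⁻¹) := by
  obtain ⟨-, a, D, ha, hD⟩ := hF
  obtain ⟨B, hB0, hB⟩ := hf
  obtain ⟨C, hC0, hC⟩ := exists_maj_bound (a := a / 2) (half_pos ha)
  have hD0 : 0 ≤ D := by
    have := (norm_nonneg _).trans (hD 0); simpa using this
  refine ⟨B * D * Real.exp (a * n / 6) * C, by positivity, fun M w => ?_⟩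
  obtain ⟨hs, hle⟩ := hC (H3.coord w).1 (H3.coord w).2 (H3.coord_pos w)
  rw [H3.mk_coord] at hs hle
  -- each term is a Gaussian in the majorant
  have hterm : ∀ X : {X : Lz // q3 X = n}, ‖f M X.1 * F (lin (vec X.1) w)‖
      ≤ B * D * Real.exp (a * n / 6) * Real.exp (-(a / 2 * maj (vec X.1) w)) := by
    intro X
    have hq := q3_eq X.1
    rw [X.2] at hq
    have e : Real.exp (-(a * lin (vec X.1) w ^ 2))
        = Real.exp (a * n / 6) * Real.exp (-(a / 2 * maj (vec X.1) w)) := by
      rw [← Real.exp_add, maj]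
      congr 1
      linear_combination (a / 6) * hq
    rw [norm_mul, mul_assoc, mul_assoc B, ← e]
    exact mul_le_mul (hB _ _) (hD _) (norm_nonneg _) hB0
  -- sum over the lattice
  have hs' := (hs.comp_injective (Subtype.val_injective (p := fun X : Lz => q3 X = n))).mul_left
    (B * D * Real.exp (a * n / 6))
  have hsum := hs'.of_nonneg_of_le (fun _ => norm_nonneg _) hterm
  refine ⟨hsum, (hsum.tsum_le_tsum hterm hs').trans ?_⟩
  rw [tsum_mul_left]
  calc _ ≤ B * D * Real.exp (a * n / 6) * (C * (1 + (H3.coord w).2) * (1 + ((H3.coord w).2)⁻¹)) :=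
        mul_le_mul_of_nonneg_left ((Summable.tsum_subtype_le _ _
          (fun _ => (Real.exp_pos _).le) hs).trans hle) (by positivity)
    _ = _ := by ring

/-- The height series of a decaying function is measurable. -/
lemma measurable_aM (n : ℤ) {F : ℝ → ℂ} (hF : Samp.Decay F) (f : Lz → ℂ) :
    Measurable (aM n f F) :=
  Measurable.tsum fun _ => ((hF.1.comp (continuous_lin _)).measurable.const_mul _)

variable (hP : IsEigPair φ ψ)

section
include hP

/-- A measurable function of the height with Gaussian decay is integrable against the weight. -/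
lemma integrable_gI_mul (n : ℤ) {f : ℝ → ℂ} (hf : Measurable f) {a D : ℝ}
    (ha : 0 < a) (hD : ∀ x, ‖f x‖ ≤ D * Real.exp (-(a * x ^ 2))) :
    Integrable (fun p => gI φ ψ n p * f (lI n p)) (muI n) := by
  obtain ⟨C, -, h⟩ := exists_moment_bound hP ha
  refine ((h n).1.const_mul D).mono'
    ((measurable_gI n hP).mul (hf.comp (measurable_lI n))).aestronglyMeasurable
    (Eventually.of_forall fun p => ?_)
  rw [norm_mul]
  exact (mul_le_mul_of_nonneg_left (hD _) (norm_nonneg _)).trans_eq (by ring)

/-- The functional as an integral of the invariant function. -/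
lemma I_eq_pairSum (n : ℤ) {F : ℝ → ℂ} (hF : Samp.Decay F) :
    (sampI n hP).I F = ∫ w, (rho0 w : ℂ) * pairSum n φ ψ F w ∂hmeas := by
  obtain ⟨C, -, hC⟩ := exists_aM_bound hP.wbound n hF
  obtain ⟨a, D, ha, hD⟩ := hF.2
  rw [sampI_I n hP (integrable_gI_mul hP n hF.1.measurable ha hD)]
  refine integral_congr_ae (Eventually.of_forall fun w => ?_)
  have hrow : ∀ M : ι, Summable fun X : {X : Lz // q3 X = n} =>
      gI φ ψ n ((M, X), w) * F (lI n ((M, X), w)) := fun M =>
    (((hC M w).1).of_norm.mul_left ((rho0 w : ℂ) * φ M w)).congr fun X => by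
      simp only [gI, lI]; ring
  have hsum : Summable fun i : Ix ι n => gI φ ψ n (i, w) * F (lI n (i, w)) := by
    refine Summable.of_norm ((summable_prod_of_nonneg fun _ => norm_nonneg _).2
      ⟨fun M => (hrow M).norm, Summable.of_finite⟩)
  simp only
  rw [hsum.tsum_prod' hrow, tsum_fintype, pairSum, Finset.mul_sum]
  refine Finset.sum_congr rfl fun M _ => ?_
  rw [aM, ← tsum_mul_left, ← tsum_mul_left]
  exact tsum_congr fun X => by simp only [gI, lI]; ring

end

/-- A continuous function of bounded support decays. -/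
lemma decay_of_supp {F : ℝ → ℂ} (hF : Continuous F) {B : ℝ} (hB : Supp B F) : Samp.Decay F := by
  obtain ⟨M, hM0, hM⟩ := hB.exists_bound hF
  refine ⟨hF, 1, M * Real.exp (B ^ 2), one_pos, fun x => ?_⟩
  by_cases hx : B < |x|
  · rw [hB x hx, _root_.norm_zero]; positivity
  · have h2 : |x| ^ 2 ≤ B ^ 2 := pow_le_pow_left₀ (abs_nonneg x) (not_lt.1 hx) 2
    rw [sq_abs] at h2
    rw [mul_assoc, ← Real.exp_add]
    exact (hM x).trans (le_mul_of_one_le_right hM0 (Real.one_le_exp_iff.2 (by linarith)))

/-- The `L¹` norm of a radial kernel does not depend on its centre. -/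
lemma integral_norm_kernel {k : ℝ → ℝ} (w : H3) :
    ∫ u, ‖(k (coshd w u) : ℂ)‖ ∂hmeas = ∫ u, ‖(k (coshd base u) : ℂ)‖ ∂hmeas := by
  obtain ⟨g, rfl⟩ := QuotientGroup.mk_surjective w
  rw [← (measurePreserving_smul_H3 g).integral_comp (measurableEmbedding_const_smul g)]
  refine integral_congr_ae (Eventually.of_forall fun u => ?_)
  simp only
  have : (g : H3) = g • base := by
    rw [base, MulAction.Quotient.smul_coe, smul_eq_mul, mul_one]
  rw [this, coshd_smul]

/-- An integrable function times a radial kernel of compact support is integrable on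
`H3 × H3`. -/
lemma integrable_prod_kernel {k : ℝ → ℝ} (hk : Continuous k) (hks : HasCompactSupport k)
    {f : H3 → ℂ} (hf : Integrable f hmeas) :
    Integrable (fun p : H3 × H3 => f p.1 * (k (coshd p.1 p.2) : ℂ)) (hmeas.prod hmeas) := by
  have hm : AEStronglyMeasurable (fun p : H3 × H3 => f p.1 * (k (coshd p.1 p.2) : ℂ))
      (hmeas.prod hmeas) :=
    hf.1.comp_fst.mul
      (Complex.continuous_ofReal.comp (hk.comp continuous_coshd)).measurable.aestronglyMeasurable
  have hone : ∀ w, Integrable (fun u => (k (coshd w u) : ℂ)) hmeas := fun w => by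
    simpa using integrable_kernel_mul hk hks w (f := fun _ => (1 : ℂ)) measurable_const (C := 1)
      fun _ _ => norm_one.le
  refine (integrable_prod_iff hm).2 ⟨Eventually.of_forall fun w => (hone w).const_mul (f w), ?_⟩
  simp only [norm_mul, integral_const_mul, integral_norm_kernel]
  exact hf.norm.mul_const _

/-- Heights of near points. -/
lemma height_factor_le {w u : H3} {R : ℝ} (hR : coshd w u ≤ R) :
    (1 + (H3.coord w).2) * (1 + ((H3.coord w).2)⁻¹)
      ≤ (2 * R + 1) ^ 2 * ((1 + (H3.coord u).2) * (1 + ((H3.coord u).2)⁻¹)) := by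
  have hw := H3.coord_pos w
  have hu := H3.coord_pos u
  have hR1 : 1 ≤ R := (one_le_coshd w u).trans hR
  have a := (snd_le_coshd u w).trans (mul_le_mul_of_nonneg_left ((coshd_comm u w).le.trans hR)
    (by positivity : (0 : ℝ) ≤ 2 * (H3.coord u).2))
  have b := (snd_le_coshd w u).trans (mul_le_mul_of_nonneg_left hR
    (by positivity : (0 : ℝ) ≤ 2 * (H3.coord w).2))
  have b' : ((H3.coord w).2)⁻¹ ≤ 2 * R * ((H3.coord u).2)⁻¹ := by
    rw [inv_le_iff_one_le_mul₀ hw, ← div_eq_mul_inv, div_mul_eq_mul_div, le_div_iff₀ hu]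
    linarith
  have hui := inv_pos.2 hu
  calc _ ≤ (2 * R + 1) * (1 + (H3.coord u).2) * ((2 * R + 1) * (1 + ((H3.coord u).2)⁻¹)) :=
        mul_le_mul (by nlinarith) (by nlinarith) (by positivity) (by positivity)
    _ = _ := by ring

/-- The weighted height factor. -/
noncomputable def wt (u : H3) : ℝ :=
  rho0 u * ((1 + (H3.coord u).2) * (1 + ((H3.coord u).2)⁻¹))

/-- The weighted height factor is nonnegative. -/
lemma wt_nonneg (u : H3) : 0 ≤ wt u := by
  have := H3.coord_pos u
  have := part_rho0.nonneg u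
  unfold wt; positivity

/-- The weighted height factor is integrable. -/
lemma integrable_wt : Integrable (fun u => (wt u : ℂ)) hmeas := by
  refine integrable_of_le_Sg (Complex.measurable_ofReal.comp (part_rho0.meas.mul ?_))
    (C := 9) fun u => ?_
  · have := continuous_coord
    fun_prop
  · rw [Complex.norm_real, Real.norm_of_nonneg (wt_nonneg u), wt]
    have := rho0_mul_le (w := u) zero_le_one
    simpa using this

/-- A radial kernel of compact support is integrable. -/
lemma integrable_kernel_one {k : ℝ → ℝ} (hk : Continuous k) (hks : HasCompactSupport k) (u : H3) :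
    Integrable (fun w => ‖(k (coshd u w) : ℂ)‖) hmeas := by
  have h := (integrable_kernel_mul hk hks u (f := fun _ => (1 : ℂ)) measurable_const (C := 1)
    fun _ _ => norm_one.le).norm
  exact h.congr (Eventually.of_forall fun w => by simp only [mul_one])

/-- A radial kernel vanishes beyond its range. -/
lemma k_coshd_eq_zero_of_range {k : ℝ → ℝ} (hk : Continuous k) (hks : HasCompactSupport k)
    {w u : H3} (h : ¬ coshd w u ≤ (AKer.ofRadial k hk hks).range) : (k (coshd w u) : ℂ) = 0 := by
  exact (AKer.ofRadial k hk hks).eq_zero w u (not_le.1 h)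

variable {k : ℝ → ℝ} {F : ℝ → ℂ}

attribute [local irreducible] gI lI dAv

/-- The spherical transform of a height series. -/
lemma integral_kernel_aM {f : Lz → ℂ} (hf : ∃ B, 0 ≤ B ∧ ∀ X, ‖f X‖ ≤ B) (hk : Continuous k)
    (hks : HasCompactSupport k) (hF : Continuous F) {B : ℝ} (hB : Supp B F) {u : H3}
    (hpos : ∀ X : {X : Lz // q3 X = n}, f X.1 = 0 ∨ 0 < lin (vec X.1) u ^ 2 + qf (vec X.1)) :
    Integrable (fun w => (k (coshd w u) : ℂ) * aM n f F w) hmeas ∧
      ∫ w, (k (coshd w u) : ℂ) * aM n f F w ∂hmeas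
        = ∑' X : {X : Lz // q3 X = n}, f X.1 * (((2 * π : ℝ) : ℂ) *
            ∫ C in Ioi (1 : ℝ), (k C : ℂ) * dAv (qf (vec X.1)) F C (lin (vec X.1) u)) := by
  have hdec := decay_of_supp hF hB
  obtain ⟨MF, -, hMF⟩ := hB.exists_bound hF
  obtain ⟨Ca, hCa0, hCa⟩ := exists_aM_bound (f := fun _ : Unit => f)
    (hf.imp fun _ h => ⟨h.1, fun _ => h.2⟩) n hdec
  set R := (AKer.ofRadial k hk hks).range
  set K := Ca * (2 * R + 1) ^ 2 * ((1 + (H3.coord u).2) * (1 + ((H3.coord u).2)⁻¹))
  set bnd : H3 → ℝ := fun w => K * ‖(k (coshd u w) : ℂ)‖ with hbd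
  -- domination: the kernel lives in a ball around u, where the series is bounded
  have hle : ∀ w, ‖(k (coshd u w) : ℂ)‖ * ∑' X : {X : Lz // q3 X = n},
      ‖f X.1 * F (lin (vec X.1) w)‖ ≤ bnd w := by
    intro w
    by_cases hR : coshd u w ≤ R
    · have h := height_factor_le (w := w) (u := u) (R := R) (by rwa [coshd_comm])
      calc _ ≤ ‖(k (coshd u w) : ℂ)‖ * (Ca * ((2 * R + 1) ^ 2 *
            ((1 + (H3.coord u).2) * (1 + ((H3.coord u).2)⁻¹)))) := by
            refine mul_le_mul_of_nonneg_left ((hCa () w).2.trans ?_) (norm_nonneg _)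
            rw [mul_assoc]
            exact mul_le_mul_of_nonneg_left h hCa0
        _ = _ := by simp only [hbd, K]; ring
    · simp only [hbd, k_coshd_eq_zero_of_range hk hks hR, _root_.norm_zero, zero_mul,
        mul_zero, le_refl]
  have hbnd : Integrable bnd hmeas := (integrable_kernel_one hk hks u).const_mul K
  have hkm : Measurable fun w => (k (coshd u w) : ℂ) :=
    (Complex.continuous_ofReal.comp
      (hk.comp (continuous_coshd.comp (Continuous.prodMk_right u)))).measurable
  have hsum : ∀ w, HasSum (fun X : {X : Lz // q3 X = n} =>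
      f X.1 * ((k (coshd u w) : ℂ) * F (lin (vec X.1) w)))
      ((k (coshd w u) : ℂ) * aM n f F w) := fun w => by
    have h := ((hCa () w).1.of_norm).hasSum.mul_left ((k (coshd u w) : ℂ))
    rw [coshd_comm w u, aM]
    exact h.congr_fun fun X => by ring
  have hfi : ∀ X : {X : Lz // q3 X = n}, Integrable (fun w =>
      f X.1 * ((k (coshd u w) : ℂ) * F (lin (vec X.1) w))) hmeas := fun X =>
    (integrable_kernel_mul hk hks u ((hF.comp (continuous_lin _)).measurable) (C := MF)
      fun w _ => hMF _).const_mul _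
  -- integrate the series term by term
  have hdom := hasSum_integral_of_dominated_convergence (μ := hmeas)
    (bound := fun (X : {X : Lz // q3 X = n}) w =>
      ‖(k (coshd u w) : ℂ)‖ * ‖f X.1 * F (lin (vec X.1) w)‖)
    (fun X => (hfi X).1)
    (fun X => Eventually.of_forall fun w => by
      rw [norm_mul, norm_mul, norm_mul]; exact (mul_left_comm _ _ _).le)
    (Eventually.of_forall fun w => (hCa () w).1.mul_left _)
    (hbnd.mono' (Measurable.aestronglyMeasurable (Measurable.tsum fun X =>
        hkm.norm.mul ((hF.comp (continuous_lin _)).measurable.const_mul (f X.1)).norm))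
      (Eventually.of_forall fun w => by
        rw [tsum_mul_left,
          Real.norm_of_nonneg (mul_nonneg (norm_nonneg _) (tsum_nonneg fun _ => norm_nonneg _))]
        exact hle w))
    (Eventually.of_forall hsum)
  refine ⟨hbnd.mono' ?_ (Eventually.of_forall fun w => ?_), ?_⟩
  · refine Measurable.aestronglyMeasurable ?_
    simp only [coshd_comm _ u]
    exact hkm.mul (measurable_aM n hdec f)
  · rw [norm_mul, coshd_comm w u]
    exact (mul_le_mul_of_nonneg_left (norm_tsum_le_tsum_norm (hCa () w).1)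
      (norm_nonneg _)).trans (hle w)
  -- each term is given by integral_kernel_lin
  · rw [← hdom.tsum_eq]
    refine tsum_congr fun X => ?_
    rw [integral_const_mul]
    rcases hpos X with h | h
    · rw [h, zero_mul, zero_mul]
    · rw [integral_kernel_lin hk hks hF hMF (vec X.1) u h]

section
include hP

/-- The two weighted integrability statements. -/
lemma integrable_weighted (hk : Continuous k) (hks : HasCompactSupport k)
    (hdec : Samp.Decay F) :
    Integrable (fun p : H3 × H3 => (rho0 p.1 : ℂ) * ((k (coshd p.1 p.2) : ℂ) *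
        ∑ M : ι, φ M p.2 * aM n (ψ M) F p.1)) (hmeas.prod hmeas) ∧
    Integrable (fun p : H3 × H3 => (rho0 p.2 : ℂ) * ((k (coshd p.1 p.2) : ℂ) *
        ∑ M : ι, φ M p.2 * aM n (ψ M) F p.1)) (hmeas.prod hmeas) := by
  obtain ⟨Ca, hCa0, hCa⟩ := exists_aM_bound hP.wbound n hdec
  obtain ⟨Cp, hCp0, hCp⟩ := hP.bound
  set cG : ℝ := (Fintype.card (ι) : ℝ) * (Cp * Ca) with hcd
  have hcG : 0 ≤ cG := by positivity
  -- The sum is bounded by a height factor of `w`,
  have hS : ∀ w u, ‖∑ M : ι, φ M u * aM n (ψ M) F w‖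
      ≤ cG * ((1 + (H3.coord w).2) * (1 + ((H3.coord w).2)⁻¹)) := by
    intro w u
    refine (norm_sum_le _ _).trans ((Finset.sum_le_sum
      (g := fun _ : ι => Cp * (Ca * (1 + (H3.coord w).2) * (1 + ((H3.coord w).2)⁻¹)))
      fun M _ => ?_).trans_eq ?_)
    · rw [norm_mul]
      exact mul_le_mul (hCp _ _) ((norm_tsum_le_tsum_norm (hCa M w).1).trans (hCa M w).2)
        (norm_nonneg _) hCp0
    · rw [Finset.sum_const, Finset.card_univ, nsmul_eq_mul, hcd]; ring
  have hm : Measurable fun p : H3 × H3 => (k (coshd p.1 p.2) : ℂ) *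
      ∑ M : ι, φ M p.2 * aM n (ψ M) F p.1 :=
    (Complex.continuous_ofReal.comp (hk.comp continuous_coshd)).measurable.mul
      (Finset.measurable_sum _ fun M _ => ((hP.isEig M).cont.measurable.comp measurable_snd).mul
        ((measurable_aM n hdec (ψ M)).comp measurable_fst))
  have hr : Measurable fun w => (rho0 w : ℂ) := Complex.measurable_ofReal.comp part_rho0.meas
  -- so both integrands are dominated by the kernel against the weight.
  have hI := integrable_prod_kernel hk hks integrable_wt
  refine ⟨(hI.norm.const_mul cG).mono' ((hr.comp measurable_fst).mul hm).aestronglyMeasurable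
    (Eventually.of_forall fun ⟨w, u⟩ => ?_),
    (hI.swap.norm.const_mul (cG * (2 * (AKer.ofRadial k hk hks).range + 1) ^ 2)).mono'
      ((hr.comp measurable_snd).mul hm).aestronglyMeasurable
        (Eventually.of_forall fun ⟨w, u⟩ => ?_)⟩
  · rw [norm_mul, norm_mul, norm_mul, Complex.norm_real (rho0 w), Complex.norm_real (wt w),
      Real.norm_of_nonneg (part_rho0.nonneg w), Real.norm_of_nonneg (wt_nonneg w), wt]
    exact (mul_le_mul_of_nonneg_left (mul_le_mul_of_nonneg_left (hS w u) (norm_nonneg _))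
      (part_rho0.nonneg w)).trans_eq (by ring)
  · rw [Function.comp_apply, Prod.swap_prod_mk]
    dsimp only
    rw [coshd_comm u w, norm_mul, norm_mul, norm_mul, Complex.norm_real (rho0 u),
      Complex.norm_real (wt u), Real.norm_of_nonneg (part_rho0.nonneg u),
      Real.norm_of_nonneg (wt_nonneg u), wt]
    -- Where the kernel is supported the heights of `w` and `u` are comparable.
    by_cases hR : coshd w u ≤ (AKer.ofRadial k hk hks).range
    · exact (mul_le_mul_of_nonneg_left (mul_le_mul_of_nonneg_left ((hS w u).trans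
        (mul_le_mul_of_nonneg_left (height_factor_le hR) hcG)) (norm_nonneg _))
        (part_rho0.nonneg u)).trans_eq (by ring)
    · simp only [k_coshd_eq_zero_of_range hk hks hR, _root_.norm_zero, zero_mul, mul_zero]
      exact le_rfl

end

/-- The bound of the averages. -/
lemma exists_dAv_bound (hF : Continuous F) {B : ℝ} (hB : Supp B F) (q : ℝ) :
    ∃ bd : ℝ → ℝ, Continuous bd ∧ ∀ C, 1 ≤ C → ∀ l,
      ‖dAv q F C l‖ ≤ bd C * Real.exp (-(1 * l ^ 2)) := by
  obtain ⟨MF, -, hMF⟩ := hB.exists_bound hF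
  refine ⟨fun C => 2 * MF * Real.sqrt (C ^ 2 - 1) * Real.exp (dRad q B C ^ 2),
    by unfold dRad; fun_prop, fun C hC l => norm_dAv_le hB hMF hC l⟩

/-- The functional averaged over an interval of heights. -/
noncomputable def jAv (φ : ι → H3 → ℂ) (ψ : ι → Lz → ℂ) (n : ℤ) (F : ℝ → ℂ) (C : ℝ) : ℂ :=
  ∫ p, gI φ ψ n p * dAv ((n : ℝ) / 3) F C (lI n p) ∂(muI n)

include hP in
/-- The averaged functional is continuous beyond `1`. -/
lemma continuousOn_jAv (n : ℤ) (hF : Continuous F) {B : ℝ} (hB : Supp B F) :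
    ContinuousOn (jAv φ ψ n F) (Ioi 1) := by
  obtain ⟨bd, hbd, hDle⟩ := exists_dAv_bound hF hB ((n : ℝ) / 3)
  obtain ⟨_, _, hmom⟩ := exists_moment_bound hP one_pos
  intro C0 (hC0 : 1 < C0)
  obtain ⟨K, hK⟩ := (isCompact_Icc (a := (1 : ℝ)) (b := C0 + 1)).exists_bound_of_continuousOn
    hbd.continuousOn
  refine (continuousAt_of_dominated (X := ℝ) (x₀ := C0)
    (F := fun C p => gI φ ψ n p * dAv ((n : ℝ) / 3) F C (lI n p))
    (bound := fun p => K * (‖gI φ ψ n p‖ * Real.exp (-(1 * lI n p ^ 2))))
    (Eventually.of_forall fun C => ((measurable_gI n hP).mul ((measurable_dAv hF).comp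
      (measurable_const.prodMk (measurable_lI n)))).aestronglyMeasurable) ?_
    ((hmom n).1.const_mul _)
    (Eventually.of_forall fun p =>
      ((continuous_dAv hF _).const_mul _).continuousAt)).continuousWithinAt
  filter_upwards [Ioo_mem_nhds hC0 (lt_add_one C0)] with C hC
  refine Eventually.of_forall fun p => ?_
  rw [norm_mul]
  exact (mul_le_mul_of_nonneg_left ((hDle C hC.1.le _).trans (mul_le_mul_of_nonneg_right
    ((le_abs_self _).trans (hK C ⟨hC.1.le, hC.2.le⟩)) (Real.exp_pos _).le))
      (norm_nonneg _)).trans_eq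
    (by ring)

include hP in
/-- The inner integral of the first side is the Selberg transform of `k` times the paired sum. -/
lemma integral_kernel_pairSum (n : ℤ) (hk : Continuous k) (hks : HasCompactSupport k) (w : H3) :
    ∫ u, (rho0 w : ℂ) * ((k (coshd w u) : ℂ) * ∑ M : ι, φ M u * aM n (ψ M) F w) ∂hmeas
      = hhat0 k * ((rho0 w : ℂ) * pairSum n φ ψ F w) := by
  obtain ⟨Cp, -, hCp⟩ := hP.bound
  have e : (fun u => (rho0 w : ℂ) * ((k (coshd w u) : ℂ) *
      ∑ M : ι, φ M u * aM n (ψ M) F w))
    = fun u => ∑ M : ι, ((rho0 w : ℂ) * aM n (ψ M) F w) *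
        ((k (coshd w u) : ℂ) * φ M u) := by
    funext u; simp only [Finset.mul_sum]; exact Finset.sum_congr rfl fun M _ => by ring
  rw [e, integral_finsetSum _ fun M _ => (integrable_kernel_mul hk hks w
    (hP.isEig M).cont.measurable
    (fun u _ => hCp M u)).const_mul _, pairSum, Finset.mul_sum, Finset.mul_sum]
  refine Finset.sum_congr rfl fun M _ => ?_
  rw [integral_const_mul, (hP.isEig _).arch k hk hks]
  ring

include hP in
/-- **The tested identity.** A test kernel multiplies the functional at `n` by `hhat0` and turns it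
into the integral of `jAv`. -/
lemma test_jAv {n : ℤ} (hn : Nondeg n ψ) (hk : Continuous k)
    (hks : HasCompactSupport k) (hF : Continuous F) {B : ℝ} (hB : Supp B F) :
    hhat0 k * (sampI n hP).I F
      = ((2 * π : ℝ) : ℂ) * ∫ C in Ioi (1 : ℝ), (k C : ℂ) * jAv φ ψ n F C := by
  set q : ℝ := (n : ℝ) / 3 with hq
  have hqX : ∀ X : {X : Lz // q3 X = n}, qf (vec X.1) = q := fun X => by
    have h := q3_eq X.1
    have h2 : ((q3 X.1 : ℤ) : ℝ) = n := by exact_mod_cast X.2
    rw [hq]; linarith
  have hdec := decay_of_supp hF hB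
  obtain ⟨h1, h2⟩ := integrable_weighted (n := n) hP hk hks hdec
  have hswap := swap_weight (G := fun p => (k (coshd p.1 p.2) : ℂ) *
      ∑ M : ι, φ M p.2 * aM n (ψ M) F p.1) (fun δ w u => by
    rw [coshd_smul]
    congr 1
    obtain ⟨e, he, he'⟩ := hP.smul δ
    rw [← e.sum_comp fun N => φ N (gC δ • u) * aM n (ψ N) F (gC δ • w)]
    exact Finset.sum_congr rfl fun M _ => by rw [he, aM_dact n δ (he' M)]) h1 h2
  rw [integral_prod _ h1, integral_prod_symm _ h2] at hswap
  -- the first side: the inner integral over `u` is the Selberg transform of `k`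
  simp only [integral_kernel_pairSum hP n hk hks] at hswap
  rw [integral_const_mul, ← I_eq_pairSum hP n hdec] at hswap
  -- the second side
  set T : ℝ → ℂ := fun l => ((2 * π : ℝ) : ℂ) * ∫ C in Ioi (1 : ℝ), (k C : ℂ) * dAv q F C l with hT
  have hTm : Measurable T := by
    refine Measurable.const_mul ?_ _
    exact (StronglyMeasurable.integral_prod_left' (f := fun p : ℝ × ℝ =>
      (k p.1 : ℂ) * dAv q F p.1 p.2)
      (((Complex.continuous_ofReal.comp hk).measurable.comp measurable_fst).mul
        (measurable_dAv hF)).stronglyMeasurable).measurable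
  obtain ⟨bd, hbd, hDle⟩ := exists_dAv_bound hF hB q
  obtain ⟨K, hK⟩ := hks.isCompact.exists_bound_of_continuousOn hbd.continuousOn
  have hKb : ∀ C, 1 ≤ C → ∀ l, ‖(k C : ℂ) * dAv q F C l‖
      ≤ max K 0 * |k C| * Real.exp (-(1 * l ^ 2)) := by
    intro C hC l
    rw [norm_mul, Complex.norm_real, Real.norm_eq_abs]
    by_cases h : k C = 0
    · simp [h]
    · exact (mul_le_mul_of_nonneg_left ((hDle C hC l).trans (mul_le_mul_of_nonneg_right
        (((le_abs_self _).trans (hK C (subset_tsupport _ h))).trans (le_max_left _ _))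
        (Real.exp_pos _).le)) (abs_nonneg _)).trans_eq (by ring)
  have hkint : Integrable k := hk.integrable_of_hasCompactSupport hks
  have hTle : ∀ l, ‖T l‖ ≤ 2 * π * (max K 0 * ∫ C in Ioi (1 : ℝ), |k C|) *
      Real.exp (-(1 * l ^ 2)) := by
    intro l
    rw [hT, norm_mul, Complex.norm_real, Real.norm_of_nonneg (by positivity), mul_assoc (2 * π)]
    refine mul_le_mul_of_nonneg_left ((norm_integral_le_of_norm_le
      ((hkint.abs.restrict.const_mul (max K 0)).mul_const _)
      (ae_restrict_of_forall_mem measurableSet_Ioi fun C hC => hKb C (le_of_lt hC) l)).trans_eq ?_)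
      (by positivity)
    rw [integral_mul_const, integral_const_mul]
  have hTint : Integrable (fun p => gI φ ψ n p * T (lI n p)) (muI n) :=
    integrable_gI_mul hP n hTm one_pos hTle
  -- integrating over `w` first gives the sum over `(M, X)` of `T`
  have hR : ∫ u, ∫ w, (rho0 u : ℂ) * ((k (coshd w u) : ℂ) *
      ∑ M : ι, φ M u * aM n (ψ M) F w) ∂hmeas ∂hmeas
      = ∫ p, gI φ ψ n p * T (lI n p) ∂(muI n) := by
    rw [muI, integral_prod_symm _ hTint]
    refine integral_congr_ae ?_
    filter_upwards [Integrable.prod_left_ae hTint,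
      ae_all_iff.2 fun M : ι => ae_all_iff.2 fun X : {X : Lz // q3 X = n} => hn M X]
      with u hu hpos
    rw [integral_countable hu]
    simp only [Measure.real, Measure.count_singleton, ENNReal.toReal_one, one_smul]
    have hsum : Summable fun i : Ix ι n => gI φ ψ n (i, u) * T (lI n (i, u)) :=
      (integrable_count_iff.1 hu).of_norm
    rw [hsum.tsum_prod' fun M => hsum.comp_injective (i := fun X => (M, X))
      (fun X Y h => (Prod.mk.inj h).2), tsum_fintype]
    have e : (fun w => (rho0 u : ℂ) * ((k (coshd w u) : ℂ) *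
        ∑ M : ι, φ M u * aM n (ψ M) F w))
      = fun w => ∑ M : ι, ((rho0 u : ℂ) * φ M u) *
          ((k (coshd w u) : ℂ) * aM n (ψ M) F w) := by
      funext w; simp only [Finset.mul_sum]; exact Finset.sum_congr rfl fun M _ => by ring
    have hker := fun M => integral_kernel_aM (hP.wbound.imp fun _ h => ⟨h.1, h.2 M⟩) hk hks hF hB
      (hpos M)
    rw [e, integral_finsetSum _ fun M _ => (hker M).1.const_mul _]
    refine Finset.sum_congr rfl fun M _ => ?_
    rw [integral_const_mul, (hker M).2, ← tsum_mul_left]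
    refine tsum_congr fun X => ?_
    simp only [hT, gI, lI, hqX]
    ring
  rw [hR] at hswap
  rw [hswap, hT]
  simp only [mul_left_comm (gI φ ψ n _), integral_const_mul]
  congr 1
  have : SFinite (muI (ι := ι) n) := (sampI n hP).sfin
  obtain ⟨_, _, hmom⟩ := exists_moment_bound hP one_pos
  -- exchange the integrals over `p` and `C`
  have hprod : Integrable (Function.uncurry fun p C =>
      gI φ ψ n p * ((k C : ℂ) * dAv q F C (lI n p)))
      ((muI n).prod (volume.restrict (Ioi (1 : ℝ)))) := by
    refine (((hmom n).1.mul_prod (hkint.abs.restrict (s := Ioi (1 : ℝ)))).const_mul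
      (max K 0)).mono' ?_ ?_
    · exact (((measurable_gI n hP).comp measurable_fst).mul
        (((Complex.continuous_ofReal.comp hk).measurable.comp measurable_snd).mul
          ((measurable_dAv hF).comp
            (measurable_snd.prodMk ((measurable_lI n).comp measurable_fst))))).aestronglyMeasurable
    · filter_upwards [Measure.quasiMeasurePreserving_snd.ae (ae_restrict_mem measurableSet_Ioi)]
        with p hp
      rw [Function.uncurry_def, norm_mul]
      exact (mul_le_mul_of_nonneg_left (hKb p.2 (le_of_lt hp) _) (norm_nonneg _)).trans_eq (by ring)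
  simp only [← integral_const_mul (gI φ ψ n _)]
  rw [integral_integral_swap hprod]
  refine setIntegral_congr_fun measurableSet_Ioi fun C _ => ?_
  simp only [jAv, ← integral_const_mul]
  exact integral_congr_ae (Eventually.of_forall fun p => mul_left_comm _ _ _)

/-- `2 arcosh` is continuous beyond `1`. -/
lemma continuousOn_arcosh_ofReal :
    ContinuousOn (fun C : ℝ => ((2 * Real.arcosh C : ℝ) : ℂ)) (Ioi 1) := by
  exact Complex.continuous_ofReal.comp_continuousOn
    (continuousOn_const.mul (Real.continuousOn_arcosh.mono Ioi_subset_Ici_self))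

/-- A function orthogonal to all bumps vanishes. -/
lemma eq_zero_of_bump {D : ℝ → ℂ} (hD : ContinuousOn D (Ioi 1))
    (h : ∀ k : ℝ → ℝ, Continuous k → HasCompactSupport k →
      IntegrableOn (fun C => (k C : ℂ) * D C) (Ioi 1) → ∫ C in Ioi (1 : ℝ), (k C : ℂ) * D C = 0)
    {C0 : ℝ} (hC0 : 1 < C0) : D C0 = 0 := by
  by_contra hne
  obtain ⟨δ, hδ, hball⟩ := Metric.continuousAt_iff.1 (hD.continuousAt (Ioi_mem_nhds hC0))
    (‖D C0‖ / 2) (half_pos (norm_pos_iff.2 hne))
  -- a tent k around C0, where Re (D C * conj (D C0)) ≥ |D C0|² / 2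
  set r := min δ (C0 - 1) / 2 with hrd
  have hr : 0 < r := half_pos (lt_min hδ (by linarith))
  have hr1 : r < δ ∧ r < C0 - 1 := by
    have : 0 < min δ (C0 - 1) := lt_min hδ (by linarith)
    constructor <;> linarith [min_le_left δ (C0 - 1), min_le_right δ (C0 - 1)]
  set k : ℝ → ℝ := fun C => max 0 (r - |C - C0|) with hkd
  have hk : Continuous k := by fun_prop
  have hksupp : ∀ C, k C ≠ 0 → |C - C0| < r := fun C hC => by
    by_contra h; exact hC (max_eq_left (by linarith [not_lt.1 h]))
  have hks : HasCompactSupport k :=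
    HasCompactSupport.of_support_subset_isCompact (K := Icc (C0 - r) (C0 + r)) isCompact_Icc
      fun C hC => by
        have := abs_lt.1 (hksupp C hC)
        constructor <;> linarith [this.1, this.2]
  have hkint : Integrable k := hk.integrable_of_hasCompactSupport hks
  have hint : IntegrableOn (fun C => (k C : ℂ) * D C) (Ioi 1) := by
    have hc : ContinuousOn (fun C => (k C : ℂ) * D C) (Icc (C0 - r) (C0 + r)) :=
      ((Complex.continuous_ofReal.comp hk).continuousOn).mul
        (hD.mono fun C hC => show 1 < C by linarith [hC.1, hr1.2])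
    refine hc.integrableOn_Icc.of_forall_sdiff_eq_zero measurableSet_Ioi fun C hC => ?_
    have : k C = 0 := by
      by_contra h
      have := abs_lt.1 (hksupp C h)
      exact hC.2 ⟨by linarith [this.1], by linarith [this.2]⟩
    simp [this]
  set e0 : ℂ := starRingEnd ℂ (D C0)
  have hge : ∀ C, k C * (‖D C0‖ ^ 2 / 2) ≤ ((k C : ℂ) * D C * e0).re := fun C => by
    by_cases h : k C = 0
    · simp [h]
    · have hd := hball (x := C) (by rw [Real.dist_eq]; linarith [hksupp C h])
      rw [Complex.dist_eq] at hd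
      have e1 : (D C * e0).re = ((D C - D C0) * e0).re + ‖D C0‖ ^ 2 := by
        rw [sub_mul, Complex.sub_re, Complex.mul_conj, Complex.ofReal_re, Complex.normSq_eq_norm_sq]
        ring
      have e2 : |((D C - D C0) * e0).re| ≤ ‖D C0‖ / 2 * ‖D C0‖ := by
        refine (Complex.abs_re_le_norm _).trans ?_
        rw [norm_mul, Complex.norm_conj]
        exact mul_le_mul_of_nonneg_right hd.le (norm_nonneg _)
      rw [mul_assoc, Complex.re_ofReal_mul]
      refine mul_le_mul_of_nonneg_left ?_ (le_max_left _ _)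
      rw [e1]
      nlinarith [abs_le.1 e2]
  -- so the integral against k has positive real part, not zero
  have hpos : 0 < ∫ C in Ioi (1 : ℝ), k C := by
    rw [setIntegral_eq_integral_of_forall_compl_eq_zero fun C hC => ?_]
    · exact Continuous.integral_pos_of_hasCompactSupport_nonneg_nonzero (x := C0) hk hks
        (fun C => le_max_left _ _) (by simp [hkd, hr.le, hr.ne'])
    · by_contra h'
      have := abs_lt.1 (hksupp C h')
      exact hC (show 1 < C by linarith [this.1, hr1.2])
  have hI := hint.mul_const e0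
  have h2 : (∫ C in Ioi (1 : ℝ), k C) * (‖D C0‖ ^ 2 / 2)
      ≤ (∫ C in Ioi (1 : ℝ), (k C : ℂ) * D C * e0).re := by
    rw [← integral_mul_const, show (∫ C in Ioi (1 : ℝ), (k C : ℂ) * D C * e0).re
      = ∫ C in Ioi (1 : ℝ), ((k C : ℂ) * D C * e0).re from (integral_re hI).symm]
    exact integral_mono (hkint.restrict.mul_const _) hI.re hge
  rw [integral_mul_const, h k hk hks hint, zero_mul, Complex.zero_re] at h2
  have : 0 < (∫ C in Ioi (1 : ℝ), k C) * (‖D C0‖ ^ 2 / 2) :=
    mul_pos hpos (by have := norm_pos_iff.2 hne; positivity)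
  linarith

include hP in
/-- **The averaging identity.** The sample at a nondegenerate `n` satisfies `Avg` with parameter
`n / 3`. -/
theorem avg_sampI {n : ℤ} (hn : Nondeg n ψ) : (sampI n hP).Avg ((n : ℝ) / 3) := by
  intro F hF ⟨B, hB⟩ ρ hρ
  set I0 := (sampI n hP).I F with hI0
  set D : ℝ → ℂ := fun C => jAv φ ψ n F C - ((2 * Real.arcosh C : ℝ) : ℂ) * I0 with hDd
  have hJc := continuousOn_jAv hP n hF hB
  have hac := continuousOn_arcosh_ofReal
  have hDc : ContinuousOn D (Ioi 1) := hJc.sub (hac.mul continuousOn_const)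
  -- the defect is orthogonal to every bump, hence zero
  have hzero : D (Real.cosh ρ) = 0 := by
    refine eq_zero_of_bump hDc (fun k hk hks hint => ?_) (Real.one_lt_cosh.2 hρ.ne')
    have hh := test_jAv hP hn hk hks hF hB
    rw [hhat0_arcosh hk hks, mul_assoc] at hh
    replace hh := mul_left_cancel₀ (show ((2 * π : ℝ) : ℂ) ≠ 0 by
      rw [Complex.ofReal_ne_zero]; positivity) hh
    have hb : IntegrableOn (fun C => I0 * ((k C : ℂ) * ((2 * Real.arcosh C : ℝ) : ℂ))) (Ioi 1) := by
      refine Integrable.const_mul ?_ _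
      have hc : Continuous fun C : ℝ => Real.arcosh (max 1 C) :=
        Real.continuousOn_arcosh.comp_continuous (continuous_const.max continuous_id)
          fun C => le_max_left 1 C
      have hcs : HasCompactSupport fun C => (k C : ℂ) * ((2 * Real.arcosh (max 1 C) : ℝ) : ℂ) :=
        (hks.comp_left Complex.ofReal_zero).mul_right
      refine (((by fun_prop : Continuous fun C => (k C : ℂ) *
          ((2 * Real.arcosh (max 1 C) : ℝ) : ℂ)).integrable_of_hasCompactSupport
        hcs).integrableOn (s := Ioi 1)).congr_fun (fun C hC => ?_) measurableSet_Ioi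
      simp only [max_eq_right (le_of_lt (show (1 : ℝ) < C from hC))]
    have e : (fun C => (k C : ℂ) * D C) = fun C => (k C : ℂ) * jAv φ ψ n F C
        - I0 * ((k C : ℂ) * ((2 * Real.arcosh C : ℝ) : ℂ)) := by
      funext C; simp only [hDd]; ring
    have hj : IntegrableOn (fun C => (k C : ℂ) * jAv φ ψ n F C) (Ioi 1) :=
      (hint.add hb).congr_fun (fun C _ => by simp only [Pi.add_apply, hDd]; ring) measurableSet_Ioi
    rw [e, integral_sub hj hb, integral_const_mul, ← hh, hI0]
    ring
  -- evaluate at `C = cosh ρ`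
  have e := sub_eq_zero.1 hzero
  rw [Real.arcosh_cosh hρ.le] at e
  refine Eq.trans ?_ e
  change ∫ p, gI φ ψ n p * _ ∂(muI n) = _
  rw [jAv]
  refine integral_congr_ae (Eventually.of_forall fun p => ?_)
  simp only [dAv_cosh F hρ]
  rfl

section Auto

variable {E : ℕ} [NeZero E]

/-- Left translation of `G1`. -/
noncomputable def lG1 (γ : GL (Fin 2) EI) : G1 (3 * E) ≃ G1 (3 * E) :=
  (Equiv.mulLeft (gr (3 * (3 * E)) γ : GN (3 * E))).subtypeEquiv fun M => by
    simp [ndet_mul, ndet_gr]

/-- Left translation by `γ` permutes a sum over the matrices of norm determinant one. -/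
lemma sum_G1_smul {β : Type*} [AddCommMonoid β] (γ : GL (Fin 2) EI) (f : GN (3 * E) → β) :
    ∑ M : G1 (3 * E), f (gr (3 * (3 * E)) γ * M.1) = ∑ M : G1 (3 * E), f M.1 :=
  (lG1 γ).sum_comp fun M => f M.1

variable (A : Auto E) {Ψ : Lz → ℂ}

/-- The functions indexed by the matrices of norm determinant one, paired with the twists. -/
lemma Auto.pair (hΨ : Per (3 * E) Ψ) :
    IsEigPair (fun M : G1 (3 * E) => A.Φ M.1) (fun M => twist Ψ M.1) where
  isEig M := A.isEig M.1
  bound := A.bound.imp fun _ h => ⟨(norm_nonneg _).trans (h 1 base), fun M v => h M.1 v⟩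
  wbound := hΨ.exists_bound.imp fun _ h => ⟨h.1, fun _ _ => h.2 _⟩
  smul γ := ⟨lG1 γ, fun M v => A.inv γ M.1 v, fun M X => twist_gr_mul hΨ γ M.1 X⟩

/-- The invariant function on `H3` summing `Φ` against the twists of `Ψ` over norm `n`. -/
noncomputable def sG (n : ℤ) (Ψ : Lz → ℂ) (F : ℝ → ℂ) (w : H3) : ℂ :=
  pairSum n (fun M : G1 (3 * E) => A.Φ M.1) (fun M => twist Ψ M.1) F w

end Auto

end Fermat.LT3
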