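import Fermat.Agent.LT3.Coef.Iso
import Mathlib.Algebra.Field.ZMod

/-!
# The neighbours at a prime of degree one

For `π` of norm `p` the matrices with determinant associated to `π` are `g_j Γ`, `j` running over
`P¹(𝔽_p)`; a point of norm divisible by `p` lies in `1 + p [p ∣ Y]` of the images `g_j X g_jᴴ`.
-/

set_option autoImplicit false
open Matrix QuadraticAlgebra

namespace Fermat.LT3
open Fermat.LT

/-- A prime of degree one with its residue map. -/
structure DegOne (π : EI) (p : ℕ) where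
  /-- The reduction map modulo `π` onto `ℤ/p`. -/
  φ : EI →+* ZMod p
  /-- The residue map kills exactly the multiples of `π`. -/
  ker : ∀ x, φ x = 0 ↔ π ∣ x
  /-- The residue map does not kill the conjugate. -/
  star_ne : φ (star π) ≠ 0

variable {π : EI} {p : ℕ} [hp : Fact p.Prime]

/-- An element of prime norm is not zero. -/
lemma ne_zero_of_norm (hn : QuadraticAlgebra.norm π = (p : ℤ)) : π ≠ 0 := fun h => by
  rw [h] at hn
  simp at hn
  exact hp.out.ne_zero (by exact_mod_cast hn.symm)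

omit hp in
/-- A prime of norm `p` times its conjugate is `p`. -/
lemma mul_star_of_norm (hn : QuadraticAlgebra.norm π = (p : ℤ)) : π * star π = (p : EI) := by
  rw [QuadraticAlgebra.norm_def] at hn
  apply QuadraticAlgebra.ext <;> simp
  · linarith
  · ring

/-- **Existence of the residue map.** An element of norm `p ≠ 3` has a residue map onto `ZMod p`
(`DegOne`). -/
theorem exists_degOne (hn : QuadraticAlgebra.norm π = (p : ℤ)) (h3 : p ≠ 3) :
    Nonempty (DegOne π p) := by
  have hprime := hp.out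
  rw [QuadraticAlgebra.norm_def] at hn
  have hn' : π.re ^ 2 + π.re * π.im + π.im ^ 2 = (p : ℤ) := by linarith
  have hpI : Prime (p : ℤ) := Nat.prime_iff_prime_int.1 hprime
  -- p ∤ π.im, so ω ↦ c = -π.re / π.im gives φ : EI → ZMod p
  have ht : (π.im : ZMod p) ≠ 0 := fun h => by
    rw [ZMod.intCast_zmod_eq_zero_iff_dvd] at h
    obtain ⟨k, hk⟩ := h
    have hs : (p : ℤ) ∣ π.re := hpI.dvd_of_dvd_pow (n := 2)
      ⟨1 - π.re * k - (p : ℤ) * k ^ 2, by rw [hk] at hn'; linarith⟩
    obtain ⟨l, hl⟩ := hs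
    rw [hk, hl] at hn'
    have h1 : (p : ℤ) * (l ^ 2 + l * k + k ^ 2) = 1 :=
      mul_left_cancel₀ hpI.ne_zero (by linarith)
    exact hpI.not_isUnit (isUnit_of_dvd_one ⟨_, h1.symm⟩)
  have hzero : (π.re : ZMod p) ^ 2 + (π.re : ZMod p) * π.im + (π.im : ZMod p) ^ 2 = 0 := by
    have := congrArg (fun z : ℤ => (z : ZMod p)) hn'
    simpa using this
  set c : ZMod p := -(π.re : ZMod p) / π.im with hc
  have hct : c * π.im = -(π.re : ZMod p) := div_mul_cancel₀ _ ht
  have hcc : c * c = c - 1 := by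
    refine mul_right_cancel₀ (pow_ne_zero 2 ht) ?_
    linear_combination (c * π.im - (π.re : ZMod p) - (π.im : ZMod p)) * hct + hzero
  let φ : EI →+* ZMod p :=
    { toFun := fun x => (x.re : ZMod p) + c * x.im
      map_one' := by simp
      map_zero' := by simp
      map_add' := fun x y => by simp; ring
      map_mul' := fun x y => by simp; linear_combination (-((x.im : ZMod p) * y.im)) * hcc }
  refine ⟨⟨φ, fun x => ⟨fun hx => ?_, ?_⟩, ?_⟩⟩
  -- φ x = 0 implies π ∣ x, as p divides x * star π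
  · have hx' : (x.re : ZMod p) + c * x.im = 0 := hx
    have h1 : (p : ℤ) ∣ (x * star π).im := by
      rw [← ZMod.intCast_zmod_eq_zero_iff_dvd]
      simp
      linear_combination (-(π.im : ZMod p)) * hx' + (x.im : ZMod p) * hct
    have h2 : (p : ℤ) ∣ (x * star π).re := by
      rw [← ZMod.intCast_zmod_eq_zero_iff_dvd]
      simp
      refine mul_right_cancel₀ ht ?_
      rw [zero_mul]
      linear_combination (π.im : ZMod p) * ((π.re : ZMod p) + π.im) * hx'
        - (x.im : ZMod p) * ((π.re : ZMod p) + π.im) * hct + (x.im : ZMod p) * hzero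
    obtain ⟨a, ha⟩ := h2
    obtain ⟨b, hb⟩ := h1
    refine ⟨⟨a, b⟩, ?_⟩
    refine mul_right_cancel₀ (b := star π) (fun h => hprime.ne_zero ?_) ?_
    · have h2 : (p : EI) = 0 := by
        rw [← mul_star_of_norm (hn := by rw [QuadraticAlgebra.norm_def]; exact hn), h, mul_zero]
      exact_mod_cast h2
    · rw [mul_right_comm, mul_star_of_norm (hn := by rw [QuadraticAlgebra.norm_def]; exact hn)]
      apply QuadraticAlgebra.ext <;> simp at ha hb ⊢ <;> linarith
  · rintro ⟨y, rfl⟩
    have : φ π = 0 := by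
      change (π.re : ZMod p) + c * π.im = 0
      rw [hct, add_neg_cancel]
    rw [map_mul, this, zero_mul]
  -- φ (star π) ≠ 0, since p ≠ 3
  · change ((star π).re : ZMod p) + c * (star π).im ≠ 0
    simp
    intro h
    have h2 : (2 : ZMod p) * π.re + π.im = 0 := by linear_combination h + hct
    have h3' : (3 : ZMod p) * (π.im : ZMod p) ^ 2 = 0 := by
      linear_combination (4 : ZMod p) * hzero - ((2 : ZMod p) * π.re + π.im) * h2
    rcases mul_eq_zero.1 h3' with h4 | h4
    · have h5 : ((3 : ℕ) : ZMod p) = 0 := by exact_mod_cast h4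
      rw [ZMod.natCast_eq_zero_iff] at h5
      exact h3 ((Nat.prime_dvd_prime_iff_eq hprime Nat.prime_three).1 h5)
    · exact ht (eq_zero_of_pow_eq_zero h4)

variable (π p) in
/-- The `p + 1` matrices `[[π, u], [0, 1]]` and `[[1, 0], [0, π]]` of the neighbours at `π`. -/
def gJ : Option (ZMod p) → Matrix (Fin 2) (Fin 2) EI
  | some u => !![π, (u.val : EI); 0, 1]
  | none => !![1, 0; 0, π]

variable (p) in
/-- The row of a neighbour. -/
def rJ : Option (ZMod p) → ZMod p × ZMod p
  | some u => (1, -u)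
  | none => (0, 1)

/-- The neighbour matrices have determinant `π`. -/
lemma det_gJ (j : Option (ZMod p)) : (gJ π p j).det = π := by
  cases j <;> simp [gJ, Matrix.det_fin_two_of]

/-- A neighbour adjugate times the neighbour matrix is the scalar `π`. -/
lemma adj_mul_gJ (j : Option (ZMod p)) : (gJ π p j).adjugate * gJ π p j = π • 1 := by
  rw [Matrix.adjugate_mul, det_gJ]

/-- A neighbour matrix times its adjugate is the scalar `π`. -/
lemma gJ_mul_adj (j : Option (ZMod p)) : gJ π p j * (gJ π p j).adjugate = π • 1 := by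
  rw [Matrix.mul_adjugate, det_gJ]

/-- Left kernels of singular matrices over a field. -/
lemma exists_row {A : Matrix (Fin 2) (Fin 2) (ZMod p)} (h : A.det = 0) :
    ∃ j : Option (ZMod p), ∀ k, (rJ p j).1 * A 0 k + (rJ p j).2 * A 1 k = 0 := by
  rw [Matrix.det_fin_two] at h
  by_cases h0 : A 1 0 = 0 ∧ A 1 1 = 0
  · exact ⟨none, fun k => by fin_cases k <;> simp [rJ, h0.1, h0.2]⟩
  by_cases h10 : A 1 0 = 0
  · refine ⟨some (A 0 1 / A 1 1), fun k => ?_⟩
    have h11 : A 1 1 ≠ 0 := fun e => h0 ⟨h10, e⟩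
    rw [h10, mul_zero, sub_zero] at h
    have h00 : A 0 0 = 0 := (mul_eq_zero.1 h).resolve_right h11
    fin_cases k <;> simp [rJ, h00, h10, div_mul_cancel₀ _ h11]
  · refine ⟨some (A 0 0 / A 1 0), fun k => ?_⟩
    fin_cases k
    · simp [rJ, div_mul_cancel₀ _ h10]
    · simp [rJ]
      field_simp
      linear_combination (-1 : ZMod p) * h

/-- A matrix killed by two different neighbour rows vanishes. -/
lemma eq_zero_of_two_rows {A : Matrix (Fin 2) (Fin 2) (ZMod p)} {i j : Option (ZMod p)}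
    (hij : i ≠ j) (hi : ∀ k, (rJ p i).1 * A 0 k + (rJ p i).2 * A 1 k = 0)
    (hj : ∀ k, (rJ p j).1 * A 0 k + (rJ p j).2 * A 1 k = 0) : A = 0 := by
  have key : ∀ k, A 0 k = 0 ∧ A 1 k = 0 := fun k => by
    have a := hi k
    have b := hj k
    rcases i with _ | u <;> rcases j with _ | v <;>
      simp only [rJ, one_mul, zero_mul, zero_add] at a b
    · exact absurd rfl hij
    · exact ⟨by linear_combination b + v * a, a⟩
    · exact ⟨by linear_combination a + u * b, b⟩
    · have huv : v - u ≠ 0 := sub_ne_zero.2 fun e => hij (by rw [e])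
      have h1 : A 1 k = 0 := (mul_eq_zero.1 (show (v - u) * A 1 k = 0 by
        linear_combination a - b)).resolve_left huv
      exact ⟨by rw [h1] at a; simpa using a, h1⟩
  ext a b
  fin_cases a
  · exact (key b).1
  · exact (key b).2

variable (D : DegOne π p)
include D

/-- A neighbour adjugate kills a matrix exactly when the neighbour row kills it. -/
lemma φ_adj_apply (j : Option (ZMod p)) (A : Matrix (Fin 2) (Fin 2) (ZMod p)) :
    ((gJ π p j).adjugate.map D.φ * A = 0 ↔
      ∀ k, (rJ p j).1 * A 0 k + (rJ p j).2 * A 1 k = 0) := by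
  have hπ : D.φ π = 0 := (D.ker π).2 dvd_rfl
  rcases j with _ | u
  · have e : (gJ π p none).adjugate.map D.φ = !![0, 0; 0, 1] := by
      ext a b; fin_cases a <;> fin_cases b <;> simp [gJ, Matrix.adjugate_fin_two, hπ]
    rw [e, ← Matrix.ext_iff]
    constructor
    · intro h k; simpa [rJ, Matrix.mul_apply, Fin.sum_univ_two] using h 1 k
    · intro h a b
      fin_cases a
      · simp [Matrix.mul_apply, Fin.sum_univ_two]
      · simpa [rJ, Matrix.mul_apply, Fin.sum_univ_two] using h b
  · have e : (gJ π p (some u)).adjugate.map D.φ = !![1, -u; 0, 0] := by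
      ext a b; fin_cases a <;> fin_cases b <;> simp [gJ, Matrix.adjugate_fin_two, hπ]
    rw [e, ← Matrix.ext_iff]
    constructor
    · intro h k; simpa [rJ, Matrix.mul_apply, Fin.sum_univ_two] using h 0 k
    · intro h a b
      fin_cases a
      · simpa [rJ, Matrix.mul_apply, Fin.sum_univ_two] using h b
      · simp [Matrix.mul_apply, Fin.sum_univ_two]

/-- A matrix vanishes modulo `π` exactly when it is a multiple of `π`. -/
lemma map_φ_eq_zero_iff (m : Matrix (Fin 2) (Fin 2) EI) :
    m.map D.φ = 0 ↔ ∃ δ : Matrix (Fin 2) (Fin 2) EI, m = π • δ := by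
  constructor
  · intro h
    choose δ hδ using fun a b => (D.ker (m a b)).1 (congrFun (congrFun h a) b)
    exact ⟨δ, Matrix.ext fun a b => hδ a b⟩
  · rintro ⟨δ, rfl⟩
    ext a b
    simp [(D.ker π).2 dvd_rfl]

/-- Every matrix with determinant associated to `π` is `g_j δ`. -/
lemma exists_gJ_mul {g : Matrix (Fin 2) (Fin 2) EI} (hg : Associated g.det π) :
    ∃ (j : Option (ZMod p)) (δ : GL (Fin 2) EI), gJ π p j * δ.val = g := by
  obtain ⟨j, hj⟩ := exists_row (A := g.map D.φ) (by
    rw [← RingHom.mapMatrix_apply, ← RingHom.map_det, D.ker]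
    exact hg.symm.dvd)
  have h0 : ((gJ π p j).adjugate * g).map D.φ = 0 := by
    rw [Matrix.map_mul]; exact (φ_adj_apply D j _).2 hj
  obtain ⟨δ, hδ⟩ := (map_φ_eq_zero_iff D _).1 h0
  have hπ0 : π ≠ 0 := fun h => D.star_ne (by simp [h])
  obtain ⟨u, hu⟩ := hg
  have hdet : IsUnit δ.det := by
    have e := congrArg Matrix.det hδ
    rw [Matrix.det_mul, Matrix.det_adjugate, det_gJ, Matrix.det_smul] at e
    simp only [Fintype.card_fin, pow_one, show (2 : ℕ) - 1 = 1 from rfl] at e
    have e2 : δ.det * (u : EI) = 1 := by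
      refine mul_left_cancel₀ (pow_ne_zero 2 hπ0) ?_
      rw [mul_one, ← mul_assoc, ← e, mul_assoc, hu, sq]
    exact IsUnit.of_mul_eq_one _ e2
  refine ⟨j, Matrix.GeneralLinearGroup.mk'' δ hdet, ?_⟩
  refine smul_right_injective _ hπ0 ?_
  change π • (gJ π p j * δ) = π • g
  rw [← Matrix.mul_smul, ← hδ, ← Matrix.mul_assoc, gJ_mul_adj, Matrix.smul_mul, Matrix.one_mul]

/-- A product `gJ j * δ` with `δ` invertible determines `j` and `δ`. -/
lemma gJ_mul_injective :
    Function.Injective fun q : Option (ZMod p) × GL (Fin 2) EI => gJ π p q.1 * q.2.val := by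
  rintro ⟨i, δ⟩ ⟨j, δ'⟩ h
  simp only at h
  have hπ0 : π ≠ 0 := fun e => D.star_ne (by simp [e])
  have hij : i = j := by
    have e : (gJ π p j).adjugate * gJ π p i = π • (δ'.val * (δ⁻¹ : GL (Fin 2) EI).val) := by
      have h2 : gJ π p i = gJ π p j * (δ'.val * (δ⁻¹ : GL (Fin 2) EI).val) := by
        rw [← Matrix.mul_assoc, ← h, Matrix.mul_assoc, Units.mul_inv, Matrix.mul_one]
      rw [h2, ← Matrix.mul_assoc, adj_mul_gJ, Matrix.smul_mul, Matrix.one_mul]
    have h0 := (φ_adj_apply D j ((gJ π p i).map D.φ)).1 (by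
      rw [← Matrix.map_mul, e]; exact (map_φ_eq_zero_iff D _).2 ⟨_, rfl⟩)
    have a := h0 0
    have b := h0 1
    rcases i with _ | u <;> rcases j with _ | v <;>
      simp [rJ, gJ, (D.ker π).2 dvd_rfl] at a b ⊢
    exact sub_eq_zero.1 (by rw [sub_eq_add_neg]; exact b)
  subst hij
  refine Prod.ext rfl (Units.ext ?_)
  change δ.val = δ'.val
  refine smul_right_injective _ hπ0 ?_
  change π • δ.val = π • δ'.val
  rw [← Matrix.one_mul δ.val, ← Matrix.smul_mul, ← adj_mul_gJ i, Matrix.mul_assoc, h,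
    ← Matrix.mul_assoc, adj_mul_gJ, Matrix.smul_mul, Matrix.one_mul]

/-- Points whose matrix vanishes at `π` are divisible by `p`. -/
lemma exists_smul_of_map_zero (hn : QuadraticAlgebra.norm π = (p : ℤ)) {Z : Lz}
    (h : (mE Z).map D.φ = 0) : ∃ W : Lz, Z = (p : ℤ) • W := by
  have hdiv : ∀ x : EI, D.φ x = 0 → D.φ (star x) = 0 → (p : ℤ) ∣ x.re ∧ (p : ℤ) ∣ x.im := by
    intro x hx hx'
    obtain ⟨y, rfl⟩ := (D.ker x).1 hx
    rw [star_mul', map_mul, mul_eq_zero] at hx'
    obtain ⟨w, hw⟩ := (D.ker (star y)).1 (hx'.resolve_left D.star_ne)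
    have : π * y = (p : EI) * star w := by
      rw [← mul_star_of_norm hn, mul_assoc, ← star_mul', ← hw, star_star]
    rw [this]
    exact ⟨⟨(star w).re, by simp⟩, ⟨(star w).im, by simp⟩⟩
  have e : ∀ a b, D.φ (mE Z a b) = 0 := fun a b => congrFun (congrFun h a) b
  have hcoord : ∀ a : ℤ, D.φ (sR * (a : EI)) = 0 → (p : ℤ) ∣ a := fun a ha => by
    have hd := hdiv _ ha (by
      rw [star_mul', star_intCast, show star sR = -sR by apply QuadraticAlgebra.ext <;> simp [sR],
        neg_mul, map_neg, ha, neg_zero])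
    have := hd.1
    simpa [sR] using this
  obtain ⟨a, ha⟩ := hcoord Z.1 (by simpa [mE] using e 0 0)
  obtain ⟨d, hd⟩ := hcoord Z.2.2 (by simpa [mE] using e 1 1)
  have hb1 : D.φ (bY Z.2.1) = 0 := by simpa [mE] using e 0 1
  have hb2 : D.φ (star (bY Z.2.1)) = 0 := by simpa [mE] using e 1 0
  obtain ⟨hr, hi⟩ := hdiv _ hb1 hb2
  simp [bY] at hr hi
  obtain ⟨b, hb⟩ := hr
  obtain ⟨c, hc⟩ := hi
  exact ⟨(a, (c, b), d), Prod.ext (by simpa using ha) (Prod.ext (Prod.ext (by simpa using hc)
    (by simpa using hb)) (by simpa using hd))⟩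

/-- Membership in an image. -/
lemma mem_image_iff (hn : QuadraticAlgebra.norm π = (p : ℤ)) (j : Option (ZMod p))
    (Y : Lz) : (∃ X, dact (gJ π p j) X = Y) ↔
      ∀ k, (rJ p j).1 * D.φ (mE Y 0 k) + (rJ p j).2 * D.φ (mE Y 1 k) = 0 := by
  have hunit : IsUnit ((gJ π p j).adjugateᴴ.map D.φ).det := by
    rw [isUnit_iff_ne_zero, ← RingHom.mapMatrix_apply, ← RingHom.map_det, Matrix.det_conjTranspose,
      Matrix.det_adjugate, det_gJ]
    simpa using D.star_ne
  have key : ∀ k, ((rJ p j).1 * D.φ (mE Y 0 k) + (rJ p j).2 * D.φ (mE Y 1 k)) =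
      ((rJ p j).1 * (mE Y).map D.φ 0 k + (rJ p j).2 * (mE Y).map D.φ 1 k) := fun k => rfl
  simp only [key]
  rw [← φ_adj_apply D j ((mE Y).map D.φ)]
  have hsplit : (mE (dact (gJ π p j).adjugate Y)).map D.φ
      = (gJ π p j).adjugate.map D.φ * (mE Y).map D.φ * (gJ π p j).adjugateᴴ.map D.φ := by
    rw [mE_dact, Matrix.map_mul, Matrix.map_mul]
  constructor
  -- on the image, the adjugate conjugate vanishes modulo `π`
  · rintro ⟨X, rfl⟩
    have h0 : (mE (dact (gJ π p j).adjugate (dact (gJ π p j) X))).map D.φ = 0 := by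
      rw [← dact_mul, adj_mul_gJ, mE_dact, Matrix.map_mul, Matrix.map_mul,
        (map_φ_eq_zero_iff D _).2 ⟨1, rfl⟩, Matrix.zero_mul, Matrix.zero_mul]
    rw [hsplit] at h0
    calc _ = (gJ π p j).adjugate.map D.φ * (mE (dact (gJ π p j) X)).map D.φ
          * (gJ π p j).adjugateᴴ.map D.φ * ((gJ π p j).adjugateᴴ.map D.φ)⁻¹ :=
        (Matrix.mul_nonsing_inv_cancel_right _ _ hunit).symm
      _ = 0 := by rw [h0, Matrix.zero_mul]
  · intro h
    -- conversely it is divisible by `π`; multiply back by `gJ`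
    obtain ⟨X, hX⟩ := exists_smul_of_map_zero D hn (Z := dact (gJ π p j).adjugate Y)
      (by rw [hsplit, h, Matrix.zero_mul])
    refine ⟨X, ?_⟩
    have e : dact (π • (1 : Matrix (Fin 2) (Fin 2) EI)) Y = (p : ℤ) • Y := by
      refine mE_injective ?_
      rw [mE_dact, Matrix.smul_mul, Matrix.one_mul, Matrix.conjTranspose_smul,
        Matrix.conjTranspose_one,
        Matrix.mul_smul, Matrix.mul_one, smul_smul, mul_comm (star π), mul_star_of_norm hn]
      ext a b : 1
      fin_cases a <;> fin_cases b <;> simp [mE, bY, QuadraticAlgebra.ext_iff] <;> ring_nf <;> simp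
    rw [← gJ_mul_adj j, dact_mul, hX, dact_smul] at e
    exact smul_right_injective Lz (by exact_mod_cast hp.out.ne_zero) e

open scoped Classical in
/-- **The multiplicity**: for `p ∣ q3 Y` the number of `gJ j` reaching `Y` is `p + 1` if `Y` is `p`
times a point, one otherwise. -/
theorem card_image (hn : QuadraticAlgebra.norm π = (p : ℤ)) {Y : Lz}
    (hY : (p : ℤ) ∣ q3 Y) :
    ((Finset.univ : Finset (Option (ZMod p))).filter fun j => ∃ X, dact (gJ π p j) X = Y).card
      = if ∃ W, Y = (p : ℤ) • W then p + 1 else 1 := by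
  simp only [mem_image_iff D hn]
  set A := (mE Y).map D.φ with hA
  have hdet : A.det = 0 := by
    rw [hA, ← RingHom.mapMatrix_apply, ← RingHom.map_det]
    have e : (mE Y).det = ((q3 Y : ℤ) : EI) := by
      rw [Matrix.det_fin_two]
      apply QuadraticAlgebra.ext <;> simp [mE, q3, qd, bY, sR, sq] <;> ring
    rw [e]
    obtain ⟨k, hk⟩ := hY
    rw [hk]
    simp
  split_ifs with hW
  · obtain ⟨W, rfl⟩ := hW
    have h0 : ∀ a b, D.φ (mE ((p : ℤ) • W) a b) = 0 := fun a b => by
      have e : mE ((p : ℤ) • W) a b = (p : EI) * mE W a b := by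
        fin_cases a <;> fin_cases b <;> simp [mE, bY, QuadraticAlgebra.ext_iff] <;> ring_nf <;> simp
      rw [e, map_mul, map_natCast, ZMod.natCast_self, zero_mul]
    rw [Finset.filter_eq_self.2 fun j _ k => by rw [h0, h0, mul_zero, mul_zero, add_zero]]
    simp [ZMod.card]
  · obtain ⟨j, hj⟩ := exists_row hdet
    rw [Finset.card_eq_one]
    refine ⟨j, Finset.eq_singleton_iff_unique_mem.2
      ⟨Finset.mem_filter.2 ⟨Finset.mem_univ _, hj⟩, ?_⟩⟩
    intro i hi
    by_contra hne
    exact hW (exists_smul_of_map_zero D hn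
      (eq_zero_of_two_rows hne (Finset.mem_filter.1 hi).2 hj))

end Fermat.LT3
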