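import Fermat.Agent.LT3.Coef.Avg
import Fermat.Agent.LT3.Coef.Count

/-!
# The Hecke relation of the samples

At a prime `π` of degree one with `p = norm π ≡ 1 (mod 9E)`:
`λ I_n[F] = I_{pn}[F(·/√p)] + p I_{n/p}[F(√p ·)]`. The unfolding `sum_integral_unfold` and the
multiplicities `sum_hFun_eq_pairSum` hold for any family, so that they also serve `LTG.W1`.
-/

set_option autoImplicit false
open Matrix QuadraticAlgebra MeasureTheory Filter
open scoped Classical

namespace Fermat.LT3
open Fermat.LT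

/-- A series over a product with a finite factor is summed fibre by fibre. -/
lemma hasSum_fintype_prod {ι α : Type*} [Fintype ι] {f : ι × α → ℂ} {a : ι → ℂ}
    (h : ∀ i, HasSum (fun x => f (i, x)) (a i)) : HasSum f (∑ i, a i) := by
  have e : f = fun x => ∑ i, if x.1 = i then f x else 0 := funext fun x => by simp
  rw [e]
  refine hasSum_sum fun i _ => ?_
  have hi : Function.Injective fun x : α => (i, x) := fun x y h => (Prod.mk.inj h).2
  refine (hi.hasSum_iff fun x hx => if_neg fun hxi => hx ⟨x.2, Prod.ext hxi.symm rfl⟩).1 ?_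
  simpa [Function.comp_def] using h i

/-- The adjugate on `GL₂`. -/
def adjGL (δ : GL (Fin 2) EI) : GL (Fin 2) EI where
  val := δ.val.adjugate
  inv := (δ⁻¹ : GL (Fin 2) EI).val.adjugate
  val_inv := by rw [← Matrix.adjugate_mul_distrib, Units.inv_mul, Matrix.adjugate_one]
  inv_val := by rw [← Matrix.adjugate_mul_distrib, Units.mul_inv, Matrix.adjugate_one]

/-- The adjugate of a `2 × 2` matrix is an involution. -/
lemma adjugate_adjugate_two (m : Matrix (Fin 2) (Fin 2) EI) : m.adjugate.adjugate = m := by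
  rw [Matrix.adjugate_fin_two m, Matrix.adjugate_fin_two_of, ← Matrix.ext_iff]
  intro a b
  fin_cases a <;> fin_cases b <;> simp

/-- The adjugate on `GL₂` is an involution. -/
lemma adjGL_adjGL (δ : GL (Fin 2) EI) : adjGL (adjGL δ) = δ :=
  Units.ext (adjugate_adjugate_two δ.val)

/-- The profile `F` at heights divided by `√p`. -/
noncomputable def dn (p : ℕ) (F : ℝ → ℂ) (x : ℝ) : ℂ := F (x / Real.sqrt p)

/-- The profile `F` at heights multiplied by `√p`. -/
noncomputable def up (p : ℕ) (F : ℝ → ℂ) (x : ℝ) : ℂ := F (Real.sqrt p * x)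

/-- Scaling the heights down preserves decay. -/
lemma decay_dn {p : ℕ} (hp : 0 < p) {F : ℝ → ℂ} (hF : Samp.Decay F) : Samp.Decay (dn p F) := by
  obtain ⟨hc, a, C, ha, hC⟩ := hF
  refine ⟨by unfold dn; fun_prop, a / p, C, div_pos ha (Nat.cast_pos.2 hp), fun x =>
    (hC _).trans_eq ?_⟩
  rw [div_pow, Real.sq_sqrt (Nat.cast_nonneg p), mul_div_assoc', div_mul_eq_mul_div]

/-- Scaling the heights up preserves decay. -/
lemma decay_up {p : ℕ} (hp : 0 < p) {F : ℝ → ℂ} (hF : Samp.Decay F) : Samp.Decay (up p F) := by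
  obtain ⟨hc, a, C, ha, hC⟩ := hF
  refine ⟨by unfold up; fun_prop, a * p, C, mul_pos ha (Nat.cast_pos.2 hp), fun x =>
    (hC _).trans_eq ?_⟩
  rw [mul_pow, Real.sq_sqrt (Nat.cast_nonneg p), mul_assoc]

variable {E : ℕ} [NeZero E]

/-- A matrix of nonzero determinant acts injectively. -/
lemma dact_injective_of_det {g : Matrix (Fin 2) (Fin 2) EI} (hd : g.det ≠ 0) :
    Function.Injective (dact g) := fun X Y h => by
  have h2 := congrArg (fun Z => mE (dact g.adjugate Z)) h
  simp only [← dact_mul, Matrix.adjugate_mul, mE_dact, Matrix.smul_mul, Matrix.one_mul,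
    Matrix.conjTranspose_smul, Matrix.conjTranspose_one, Matrix.mul_smul, Matrix.mul_one,
      smul_smul] at h2
  exact mE_injective (smul_right_injective _ (mul_ne_zero (star_eq_zero.not.2 hd) hd) h2)

/-- Bound for a weighted finite sum of products. -/
lemma rho0_norm_sum_le {ι : Type*} [Fintype ι] {a b : ι → ℂ} {Cp C : ℝ} (hCp : 0 ≤ Cp) (w : H3)
    (ha : ∀ i, ‖a i‖ ≤ Cp) (hb : ∀ i, ‖b i‖ ≤ C * (1 + (H3.coord w).2) * (1 + ((H3.coord w).2)⁻¹)) :
    rho0 w * ‖∑ i, a i * b i‖ ≤ (Fintype.card ι : ℝ) * (Cp * C) * wt w := by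
  refine (mul_le_mul_of_nonneg_left ((norm_sum_le _ _).trans ((Finset.sum_le_sum
    (g := fun _ : ι => Cp * (C * (1 + (H3.coord w).2) * (1 + ((H3.coord w).2)⁻¹)))
    fun i _ => ?_).trans_eq (Finset.sum_const _))) (part_rho0.nonneg w)).trans_eq ?_
  · rw [norm_mul]
    exact mul_le_mul (ha i) (hb i) (norm_nonneg _) hCp
  · rw [Finset.card_univ, nsmul_eq_mul, wt]; ring

/-- Integrability against the weight. -/
lemma integrable_rho0_mul {f : H3 → ℂ} (hf : Measurable f) {C : ℝ}
    (h : ∀ v, rho0 v * ‖f v‖ ≤ C * wt v) : Integrable (fun v => (rho0 v : ℂ) * f v) hmeas := by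
  refine (integrable_wt.norm.const_mul C).mono'
    ((Complex.measurable_ofReal.comp part_rho0.meas).mul hf).aestronglyMeasurable
    (Eventually.of_forall fun v => ?_)
  rw [norm_mul, Complex.norm_real, Complex.norm_real, Real.norm_of_nonneg (part_rho0.nonneg v),
    Real.norm_of_nonneg (wt_nonneg v)]
  exact h v

/-- A periodic function is unchanged by a scalar which is `1` modulo `3N`. -/
lemma per_smul_one {N : ℕ} [NeZero N] {Ψ : Lz → ℂ} (hΨ : Per N Ψ) {k : ℤ}
    (hk : (k : ZMod (3 * N)) = 1) (Z : Lz) : Ψ (k • Z) = Ψ Z := by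
  refine hΨ.eq_of_red ?_
  have h1 : (k : ZMod N) = 1 := by
    have h := congrArg (ZMod.castHom (dvd_mul_left N 3) (ZMod N)) hk
    simpa using h
  simp [red4, redv, hk, h1]

omit [NeZero E] in
/-- A prime that is a unit modulo `9E` is not `3`. -/
lemma ne_three_of_isUnit {p : ℕ} (h9 : IsUnit (p : ZMod (3 * (3 * E)))) : p ≠ 3 := by
  rintro rfl
  have h := h9.map (ZMod.castHom (dvd_mul_right 3 (3 * E)) (ZMod 3))
  simp only [map_natCast, ZMod.natCast_self] at h
  exact not_isUnit_zero h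

omit [NeZero E] in
/-- An element of norm `p` prime to `9E` is a unit modulo `9E`. -/
lemma isUnit_red_of_norm {π : EI} {p : ℕ} [Fact p.Prime] (hn : QuadraticAlgebra.norm π = (p : ℤ))
    (h9 : IsUnit (p : ZMod (3 * (3 * E)))) : IsUnit (red (3 * (3 * E)) π) := by
  refine isUnit_of_mul_isUnit_left (y := red (3 * (3 * E)) (star π)) ?_
  rw [← map_mul, mul_star_of_norm hn, map_natCast]
  simpa using h9.map (algebraMap (ZMod (3 * (3 * E))) (ER (ZMod (3 * (3 * E)))))

section Pairing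

variable {ι : Type*} [Fintype ι] {φ : ι → H3 → ℂ} {ψ : ι → Lz → ℂ} {π : EI} {p : ℕ}

/-- The weighted pairing is integrable. -/
lemma integrable_rho0_pairSum (hc : ∀ i, Measurable (φ i)) (hb : ∃ C, 0 ≤ C ∧ ∀ i v, ‖φ i v‖ ≤ C)
    (hw : ∃ B, 0 ≤ B ∧ ∀ i X, ‖ψ i X‖ ≤ B) (n : ℤ) {F : ℝ → ℂ} (hF : Samp.Decay F) :
    Integrable (fun u => (rho0 u : ℂ) * pairSum n φ ψ F u) hmeas := by
  obtain ⟨Ca, -, hCa⟩ := exists_aM_bound hw n hF
  obtain ⟨Cp, hCp0, hCp⟩ := hb
  exact integrable_rho0_mul (Finset.measurable_sum _ fun i _ =>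
      (hc i).mul (measurable_aM n hF (ψ i)))
    fun w => rho0_norm_sum_le hCp0 w (fun i => hCp _ _)
      fun i => (norm_tsum_le_tsum_norm (hCa i w).1).trans (hCa i w).2

/-- The series of a matrix of norm `p`. -/
noncomputable def hSer (n : ℤ) (f : Lz → ℂ) (p : ℕ) (F : ℝ → ℂ) (g : Matrix (Fin 2) (Fin 2) EI)
    (v : H3) : ℂ :=
  ∑' X : {X : Lz // q3 X = n}, f (dact g.adjugate X.1)
    * dn p F (lin (vec (dact g.adjugate X.1)) v)

/-- The sum over the components of `φ` times the series `hSer` of `ψ` moved by `g`. -/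
noncomputable def hFun (φ : ι → H3 → ℂ) (ψ : ι → Lz → ℂ) (n : ℤ) (p : ℕ) (F : ℝ → ℂ)
    (g : Matrix (Fin 2) (Fin 2) EI) (v : H3) : ℂ :=
  ∑ i, φ i v * hSer n (ψ i) p F g v

/-- A determinant associated to `π` has the norm of `π`. -/
lemma norm_det_assoc {g : Matrix (Fin 2) (Fin 2) EI} (hg : Associated g.det π) :
    QuadraticAlgebra.norm g.det = QuadraticAlgebra.norm π := by
  obtain ⟨u, rfl⟩ := hg
  rw [map_mul, norm_unit_EI, mul_one]

variable [hp : Fact p.Prime]

attribute [local irreducible] dact lin vec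

/-- The series `hSer` converges absolutely with a bound `C (1 + t) (1 + 1/t)` that
holds for all matrices with determinant associated to `π`. -/
lemma exists_hSer_bound {α : Type*} {f : α → Lz → ℂ} (hf : ∃ B, 0 ≤ B ∧ ∀ i X, ‖f i X‖ ≤ B)
    (hn : QuadraticAlgebra.norm π = (p : ℤ)) (n : ℤ)
    {F : ℝ → ℂ} (hF : Samp.Decay F) :
    ∃ C, 0 ≤ C ∧ ∀ (g : Matrix (Fin 2) (Fin 2) EI), Associated g.det π → ∀ (M : α) (v : H3),
      Summable (fun X : {X : Lz // q3 X = n} => ‖f M (dact g.adjugate X.1)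
        * dn p F (lin (vec (dact g.adjugate X.1)) v)‖) ∧
      ‖hSer n (f M) p F g v‖ ≤ C * (1 + (H3.coord v).2) * (1 + ((H3.coord v).2)⁻¹) := by
  obtain ⟨C, hC0, hC⟩ := exists_aM_bound hf ((p : ℤ) * n) (decay_dn hp.out.pos hF)
  refine ⟨C, hC0, fun g hg M v => ?_⟩
  have hd0 : g.det ≠ 0 := fun h => by
    rw [h] at hg
    exact ne_zero_of_norm hn ((associated_zero_iff_eq_zero π).1 hg.symm)
  obtain ⟨e₀, hιv⟩ : ∃ ι : {X : Lz // q3 X = n} → {Y : Lz // q3 Y = (p : ℤ) * n},
      ∀ X, (ι X).1 = dact g.adjugate X.1 :=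
    ⟨fun X => ⟨dact g.adjugate X.1, by
      rw [q3_dact, Matrix.det_adjugate, show Fintype.card (Fin 2) - 1 = 1 from rfl, pow_one,
        norm_det_assoc hg, hn, X.2]⟩, fun _ => rfl⟩
  have hι : Function.Injective e₀ := fun X Y h => Subtype.ext (dact_injective_of_det
    (g := g.adjugate) (by rw [Matrix.det_adjugate]; exact pow_ne_zero _ hd0)
    (by rw [← hιv, ← hιv, h]))
  obtain ⟨hs, hle⟩ := hC M v
  set q : {Y : Lz // q3 Y = (p : ℤ) * n} → ℝ := fun Y =>
    ‖f M Y.1 * dn p F (lin (vec Y.1) v)‖ with hq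
  have e : (fun X : {X : Lz // q3 X = n} => ‖f M (dact g.adjugate X.1)
      * dn p F (lin (vec (dact g.adjugate X.1)) v)‖) = q ∘ e₀ := by
    funext X
    simp only [hq, Function.comp_apply, hιv]
  have hsum : Summable (q ∘ e₀) := Summable.comp_injective hs hι
  refine ⟨e ▸ hsum, ?_⟩
  rw [hSer]
  refine (norm_tsum_le_tsum_norm (e ▸ hsum)).trans (le_trans ?_ hle)
  rw [e]
  exact hsum.tsum_le_tsum_of_inj e₀ hι (fun _ _ => norm_nonneg _) (fun _ => le_refl _) hs

omit hp in
/-- A unit on the right of the matrix moves the argument. -/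
lemma hFun_mul_right (hP : IsEigPair φ ψ) (n : ℤ) (F : ℝ → ℂ) (g : Matrix (Fin 2) (Fin 2) EI)
    (δ : GL (Fin 2) EI) (v : H3) :
    hFun φ ψ n p F (g * δ.val) v = hFun φ ψ n p F g (gC δ • v) := by
  have hadj : ∀ Z, dact δ.val.adjugate Z = dact (δ⁻¹ : GL (Fin 2) EI).val Z := fun Z => by
    have e : δ.val.adjugate = δ.val.det • (δ⁻¹ : GL (Fin 2) EI).val := by
      calc δ.val.adjugate = δ.val.adjugate * (δ.val * (δ⁻¹ : GL (Fin 2) EI).val) := by
            rw [Units.mul_inv, Matrix.mul_one]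
        _ = _ := by rw [← Matrix.mul_assoc, Matrix.adjugate_mul, Matrix.smul_mul, Matrix.one_mul]
    refine mE_injective ?_
    rw [e, mE_dact, mE_dact, Matrix.smul_mul, Matrix.conjTranspose_smul, Matrix.mul_smul,
      Matrix.smul_mul, smul_smul]
    have hu : star δ.val.det * δ.val.det = 1 := by
      have := norm_unit_EI (Matrix.GeneralLinearGroup.det δ)
      rw [Matrix.GeneralLinearGroup.val_det_apply, QuadraticAlgebra.norm_def] at this
      apply QuadraticAlgebra.ext <;> simp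
      · linarith
      · ring
    rw [hu, one_smul]
  obtain ⟨e, he, he'⟩ := hP.smul δ
  rw [hFun, hFun, ← e.sum_comp fun N => φ N (gC δ • v) * hSer n (ψ N) p F g (gC δ • v)]
  refine Finset.sum_congr rfl fun M _ => ?_
  rw [he]
  congr 1
  refine tsum_congr fun X => ?_
  rw [Matrix.adjugate_mul_distrib, dact_mul, hadj]
  set Y := dact g.adjugate X.1
  have e1 : ψ M (dact (δ⁻¹ : GL (Fin 2) EI).val Y) = ψ (e M) Y := by
    rw [← he' M, ← dact_mul, Units.mul_inv, dact_one]
  have e2 : lin (vec (dact (δ⁻¹ : GL (Fin 2) EI).val Y)) v = lin (vec Y) (gC δ • v) := by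
    conv_rhs => rw [show Y = dact δ.val (dact (δ⁻¹ : GL (Fin 2) EI).val Y) by
      rw [← dact_mul, Units.mul_inv, dact_one]]
    rw [lin_vec_dact]
  rw [e1, e2]

omit hp in
/-- A unit on the left of the matrix does not change the invariant sum. -/
lemma hFun_mul_left (n : ℤ) (F : ℝ → ℂ) (g : Matrix (Fin 2) (Fin 2) EI)
    (ε : GL (Fin 2) EI) (v : H3) :
    hFun φ ψ n p F (ε.val * g) v = hFun φ ψ n p F g v := by
  refine Finset.sum_congr rfl fun M _ => ?_
  congr 1
  rw [hSer, hSer, ← (dequivN n (adjGL ε)).tsum_eq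
    (fun X => ψ M (dact g.adjugate X.1) * dn p F (lin (vec (dact g.adjugate X.1)) v))]
  refine tsum_congr fun X => ?_
  rw [Matrix.adjugate_mul_distrib, dact_mul]
  rfl

/-- The invariant sum of a matrix is measurable. -/
lemma measurable_hFun (hP : IsEigPair φ ψ) (n : ℤ) {F : ℝ → ℂ} (hF : Samp.Decay F)
    (g : Matrix (Fin 2) (Fin 2) EI) :
    Measurable (hFun φ ψ n p F g) :=
  Finset.measurable_sum _ fun M _ => (hP.isEig M).cont.measurable.mul
    (Measurable.tsum fun _ =>
      ((decay_dn hp.out.pos hF).1.comp (continuous_lin _)).measurable.const_mul _)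

/-- The invariant sums of all neighbours have a common weighted bound. -/
lemma exists_hFun_bound (hP : IsEigPair φ ψ) (hn : QuadraticAlgebra.norm π = (p : ℤ)) (n : ℤ)
    {F : ℝ → ℂ} (hF : Samp.Decay F) :
    ∃ C, 0 ≤ C ∧ ∀ (g : Matrix (Fin 2) (Fin 2) EI), Associated g.det π → ∀ v : H3,
      (rho0 v) * ‖hFun φ ψ n p F g v‖ ≤ C * wt v := by
  obtain ⟨C, hC0, hC⟩ := exists_hSer_bound hP.wbound hn n hF
  obtain ⟨Cp, hCp0, hCp⟩ := hP.bound
  exact ⟨(Fintype.card ι : ℝ) * (Cp * C), by positivity,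
    fun g hg v => rho0_norm_sum_le hCp0 v (fun M => hCp _ _) fun M => (hC g hg M v).2⟩

end Pairing

variable (A : Auto E) {Ψ : Lz → ℂ} {π : EI} {p : ℕ} [hp : Fact p.Prime]

variable (π) in
/-- The neighbours in `GL₂(ℂ)`. -/
noncomputable def gJC (h : π ≠ 0) : Option (ZMod p) → GL (Fin 2) ℂ
  | some u => aC π (u.val : EI) h
  | none => aInf π h

/-- The matrix of a neighbour in `GL₂(ℂ)`. -/
lemma gJC_val (h : π ≠ 0) (j : Option (ZMod p)) : (gJC π h j).val = (gJ π p j).map toC := by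
  cases j <;> ext a b <;> fin_cases a <;> fin_cases b <;>
    simp [gJC, gJ, aC, aInf, Matrix.GeneralLinearGroup.mkOfDetNeZero]

variable (π E) in
/-- The neighbours modulo `9E`. -/
noncomputable def gJR (hu : IsUnit (red (3 * (3 * E)) π)) : Option (ZMod p) → GN (3 * E)
  | some u => upG hu.unit (red (3 * (3 * E)) (u.val : EI)) 1
  | none => upG 1 0 hu.unit

omit [NeZero E] in
/-- The matrix of a neighbour modulo `9E`. -/
lemma gJR_val (hu : IsUnit (red (3 * (3 * E)) π)) (j : Option (ZMod p)) :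
    (gJR E π hu j).val = (gJ π p j).map (red (3 * (3 * E))) := by
  cases j <;> ext a b : 1 <;> fin_cases a <;> fin_cases b <;> simp [gJR, gJ]

/-- The height of a translate. -/
lemma lin_gJC_smul (hn : QuadraticAlgebra.norm π = (p : ℤ)) (h : π ≠ 0) (j : Option (ZMod p))
    (X : Lz) (v : H3) : lin (vec X) (gJC π h j • v)
      = lin (vec (dact (gJ π p j).adjugate X)) v / Real.sqrt p := by
  set g := gJC π h j
  have hd : ‖g.val.det‖ = Real.sqrt p := by
    rw [gJC_val, ← RingHom.mapMatrix_apply, ← RingHom.map_det, det_gJ, Complex.norm_def,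
      normSq_toC, hn]
    push_cast
    rfl
  have hp0 : (0 : ℝ) < p := Nat.cast_pos.2 hp.out.pos
  have hs : Real.sqrt p ≠ 0 := (Real.sqrt_pos.2 hp0).ne'
  have hsc : ((Real.sqrt p : ℝ) : ℂ) ≠ 0 := Complex.ofReal_ne_zero.2 hs
  set Z := dact (gJ π p j).adjugate X
  -- `g` carries `Z` to `√p` times `X`
  have e : toMat (act g (vec Z)) = ((Real.sqrt p : ℝ) : ℂ) • toMat (vec X) := by
    rw [toMat_act, hd, gJC_val, ← toMat_dact, ← dact_mul, gJ_mul_adj, toMat_dact,
      Matrix.map_smul' _ _ _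
      (map_mul toC), Matrix.map_one _ (map_zero _) (map_one _), Matrix.smul_mul, Matrix.one_mul,
      Matrix.conjTranspose_smul, Matrix.conjTranspose_one, Matrix.mul_smul,
        Matrix.mul_one, smul_smul,
      smul_smul]
    congr 1
    rw [RCLike.star_def, mul_assoc, ← Complex.normSq_eq_conj_mul_self, normSq_toC, hn]
    push_cast
    field_simp
    rw [← Complex.ofReal_pow, Real.sq_sqrt hp0.le]
    simp
  have hlin : lin (vec X) (g • v) = lin (act g (vec Z)) (g • v) / Real.sqrt p := by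
    obtain ⟨y, hy⟩ := QuotientGroup.mk_surjective (g • v)
    rw [← hy, lin_mk, lin_mk, eq_div_iff hs]
    apply Complex.ofReal_injective
    push_cast
    rw [tr2_eq, tr2_eq, toMat_act, toMat_act, e, Matrix.mul_smul, Matrix.smul_mul,
      Matrix.trace_smul, Matrix.trace_smul, Matrix.trace_smul]
    simp only [smul_eq_mul]
    ring
  -- `lin` is invariant under `g`
  rw [hlin, lin_act]

/-- Each element has one representative `0, …, p - 1` modulo a prime of degree one. -/
lemma exists_rep (D : DegOne π p) (x : EI) :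
    ∃! u, u ∈ (Finset.univ : Finset (ZMod p)).image (fun u => (u.val : EI)) ∧ π ∣ x - u := by
  refine ⟨((D.φ x).val : EI), ⟨Finset.mem_image.2 ⟨_, Finset.mem_univ _, rfl⟩, ?_⟩, ?_⟩
  · rw [← D.ker, map_sub, map_natCast, ZMod.natCast_zmod_val, sub_self]
  · rintro u ⟨hu, hdiv⟩
    obtain ⟨w, -, rfl⟩ := Finset.mem_image.1 hu
    rw [← D.ker, map_sub, map_natCast, ZMod.natCast_zmod_val, sub_eq_zero] at hdiv
    rw [hdiv]

omit [NeZero E] in
/-- If `p ≡ 1 (mod 9E)`, the neighbours modulo `9E` have norm determinant one. -/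
lemma ndet_gJR (hn : QuadraticAlgebra.norm π = (p : ℤ)) (h9 : (p : ZMod (3 * (3 * E))) = 1)
    (hu : IsUnit (red (3 * (3 * E)) π)) (j : Option (ZMod p)) : ndet (gJR E π hu j) = 1 := by
  rw [ndet, gJR_val, ← RingHom.mapMatrix_apply, ← RingHom.map_det, det_gJ, norm_red, hn]
  simpa using h9

/-- The twist by a neighbour is composition with the action of its adjugate. -/
lemma twist_gJR (hn : QuadraticAlgebra.norm π = (p : ℤ)) (h9 : (p : ZMod (3 * (3 * E))) = 1)
    (hu : IsUnit (red (3 * (3 * E)) π)) (hΨ : Per (3 * E) Ψ) (j : Option (ZMod p)) (M : GN (3 * E))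
    (X : Lz) : twist Ψ (gJR E π hu j * M) X = twist Ψ M (dact (gJ π p j).adjugate X) := by
  obtain ⟨w, hw⟩ := red_surjective (3 * (3 * E)) ((hu.unit⁻¹ : _ˣ) : ER (ZMod (3 * (3 * E))))
  have hwπ : red (3 * (3 * E)) w * red (3 * (3 * E)) π = 1 := by
    rw [hw]; exact hu.val_inv_mul
  have hNw : ((QuadraticAlgebra.norm w : ℤ) : ZMod (3 * (3 * E))) = 1 := by
    have h := congrArg QuadraticAlgebra.norm hwπ
    rw [map_mul, map_one, norm_red, norm_red, hn] at h
    rw [show ((p : ℤ) : ZMod (3 * (3 * E))) = 1 by simpa using h9, mul_one] at h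
    exact h
  rw [twist_eq hΨ (m := w • (liftM (M⁻¹).val * (gJ π p j).adjugate))]
  · have e : dact (w • (liftM (M⁻¹).val * (gJ π p j).adjugate)) X
        = (QuadraticAlgebra.norm w) • dact (liftM (M⁻¹).val * (gJ π p j).adjugate) X := by
      refine mE_injective ?_
      rw [mE_dact, Matrix.smul_mul, Matrix.conjTranspose_smul, Matrix.mul_smul, Matrix.smul_mul,
        smul_smul, ← mE_dact]
      have hn' : star w * w = ((QuadraticAlgebra.norm w : ℤ) : EI) := by
        apply QuadraticAlgebra.ext <;> simp [QuadraticAlgebra.norm_def] <;> ring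
      rw [hn']
      set Z := dact (liftM (M⁻¹).val * (gJ π p j).adjugate) X
      ext a b : 1
      fin_cases a <;> fin_cases b <;> simp [mE, bY, QuadraticAlgebra.ext_iff] <;> ring_nf <;> simp
    rw [e, per_smul_one hΨ hNw, dact_mul]
    rfl
  · rw [_root_.mul_inv_rev, Units.val_mul]
    have e : ((gJR E π hu j)⁻¹ : GN (3 * E)).val
        = (red (3 * (3 * E)) w) • ((gJ π p j).adjugate.map (red (3 * (3 * E)))) := by
      refine Units.inv_eq_of_mul_eq_one_right ?_
      rw [gJR_val, Matrix.mul_smul, ← Matrix.map_mul, gJ_mul_adj,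
        Matrix.map_smul' _ _ _ (map_mul _),
        Matrix.map_one _ (map_zero _) (map_one _), smul_smul, hwπ, one_smul]
    rw [e, Matrix.map_smul' _ _ _ (map_mul _), Matrix.map_mul, red_liftM, Matrix.mul_smul]

omit [NeZero E] in
/-- The adjugates of the neighbours have determinant `π`. -/
lemma det_gJ_adjugate (j : Option (ZMod p)) : (gJ π p j).adjugate.det = π := by
  rw [Matrix.det_adjugate, det_gJ, show Fintype.card (Fin 2) - 1 = 1 from rfl, pow_one]

/-- The action of a matrix over `ℤ[ω]` of nonzero determinant. -/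
noncomputable def mAct (g : Matrix (Fin 2) (Fin 2) EI) (v : H3) : H3 :=
  if h : g.det = 0 then v else Matrix.GeneralLinearGroup.mkOfDetNeZero (g.map toC) (by
    rw [← RingHom.mapMatrix_apply, ← RingHom.map_det]
    exact fun e => h (toC_injective (e.trans (map_zero toC).symm))) • v

/-- `mAct` through any lift to `GL₂(ℂ)`. -/
lemma mAct_eq {g : Matrix (Fin 2) (Fin 2) EI} {γ : GL (Fin 2) ℂ} (hγ : γ.val = g.map toC) (v : H3) :
    mAct g v = γ • v := by
  have hd : g.det ≠ 0 := fun h => γ.isUnit.map Matrix.detMonoidHom |>.ne_zero (by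
    change γ.val.det = 0
    rw [hγ, ← RingHom.mapMatrix_apply, ← RingHom.map_det, h, map_zero])
  rw [mAct, dif_neg hd]
  congr 1
  exact Units.ext hγ.symm

/-- `mAct` of a product with a unit. -/
lemma mAct_mul (ε : GL (Fin 2) EI) {g : Matrix (Fin 2) (Fin 2) EI} (hg : g.det ≠ 0) (v : H3) :
    mAct (ε.val * g) v = gC ε • mAct g v := by
  have hd : (g.map toC).det ≠ 0 := by
    rw [← RingHom.mapMatrix_apply, ← RingHom.map_det]
    exact fun e => hg (toC_injective (e.trans (map_zero toC).symm))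
  rw [mAct_eq (γ := Matrix.GeneralLinearGroup.mkOfDetNeZero _ hd) rfl,
    mAct_eq (γ := gC ε * Matrix.GeneralLinearGroup.mkOfDetNeZero _ hd)
      (by rw [Units.val_mul, gC_coe, Matrix.map_mul]; rfl), mul_smul]

/-- `mAct` is measurable. -/
lemma measurable_mAct (g : Matrix (Fin 2) (Fin 2) EI) : Measurable (mAct g) := by
  by_cases h : g.det = 0
  · simp only [show mAct g = id from funext fun v => dif_pos h, measurable_id]
  · rw [show mAct g = _ from funext fun v => dif_neg h]
    exact (continuous_const_smul _).measurable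

/-- The neighbours times units exhaust the matrices of norm `p` from either side. -/
lemma eq_of_hasSum_gJ (D : DegOne π p) {G : Matrix (Fin 2) (Fin 2) EI → ℂ} {a b : ℂ}
    (s1 : HasSum (fun q : Option (ZMod p) × GL (Fin 2) EI => G (gJ π p q.1 * q.2.val)) a)
    (s2 : HasSum (fun q : Option (ZMod p) × GL (Fin 2) EI =>
    G (q.2.val * (gJ π p q.1).adjugate)) b) :
    a = b := by
  set P : Option (ZMod p) × GL (Fin 2) EI → Matrix (Fin 2) (Fin 2) EI :=
    fun q => gJ π p q.1 * q.2.val with hPd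
  set Q : Option (ZMod p) × GL (Fin 2) EI → Matrix (Fin 2) (Fin 2) EI :=
    fun q => q.2.val * (gJ π p q.1).adjugate with hQd
  -- `Q` is the adjugate of `P` at the adjugate group element
  have hQP : ∀ q, Q q = (P (q.1, adjGL q.2)).adjugate := fun q => by
    simp only [hPd, hQd, Matrix.adjugate_mul_distrib]
    congr 1
    exact (adjugate_adjugate_two q.2.val).symm
  have hinj : Function.Injective Q := fun a b h => by
    rw [hQP, hQP] at h
    have h2 := congrArg Matrix.adjugate h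
    rw [adjugate_adjugate_two, adjugate_adjugate_two] at h2
    have h3 := Prod.mk.inj (gJ_mul_injective D h2)
    exact Prod.ext h3.1 (by rw [← adjGL_adjGL a.2, ← adjGL_adjGL b.2, h3.2])
  -- both families have the same range
  have hrange : Set.range Q = Set.range P := by
    ext g
    constructor
    · rintro ⟨q, rfl⟩
      obtain ⟨k, δ, hkδ⟩ := exists_gJ_mul D (g := Q q) (by
        simp only [hQd, Matrix.det_mul, det_gJ_adjugate, ← Matrix.GeneralLinearGroup.val_det_apply]
        exact associated_unit_mul_left π _ (Units.isUnit _))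
      exact ⟨(k, δ), hkδ⟩
    · rintro ⟨q, rfl⟩
      obtain ⟨k, δ, hkδ⟩ := exists_gJ_mul D (g := (P q).adjugate) (by
        simp only [hPd, Matrix.det_adjugate, show Fintype.card (Fin 2) - 1 = 1 from rfl, pow_one,
          Matrix.det_mul, det_gJ, ← Matrix.GeneralLinearGroup.val_det_apply]
        exact associated_mul_unit_left π _ (Units.isUnit _))
      refine ⟨(k, adjGL δ), ?_⟩
      rw [hQP, adjGL_adjGL]
      change (gJ π p k * δ.val).adjugate = _
      rw [hkδ, adjugate_adjugate_two]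
  -- so both sums are the sum over that range
  have e1 : HasSum (fun g : Set.range P => G g) a :=
    ((gJ_mul_injective D).hasSum_range_iff (f := G)).2 s1
  have e2 := (hinj.hasSum_range_iff (f := G)).2 s2
  rw [hrange] at e2
  exact e1.unique e2

/-- **Unfolding a Hecke operator against the weight.** -/
theorem sum_integral_unfold (D : DegOne π p) (h : π ≠ 0) {f : Option (ZMod p) → H3 → ℂ}
    {φ : Matrix (Fin 2) (Fin 2) EI → H3 → ℂ}
    (hr : ∀ g (δ : GL (Fin 2) EI) v, φ (g * δ.val) v = φ g (gC δ • v))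
    (hl : ∀ g (ε : GL (Fin 2) EI) v, φ (ε.val * g) v = φ g v)
    (hf : ∀ j, Integrable (f j) hmeas)
    (hsub : ∀ j v, f j (gJC π h j • v) = (rho0 (gJC π h j • v) : ℂ) * φ (gJ π p j) v)
    (hi : ∀ k, Integrable (fun u => (rho0 u : ℂ) * φ (gJ π p k).adjugate u) hmeas) :
    ∑ j, ∫ w, f j w ∂hmeas = ∑ k, ∫ u, (rho0 u : ℂ) * φ (gJ π p k).adjugate u ∂hmeas := by
  refine eq_of_hasSum_gJ D (G := fun g => ∫ v,
    (rho0 v : ℂ) * ((rho0 (mAct g v) : ℂ) * φ g v) ∂hmeas)
    (hasSum_fintype_prod fun j => ?_) (hasSum_fintype_prod fun k => ?_)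
  · have hj : Integrable (fun v => f j (gJC π h j • v)) hmeas :=
      ((measurePreserving_smul_H3 (gJC π h j)).integrable_comp_emb (g := f j)
        (measurableEmbedding_const_smul (gJC π h j))).2 (hf j)
    have hc := hasSum_cut hj id measurable_id
    rw [(measurePreserving_smul_H3 (gJC π h j)).integral_comp
      (measurableEmbedding_const_smul _)] at hc
    rw [← (Equiv.inv (GL (Fin 2) EI)).hasSum_iff]
    refine hc.congr_fun fun δ => ?_
    simp only [Function.comp_apply, Equiv.inv_apply, hr, hsub, id_eq]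
    rw [← integral_gC_smul δ]
    refine integral_congr_ae (Eventually.of_forall fun v => ?_)
    simp only [mAct_eq (g := gJ π p j * (δ⁻¹ : GL (Fin 2) EI).val) (γ := gJC π h j * gC δ⁻¹)
      (by rw [Units.val_mul, gJC_val, gC_coe, Matrix.map_mul]), mul_smul,
        smul_smul (gC δ⁻¹), ← map_mul,
      inv_mul_cancel, map_one, one_smul]
  · refine (hasSum_cut (hi k) (mAct (gJ π p k).adjugate) (measurable_mAct _)).congr_fun fun ε => ?_
    refine integral_congr_ae (Eventually.of_forall fun v => ?_)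
    simp only [hl, mAct_mul ε ((det_gJ_adjugate (π := π) k).symm ▸ h)]
    ring

/-- Sums over the representatives modulo `π`. -/
lemma sum_image_rep (f : EI → ℂ) :
    ∑ u ∈ (Finset.univ : Finset (ZMod p)).image (fun u => (u.val : EI)), f u
      = ∑ u : ZMod p, f (u.val : EI) :=
  Finset.sum_image fun a _ b _ hab =>
    ZMod.val_injective p (by exact_mod_cast (show ((a.val : ℕ) : EI) = (b.val : ℕ) from hab))

/-- A term of the Hecke operator applied to `sG`. -/
noncomputable def hTerm (hu : IsUnit (red (3 * (3 * E)) π)) (h : π ≠ 0) (n : ℤ) (Ψ : Lz → ℂ)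
    (F : ℝ → ℂ) (j : Option (ZMod p)) (w : H3) : ℂ :=
  (rho0 w : ℂ) * ∑ M : G1 (3 * E),
    A.Φ ((gJR E π hu j)⁻¹ * M.1) ((gJC π h j)⁻¹ • w) * aM n (twist Ψ M.1) F w

omit hp in
/-- The terms of the Hecke operator are integrable. -/
lemma integrable_hTerm (hu : IsUnit (red (3 * (3 * E)) π)) (h : π ≠ 0) (hΨ : Per (3 * E) Ψ) (n : ℤ)
    {F : ℝ → ℂ} (hF : Samp.Decay F) (j : Option (ZMod p)) :
    Integrable (hTerm A hu h n Ψ F j) hmeas := by
  have h' := integrable_rho0_pairSum
    (φ := fun (M : G1 (3 * E)) w => A.Φ ((gJR E π hu j)⁻¹ * M.1) ((gJC π h j)⁻¹ • w))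
    (fun M => ((A.cont ((gJR E π hu j)⁻¹ * M.1)).comp
      (continuous_const_smul (gJC π h j)⁻¹)).measurable)
    (A.bound.imp fun _ hC => ⟨(norm_nonneg _).trans (hC 1 base), fun _ _ => hC _ _⟩)
    (A.pair hΨ).wbound n hF
  exact h'

/-- The terms sum to the eigenvalue times the weighted `sG`. -/
lemma sum_hTerm (hπ : Prime π) (hu : IsUnit (red (3 * (3 * E)) π)) (D : DegOne π p) (n : ℤ)
    (F : ℝ → ℂ) (w : H3) : ∑ j : Option (ZMod p), hTerm A hu hπ.ne_zero n Ψ F j w
      = (A.lam π : ℂ) * ((rho0 w : ℂ) * sG A n Ψ F w) := by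
  simp only [hTerm, sG, pairSum, ← Finset.mul_sum]
  rw [Finset.sum_comm, mul_left_comm (A.lam π : ℂ), Finset.mul_sum (a := (A.lam π : ℂ))]
  congr 1
  refine Finset.sum_congr rfl fun M _ => ?_
  rw [← Finset.sum_mul, ← mul_assoc (A.lam π : ℂ), ← A.hecke π hπ hu _ (exists_rep D) M.1 w,
    sum_image_rep, Fintype.sum_option, add_comm]
  rfl

/-- A term after substituting the neighbour. -/
lemma hTerm_smul (hu : IsUnit (red (3 * (3 * E)) π)) (h : π ≠ 0) (hΨ : Per (3 * E) Ψ)
    (hn : QuadraticAlgebra.norm π = (p : ℤ)) (h9 : (p : ZMod (3 * (3 * E))) = 1) (n : ℤ) (F : ℝ → ℂ)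
    (j : Option (ZMod p)) (v : H3) : hTerm A hu h n Ψ F j (gJC π h j • v)
      = (rho0 (gJC π h j • v) : ℂ) *
        hFun (fun M : G1 (3 * E) => A.Φ M.1) (fun M => twist Ψ M.1) n p F (gJ π p j) v := by
  simp only [hTerm, inv_smul_smul, hFun]
  congr 1
  rw [← ((Equiv.mulLeft (gJR E π hu j)).subtypeEquiv (p := fun M => ndet M = 1)
    (q := fun M => ndet M = 1) fun M => by simp [ndet_mul, ndet_gJR hn h9]).sum_comp]
  refine Finset.sum_congr rfl fun M _ => ?_
  simp only [Equiv.subtypeEquiv_apply, Equiv.coe_mulLeft, inv_mul_cancel_left]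
  congr 1
  rw [aM, hSer]
  refine tsum_congr fun X => ?_
  rw [twist_gJR hn h9 hu hΨ, lin_gJC_smul hn h, dn]

/-- **The relation, integrated.** The eigenvalue times the integral at `n` is the integral of the
sum over the matrices of norm `p`. -/
theorem hecke_integral (hΨ : Per (3 * E) Ψ) (hπ : Prime π) (hn : QuadraticAlgebra.norm π = (p : ℤ))
    (h9 : (p : ZMod (3 * (3 * E))) = 1) (D : DegOne π p) (n : ℤ) {F : ℝ → ℂ} (hF : Samp.Decay F) :
    (A.lam π : ℂ) * ∫ w, (rho0 w : ℂ) * sG A n Ψ F w ∂hmeas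
      = ∫ u, (rho0 u : ℂ) * ∑ j : Option (ZMod p), hFun (fun M : G1 (3 * E) => A.Φ M.1)
          (fun M => twist Ψ M.1) n p F (gJ π p j).adjugate u ∂hmeas := by
  have hu := isUnit_red_of_norm hn (h9 ▸ isUnit_one)
  obtain ⟨C, -, hC⟩ := exists_hFun_bound (A.pair hΨ) hn n hF
  have hQi : ∀ k, Integrable (fun u => (rho0 u : ℂ) * hFun (fun M : G1 (3 * E) => A.Φ M.1)
      (fun M => twist Ψ M.1) n p F (gJ π p k).adjugate u) hmeas :=
    fun k => integrable_rho0_mul (measurable_hFun (A.pair hΨ) n hF _)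
      (hC _ (by rw [det_gJ_adjugate]))
  have hti := integrable_hTerm A (p := p) hu hπ.ne_zero hΨ n hF
  simp only [← integral_const_mul, ← sum_hTerm A hπ hu D, integral_finsetSum _ fun j _ => hti j,
    Finset.mul_sum, integral_finsetSum _ fun k _ => hQi k]
  exact sum_integral_unfold D hπ.ne_zero (hFun_mul_right (A.pair hΨ) n F) (hFun_mul_left n F) hti
    (hTerm_smul A hu hπ.ne_zero hΨ hn h9 n F) hQi

omit [NeZero E] in
/-- The neighbours cover `q3⁻¹(p n)` once, and the multiples of `p` once more `p` times. -/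
theorem sum_tsum_gJ (D : DegOne π p) (hn : QuadraticAlgebra.norm π = (p : ℤ)) (n : ℤ)
    {f : Lz → ℂ} (hf : Summable fun Y : {Y : Lz // q3 Y = (p : ℤ) * n} => f Y.1) :
    ∑ j : Option (ZMod p), ∑' X : {X : Lz // q3 X = n}, f (dact (gJ π p j) X.1)
      = ∑' Y : {Y : Lz // q3 Y = (p : ℤ) * n}, f Y.1
        + if (p : ℤ) ∣ n then (p : ℂ) * ∑' W : {W : Lz // q3 W = n / (p : ℤ)}, f ((p : ℤ) • W.1)
          else 0 := by
  have hp0 : (p : ℤ) ≠ 0 := Int.natCast_ne_zero.2 hp.out.ne_zero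
  -- each inner sum runs over the image of dact (gJ π p j)
  have hrow : ∀ j, ∑' X : {X : Lz // q3 X = n}, f (dact (gJ π p j) X.1)
      = ∑' Y : {Y : Lz // q3 Y = (p : ℤ) * n}, if ∃ X, dact (gJ π p j) X = Y.1 then
          f Y.1 else 0 := by
    intro j
    let ι : {X : Lz // q3 X = n} → {Y : Lz // q3 Y = (p : ℤ) * n} := fun X =>
      ⟨dact (gJ π p j) X.1, by rw [q3_dact, det_gJ, hn, X.2]⟩
    have hι : Function.Injective ι := fun X Y h => Subtype.ext (dact_injective_of_det
      (by rw [det_gJ]; exact ne_zero_of_norm hn) (Subtype.ext_iff.1 h))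
    rw [← hι.tsum_eq (f := fun Y => if ∃ X, dact (gJ π p j) X = Y.1 then f Y.1 else 0)]
    · exact tsum_congr fun X => (if_pos ⟨X.1, rfl⟩).symm
    · intro Y hY
      obtain ⟨X, hX⟩ : ∃ X, dact (gJ π p j) X = Y.1 := by
        by_contra h; exact hY (if_neg h)
      refine ⟨⟨X, ?_⟩, Subtype.ext hX⟩
      have h := q3_dact (gJ π p j) X
      rw [hX, Y.2, det_gJ, hn] at h
      exact (mul_left_cancel₀ hp0 h).symm
  simp only [hrow]
  rw [← Summable.tsum_finsetSum fun j _ => hf.norm.of_norm_bounded fun Y => by split_ifs <;> simp]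
  -- count the images containing a given Y
  have hY : ∀ Y : {Y : Lz // q3 Y = (p : ℤ) * n},
      ∑ j : Option (ZMod p), (if ∃ X, dact (gJ π p j) X = Y.1 then f Y.1 else 0)
      = f Y.1 + if ∃ W, Y.1 = (p : ℤ) • W then (p : ℂ) * f Y.1 else 0 := fun Y => by
    rw [← Finset.sum_filter, Finset.sum_const,
      card_image D hn (by rw [Y.2]; exact dvd_mul_right _ _)]
    split_ifs <;> simp
    ring
  rw [tsum_congr hY, hf.tsum_add]
  swap
  · exact ((hf.mul_left (p : ℂ)).norm).of_norm_bounded fun Y => by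
      split_ifs <;> simp
      positivity
  congr 1
  -- the multiples of p correspond to the W with q3 W = n / p
  have hq : ∀ W : Lz, q3 ((p : ℤ) • W) = (p : ℤ) * ((p : ℤ) * q3 W) := fun W => by
    simp [q3, qd]; ring
  by_cases hd : (p : ℤ) ∣ n
  · rw [if_pos hd]
    obtain ⟨m, rfl⟩ := hd
    rw [Int.mul_ediv_cancel_left _ hp0]
    let κ : {W : Lz // q3 W = m} → {Y : Lz // q3 Y = (p : ℤ) * ((p : ℤ) * m)} := fun W =>
      ⟨(p : ℤ) • W.1, by rw [hq, W.2]⟩
    have hκ : Function.Injective κ := fun X Y h => Subtype.ext (smul_right_injective Lz hp0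
      (Subtype.ext_iff.1 h))
    rw [← hκ.tsum_eq, ← tsum_mul_left]
    · exact tsum_congr fun W => if_pos ⟨W.1, rfl⟩
    · intro Y hY
      obtain ⟨W, hW⟩ : ∃ W, Y.1 = (p : ℤ) • W := by
        by_contra h; exact hY (if_neg h)
      refine ⟨⟨W, ?_⟩, Subtype.ext hW.symm⟩
      have h := Y.2
      rw [hW, hq] at h
      exact mul_left_cancel₀ hp0 (mul_left_cancel₀ hp0 h)
  · rw [if_neg hd]
    refine (tsum_congr fun Y => if_neg ?_).trans tsum_zero
    rintro ⟨W, hW⟩
    refine hd ⟨q3 W, ?_⟩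
    have h := Y.2
    rw [hW, hq] at h
    exact (mul_left_cancel₀ hp0 h).symm

omit [NeZero E] in
/-- Scaling a vector by `p` turns `dn` of its height into `up`. -/
lemma dn_lin_natCast_smul (F : ℝ → ℂ) (W : Lz) (u : H3) :
    dn p F (lin (vec ((p : ℤ) • W)) u) = up p F (lin (vec W) u) := by
  simp only [dn, up]
  congr 1
  have hs : (0 : ℝ) < Real.sqrt p := Real.sqrt_pos.2 (Nat.cast_pos.2 hp.out.pos)
  have hvec : lin (vec ((p : ℤ) • W)) u = (p : ℝ) * lin (vec W) u := by
    rw [← H3.mk_coord u, lin_mk_coord _ _ (H3.coord_pos u), lin_mk_coord _ _ (H3.coord_pos u)]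
    simp [num, vec, demb]
    ring
  rw [hvec, div_eq_iff hs.ne', mul_right_comm, Real.mul_self_sqrt (Nat.cast_nonneg p)]

omit [NeZero E] in
/-- The multiplicities for a pairing which the multiplication by `p` permutes. -/
theorem sum_hFun_eq_pairSum {ι : Type*} [Fintype ι] {φ : ι → H3 → ℂ} {ψ : ι → Lz → ℂ}
    (hw : ∃ B, 0 ≤ B ∧ ∀ i X, ‖ψ i X‖ ≤ B) (D : DegOne π p) (hn : QuadraticAlgebra.norm π = (p : ℤ))
    (n : ℤ) {F : ℝ → ℂ} (hF : Samp.Decay F) (u : H3) (e : ι ≃ ι)
    (hψ : ∀ i X, ψ i ((p : ℤ) • X) = ψ (e i) X) (hφ : ∀ i, φ (e i) u = φ i u) :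
    ∑ j : Option (ZMod p), hFun φ ψ n p F (gJ π p j).adjugate u
      = pairSum ((p : ℤ) * n) φ ψ (dn p F) u
        + if (p : ℤ) ∣ n then (p : ℂ) * pairSum (n / (p : ℤ)) φ ψ (up p F) u else 0 := by
  simp only [hFun]
  rw [Finset.sum_comm]
  simp only [← Finset.mul_sum, pairSum]
  have key : ∀ i, ∑ j : Option (ZMod p), hSer n (ψ i) p F (gJ π p j).adjugate u
      = aM ((p : ℤ) * n) (ψ i) (dn p F) u
        + if (p : ℤ) ∣ n then (p : ℂ) * aM (n / (p : ℤ)) (ψ (e i)) (up p F) u else 0 := by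
    intro i
    obtain ⟨C, -, hC⟩ := exists_aM_bound hw ((p : ℤ) * n) (decay_dn hp.out.pos hF)
    simp only [hSer, adjugate_adjugate_two]
    rw [sum_tsum_gJ D hn n (f := fun Y => ψ i Y * dn p F (lin (vec Y) u)) (hC i u).1.of_norm]
    simp only [aM, dn_lin_natCast_smul, hψ]
  simp only [key, mul_add, Finset.sum_add_distrib]
  congr 1
  split_ifs
  · conv_rhs => rw [← e.sum_comp, Finset.mul_sum]
    exact Finset.sum_congr rfl fun i _ => by rw [hφ]; ring
  · simp

/-- **The multiplicities.** That sum is the integrand at `p n` plus, when `p ∣ n`, `p` times the one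
at `n / p`. -/
theorem sum_hFun_eq (hΨ : Per (3 * E) Ψ) (hn : QuadraticAlgebra.norm π = (p : ℤ))
    (h9 : (p : ZMod (3 * (3 * E))) = 1) (D : DegOne π p) (n : ℤ) {F : ℝ → ℂ} (hF : Samp.Decay F)
    (u : H3) :
    ∑ j : Option (ZMod p), hFun (fun M : G1 (3 * E) => A.Φ M.1) (fun M => twist Ψ M.1) n p F
        (gJ π p j).adjugate u
      = sG A ((p : ℤ) * n) Ψ (dn p F) u
        + if (p : ℤ) ∣ n then (p : ℂ) * sG A (n / (p : ℤ)) Ψ (up p F) u else 0 := by
  refine sum_hFun_eq_pairSum (A.pair hΨ).wbound D hn n hF u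
    (Equiv.refl _) (fun M X => ?_) fun _ => rfl
  simp only [twist, dact_smul, Equiv.refl_apply,
    per_smul_one hΨ (show (((p : ℤ)) : ZMod (3 * (3 * E))) = 1 by simpa using h9)]

end Fermat.LT3
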