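import Fermat.Agent.LT3.DAct
import Fermat.Agent.LT3.Reduction

/-!
# Hermitian matrices over `ℤ[ω]`, reduction of isotropic forms and of forms of determinant `-1`

`exists_iso_reduce` and `exists_unimod_reduce` are the two reductions, read through the hermitian
matrices `hE`.
-/

set_option autoImplicit false
open Matrix QuadraticAlgebra
open scoped ComplexConjugate

namespace Fermat.LT3
open Fermat.LT

/-- `√-3` times a point, as a skew hermitian matrix. -/
def mE (X : Lz) : Matrix (Fin 2) (Fin 2) EI :=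
  !![sR * (X.1 : EI), bY X.2.1; -star (bY X.2.1), sR * (X.2.2 : EI)]

/-- The integral hermitian matrix of a point of `Λ`. -/
def hE (μ : Lz) : Matrix (Fin 2) (Fin 2) EI :=
  !![(μ.1 : EI), ⟨μ.2.1.1, μ.2.1.2⟩; star ⟨μ.2.1.1, μ.2.1.2⟩, (μ.2.2 : EI)]

/-- In `ℂ` the skew hermitian matrix of a point is `√-3` times the matrix of its vector. -/
lemma map_mE (X : Lz) : (mE X).map toC = toC sR • toMat (vec X) := by
  ext i j
  fin_cases i <;> fin_cases j <;>
    simp [mE, toMat, vec, toC_bY, toC_star, map_mul, conj_toC_sR]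

/-- A matrix over `ℤ[ω]` is determined by its image in `ℂ`. -/
lemma map_toC_injective {m n : Matrix (Fin 2) (Fin 2) EI} (h : m.map toC = n.map toC) : m = n :=
  Matrix.map_injective toC_injective h

/-- The embedding in `ℂ` commutes with the conjugate transpose. -/
lemma map_conjTranspose_toC (m : Matrix (Fin 2) (Fin 2) EI) : mᴴ.map toC = (m.map toC)ᴴ := by
  ext i j; simp [toC_star]

/-- **Equivariance.** In skew hermitian matrices `dact m` is `X ↦ m X mᴴ`. -/
lemma mE_dact (m : Matrix (Fin 2) (Fin 2) EI) (X : Lz) : mE (dact m X) = m * mE X * mᴴ := by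
  refine map_toC_injective ?_
  rw [Matrix.map_mul, Matrix.map_mul, map_mE, map_mE, map_conjTranspose_toC, toMat_dact,
    Matrix.mul_smul, Matrix.smul_mul]

/-- On a lifted point the skew hermitian matrix is `√-3` times the hermitian one. -/
lemma mE_lam (μ : Lz) : mE (lam μ) = sR • hE μ := by
  ext i j : 1
  fin_cases i <;> fin_cases j <;>
    simp [mE, hE, lam, bY, sR, QuadraticAlgebra.ext_iff] <;> constructor <;> ring

/-- The Eisenstein integers form a domain. -/
instance instIsDomainEI : IsDomain EI := toC_injective.isDomain _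

/-- `√-3` is not zero. -/
lemma sR_ne : sR ≠ 0 := fun h => toC_sR_ne (by rw [h, map_zero])

/-- A point is determined by its skew hermitian matrix. -/
lemma mE_injective : Function.Injective mE := fun X Y h => by
  have e : ∀ i j, mE X i j = mE Y i j := fun i j => by rw [h]
  have h0 := e 0 0
  have h1 := e 0 1
  have h2 := e 1 1
  simp only [mE, Matrix.of_apply, Matrix.cons_val', Matrix.cons_val_zero, Matrix.cons_val_one,
    Matrix.empty_val', Matrix.cons_val_fin_one] at h0 h1 h2
  have ha := congrArg QuadraticAlgebra.re (mul_left_cancel₀ sR_ne h0)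
  have hd := congrArg QuadraticAlgebra.re (mul_left_cancel₀ sR_ne h2)
  simp [bY, QuadraticAlgebra.ext_iff] at ha hd h1
  exact Prod.ext ha (Prod.ext (Prod.ext h1.2 h1.1) hd)

/-- A point of `Λ` is determined by its hermitian matrix. -/
lemma hE_injective : Function.Injective hE := fun μ ν h => by
  have : lam μ = lam ν := mE_injective (by rw [mE_lam, mE_lam, h])
  simp only [lam, Prod.mk.injEq] at this
  exact Prod.ext this.1 (Prod.ext (Prod.ext (by omega) (by omega)) this.2.2)

/-- Equivariance of the hermitian matrix. -/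
lemma hE_lact (m : Matrix (Fin 2) (Fin 2) EI) (μ : Lz) : hE (lact m μ) = m * hE μ * mᴴ := by
  have h := mE_dact m (lam μ)
  rw [dact_lam, mE_lam, mE_lam, Matrix.mul_smul, Matrix.smul_mul] at h
  exact smul_right_injective _ sR_ne h

/-- Division with remainder. -/
lemma exists_norm_sub_lt (a : EI) {b : EI} (hb : b ≠ 0) :
    ∃ q : EI, QuadraticAlgebra.norm (a - q * b) < QuadraticAlgebra.norm b := by
  set z : ℂ := toC a / toC b
  have hb' : toC b ≠ 0 := fun h => hb (toC_injective (h.trans (map_zero toC).symm))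
  refine ⟨⟨round (cu z), round (cv z)⟩, ?_⟩
  set q : EI := ⟨round (cu z), round (cv z)⟩
  have e : toC (a - q * b) = (z + toC (-q)) * toC b := by
    rw [map_sub, map_mul, map_neg, add_mul, div_mul_cancel₀ _ hb', neg_mul, sub_eq_add_neg]
  have h1 : |cu (z + toC (-q))| ≤ 1 / 2 := by
    rw [cu_add_toC]; simpa [q, ← sub_eq_add_neg] using abs_sub_round (cu z)
  have h2 : |cv (z + toC (-q))| ≤ 1 / 2 := by
    rw [cv_add_toC]; simpa [q, ← sub_eq_add_neg] using abs_sub_round (cv z)
  have hn : Complex.normSq (z + toC (-q)) < 1 := by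
    rw [normSq_eq_cuv]
    have a1 : |cu (z + toC (-q)) * cv (z + toC (-q))| ≤ 1 / 2 * (1 / 2) := by
      rw [abs_mul]; exact mul_le_mul h1 h2 (abs_nonneg _) (by norm_num)
    have a2 : cu (z + toC (-q)) ^ 2 ≤ (1 / 2) ^ 2 := sq_le_sq' (abs_le.1 h1).1 (abs_le.1 h1).2
    have a3 : cv (z + toC (-q)) ^ 2 ≤ (1 / 2) ^ 2 := sq_le_sq' (abs_le.1 h2).1 (abs_le.1 h2).2
    linarith [le_abs_self (cu (z + toC (-q)) * cv (z + toC (-q)))]
  have h3 : Complex.normSq (toC (a - q * b)) < Complex.normSq (toC b) := by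
    rw [e, map_mul]
    exact mul_lt_of_lt_one_left (Complex.normSq_pos.2 hb') hn
  rw [normSq_toC, normSq_toC] at h3
  exact_mod_cast h3

/-- Bezout. -/
lemma exists_bezout (a b : EI) : ∃ g p q : EI, g ∣ a ∧ g ∣ b ∧ p * a + q * b = g := by
  induction hk : (QuadraticAlgebra.norm b).toNat using Nat.strong_induction_on generalizing a b with
  | _ k ih =>
    by_cases hb : b = 0
    · exact ⟨a, 1, 0, dvd_rfl, hb ▸ dvd_zero a, by simp⟩
    obtain ⟨r, hr⟩ := exists_norm_sub_lt a hb
    have h0 := norm_nonneg_EI (a - r * b)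
    obtain ⟨g, p, q, hgb, hgr, he⟩ := ih _ (by omega) b (a - r * b) rfl
    refine ⟨g, q, p - q * r, ?_, hgb, by rw [← he]; ring⟩
    have := dvd_add hgr (hgb.mul_left r)
    rwa [sub_add_cancel] at this

/-- A matrix with prescribed bottom row up to a factor. -/
lemma exists_gl_row {r1 r2 : EI} (h : r1 ≠ 0 ∨ r2 ≠ 0) :
    ∃ (γ : GL (Fin 2) EI) (g : EI), g ≠ 0 ∧ r1 = g * γ.val 1 0 ∧ r2 = g * γ.val 1 1 := by
  obtain ⟨g, p, q, ⟨s, hs⟩, ⟨t, ht⟩, he⟩ := exists_bezout r1 r2
  have hg : g ≠ 0 := fun h0 => by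
    subst h0; simp only [zero_mul] at hs ht; tauto
  have h1 : p * s + q * t = 1 := mul_left_cancel₀ hg (by
    conv_rhs => rw [mul_one, ← he, hs, ht]
    ring)
  refine ⟨Matrix.SpecialLinearGroup.toGL ⟨!![q, -p; s, t], ?_⟩, g, hg, by simpa using hs,
    by simpa using ht⟩
  rw [Matrix.det_fin_two_of]
  linear_combination h1

/-- The action of `γ⁻¹` undoes that of `γ`. -/
lemma gl_mul_inv_dact (γ : GL (Fin 2) EI) (X : Lz) :
    dact (γ⁻¹ : GL (Fin 2) EI).val (dact γ.val X) = X := by
  rw [← dact_mul, Units.inv_mul, dact_one]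

/-- **Isotropic points are translates of `(a, 0, 0)`.** -/
theorem exists_iso_reduce {X : Lz} (h : q3 X = 0) :
    ∃ (γ : GL (Fin 2) EI) (a : ℤ), X = dact γ.val (a, (0, 0), 0) := by
  rcases eq_or_ne X.2.2 0 with hd | hd
  -- `d = 0`: isotropy forces the middle entry to vanish
  · refine ⟨1, X.1, ?_⟩
    obtain ⟨a, ⟨p1, p2⟩, d⟩ := X
    simp only at hd
    subst hd
    simp only [q3, qd, mul_zero, sub_zero] at h
    have hp2 : p2 = 0 := by nlinarith [sq_nonneg (2 * p1 - p2)]
    subst hp2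
    have hp1 : p1 = 0 := by nlinarith
    subst hp1
    simp [dact_one]
  -- otherwise a `γ` whose second row kills the isotropic matrix
  obtain ⟨γ, g, hg, h1, h2⟩ := exists_gl_row (r1 := sR * (X.2.2 : EI)) (r2 := -bY X.2.1)
    (Or.inl (mul_ne_zero sR_ne (by exact_mod_cast hd)))
  set Y := dact γ.val X with hY
  have hq : sR * (X.1 : EI) * (sR * (X.2.2 : EI)) + bY X.2.1 * star (bY X.2.1) = 0 := by
    apply QuadraticAlgebra.ext <;> simp [sR, bY]
    · simp only [q3, qd] at h; linarith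
    · ring
  have hrow : ∀ j, γ.val 1 0 * mE X 0 j + γ.val 1 1 * mE X 1 j = 0 := fun j => by
    refine mul_left_cancel₀ hg ?_
    rw [mul_zero, mul_add, ← mul_assoc, ← mul_assoc, ← h1, ← h2]
    fin_cases j
    · simp [mE]; linear_combination hq
    · simp [mE]; ring
  -- so `γ X` has zero second row
  have hYr : ∀ j, mE Y 1 j = 0 := fun j => by
    rw [hY, mE_dact, Matrix.mul_apply]
    simp [Matrix.mul_apply, Fin.sum_univ_two, hrow]
  refine ⟨γ⁻¹, Y.1, ?_⟩
  have e : ((Y.1, (0, 0), 0) : Lz) = Y := by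
    have a1 := hYr 0
    have a2 := hYr 1
    simp [mE, bY, QuadraticAlgebra.ext_iff] at a1
    simp [mE] at a2
    refine Prod.ext rfl (Prod.ext (Prod.ext ?_ ?_) ?_) <;> simp_all [sR_ne]; omega
  rw [e, hY, gl_mul_inv_dact]

/-- **Points of `Λ` of determinant `-1` are translates of `antidiag(1, 1)`.** -/
theorem exists_unimod_reduce {μ : Lz} (h : q3 (lam μ) = 3) :
    ∃ γ : GL (Fin 2) EI, lam μ = dact γ.val (lam (0, (1, 0), 0)) := by
  have hdet : (μ.2.1.1 ^ 2 + μ.2.1.1 * μ.2.1.2 + μ.2.1.2 ^ 2) - μ.1 * μ.2.2 = 1 := by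
    simp only [q3, qd, lam] at h
    linarith
  suffices H : ∃ γ : GL (Fin 2) EI, hE μ = γ.val * hE (0, (1, 0), 0) * γ.valᴴ by
    obtain ⟨γ, hγ⟩ := H
    rw [← hE_lact] at hγ
    exact ⟨γ, by rw [dact_lam, hE_injective hγ]⟩
  -- first make the corner vanish
  obtain ⟨γ1, ν, hν, hν0⟩ : ∃ (γ : GL (Fin 2) EI) (ν : Lz), hE ν = γ.val * hE μ * γ.valᴴ ∧
      ν.2.2 = 0 := by
    rcases eq_or_ne μ.2.2 0 with hd | hd
    · exact ⟨1, μ, by simp, hd⟩
    set β : EI := ⟨μ.2.1.1, μ.2.1.2⟩
    obtain ⟨γ, g, hg, h1, h2⟩ := exists_gl_row (r1 := (μ.2.2 : EI)) (r2 := 1 - β)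
      (Or.inl (by exact_mod_cast hd))
    refine ⟨γ, lact γ.val μ, hE_lact _ _, ?_⟩
    have e := congrFun (congrFun (hE_lact γ.val μ) 1) 1
    have hn : β * star β = (μ.1 : EI) * μ.2.2 + 1 := by
      apply QuadraticAlgebra.ext <;> simp [β]
      · linarith
      · ring
    have key : (g * star g) * ((lact γ.val μ).2.2 : EI)
        = (μ.2.2 : EI) * ((μ.1 : EI) * μ.2.2 + 1 - β * star β) := by
      have : hE (lact γ.val μ) 1 1 = ((lact γ.val μ).2.2 : EI) := by simp [hE]
      rw [← this, e]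
      simp [Matrix.mul_apply, Fin.sum_univ_two, hE]
      rw [show (⟨μ.2.1.1 + μ.2.1.2, -μ.2.1.2⟩ : EI) = star β from by
        apply QuadraticAlgebra.ext <;> simp [β]]
      have s1 : star g * star (γ.val 1 0) = (μ.2.2 : EI) := by
        rw [← star_mul', ← h1]; simp
      have s2 : star g * star (γ.val 1 1) = 1 - star β := by
        rw [← star_mul', ← h2]; simp
      linear_combination
        ((γ.val 1 0 * (μ.1 : EI) + γ.val 1 1 * star β) * g) * s1
          + ((γ.val 1 0 * β + γ.val 1 1 * (μ.2.2 : EI)) * g) * s2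
          - ((μ.1 : EI) * μ.2.2 + β * (1 - star β)) * h1
          - (star β * μ.2.2 + μ.2.2 * (1 - star β)) * h2
    rw [hn, sub_self, mul_zero, mul_eq_zero, mul_eq_zero, star_eq_zero] at key
    have : ((lact γ.val μ).2.2 : EI) = 0 := key.resolve_left (by tauto)
    exact_mod_cast this
  -- the off-diagonal entry becomes a unit
  have hdν : ν.2.1.1 ^ 2 + ν.2.1.1 * ν.2.1.2 + ν.2.1.2 ^ 2 = 1 := by
    have e : lam ν = dact γ1.val (lam μ) := by
      rw [dact_lam]; congr 1; exact hE_injective (hν.trans (hE_lact _ _).symm)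
    have := q3_dact γ1.val (lam μ)
    rw [← e, h, ← Matrix.GeneralLinearGroup.val_det_apply, norm_unit_EI] at this
    simp only [q3, qd, lam, hν0] at this
    linarith
  set b : EI := ⟨ν.2.1.1, ν.2.1.2⟩
  have hb : b * star b = 1 := by
    apply QuadraticAlgebra.ext <;> simp [b]
    · linarith
    · ring
  set w : EI := ⟨0, 1⟩
  -- choose the corner
  let c : EI := (ν.1 : EI) * w * b
  have hc : star c * b + c * star b = (ν.1 : EI) := by
    have : w + star w = 1 := by apply QuadraticAlgebra.ext <;> simp [w]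
    simp only [c, star_mul', star_intCast]
    linear_combination ((ν.1 : EI) * (star w + w)) * hb + (ν.1 : EI) * this
  let ε : GL (Fin 2) EI := ⟨!![b, c; 0, 1], !![star b, -(star b * c); 0, 1],
    by
      ext i j : 1
      fin_cases i <;> fin_cases j <;> simp [Matrix.mul_apply, Fin.sum_univ_two, hb, ← mul_assoc],
    by
      ext i j : 1
      fin_cases i <;> fin_cases j <;> simp [Matrix.mul_apply, Fin.sum_univ_two,
        mul_comm (star b) b, hb]⟩
  have hε : hE ν = ε.val * hE (0, (1, 0), 0) * ε.valᴴ := by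
    have h10 : (⟨1, 0⟩ : EI) = 1 := by apply QuadraticAlgebra.ext <;> simp
    ext i j : 1
    fin_cases i <;> fin_cases j <;>
      simp [ε, hE, hν0, Matrix.mul_apply, Fin.sum_univ_two, h10, mul_comm b] <;>
      first
        | rfl
        | linear_combination (-1 : EI) * hc
        | (apply QuadraticAlgebra.ext <;> simp [b])
  refine ⟨γ1⁻¹ * ε, ?_⟩
  have e1 : hE μ = (γ1⁻¹ : GL (Fin 2) EI).val * hE ν * (γ1⁻¹ : GL (Fin 2) EI).valᴴ := by
    rw [hν, ← Matrix.mul_assoc, ← Matrix.mul_assoc, Units.inv_mul, Matrix.one_mul, Matrix.mul_assoc,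
      ← Matrix.conjTranspose_mul, Units.inv_mul, Matrix.conjTranspose_one, Matrix.mul_one]
  rw [e1, hε, Units.val_mul, Matrix.conjTranspose_mul]
  simp only [Matrix.mul_assoc]

end Fermat.LT3
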