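import Fermat.Agent.LT3.Coef.Zero
import Fermat.Agent.LT3.Coef.Hecke
import Fermat.Agent.LT3.SampPos
import Fermat.Agent.LT3.SampNeg

/-!
# The coefficients `κ_n`

For `n > 0` the functional of norm `n` is `κ_n ∫ F`, for `n < 0` it is
`κ_n ∫ r sinh r F(√(|n|/3) cosh r)`; the coefficients grow subexponentially and inherit every
`HeckeRel`. This holds for any pairing (`pairI`, `pairCoef`); for an `Auto` paired with twists
(`cI`, `kap`) the relations hold at the primes `p ≡ 1 (mod 9E)`.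

These follow from the averaging identity (`Avg`) and the Hecke relation of the samples (`Hecke`);
they are the coefficients of the lifted series (`LT3/Series/Def`).
-/

set_option autoImplicit false
open MeasureTheory Filter
open scoped Real

namespace Fermat.LT3
open Fermat.LT

/-- The Gaussian `exp (-a x²)`. -/
noncomputable def gs (a : ℝ) (x : ℝ) : ℂ := (Real.exp (-(a * x ^ 2)) : ℂ)

/-- A Gaussian decays. -/
lemma decay_gs {a : ℝ} (ha : 0 < a) : Samp.Decay (gs a) :=
  ⟨by unfold gs; fun_prop, a, 1, ha, fun x => by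
    rw [one_mul, gs, Complex.norm_real, Real.norm_of_nonneg (Real.exp_pos _).le]⟩

/-- A Gaussian is even. -/
lemma isEvenF_gs (a : ℝ) : IsEvenF (gs a) := fun x => by simp [gs]

/-- Scaling down keeps evenness. -/
lemma isEvenF_dn (p : ℕ) {F : ℝ → ℂ} (hF : IsEvenF F) : IsEvenF (dn p F) := fun x => by
  simp only [dn, neg_div, hF (x / Real.sqrt p)]

/-- Scaling up keeps evenness. -/
lemma isEvenF_up (p : ℕ) {F : ℝ → ℂ} (hF : IsEvenF F) : IsEvenF (up p F) := fun x => by
  simp only [up, mul_neg, hF (Real.sqrt p * x)]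

/-- The integral of a Gaussian. -/
lemma integral_gs (a : ℝ) : ∫ x, gs a x = (Real.sqrt (π / a) : ℂ) := by
  unfold gs
  rw [integral_complex_ofReal, ← integral_gaussian a]
  simp only [neg_mul]

/-- `√(-n / 3)`, that is `√(|n| / 3)` for `n ≤ 0` (junk `0` for `n > 0`). -/
noncomputable def cn (n : ℤ) : ℝ := Real.sqrt ((-n : ℤ) / 3 : ℝ)

/-- `√(|n| / 3)` is positive for negative `n`. -/
lemma cn_pos {n : ℤ} (hn : n < 0) : 0 < cn n := by
  unfold cn
  refine Real.sqrt_pos.2 (div_pos ?_ (by norm_num))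
  exact_mod_cast neg_pos.2 hn

/-- The square of `√(|n| / 3)`. -/
lemma sq_cn {n : ℤ} (hn : n < 0) : cn n ^ 2 = -(n : ℝ) / 3 := by
  rw [cn, Real.sq_sqrt]
  · push_cast; rfl
  · refine div_nonneg ?_ (by norm_num)
    exact_mod_cast (neg_pos.2 hn).le

/-- The functional of a negative norm: `∫ r sinh r F (c cosh r)`. -/
noncomputable def negI (c : ℝ) (F : ℝ → ℂ) : ℂ :=
  ∫ r : ℝ, ((r * Real.sinh r : ℝ) : ℂ) * F (c * Real.cosh r)

/-- The weight `r sinh r` is nonnegative. -/
lemma mul_sinh_nonneg (r : ℝ) : 0 ≤ r * Real.sinh r := by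
  rcases le_total 0 r with h | h
  · exact mul_nonneg h (Real.sinh_nonneg_iff.2 h)
  · exact mul_nonneg_of_nonpos_of_nonpos h (Real.sinh_nonpos_iff.2 h)

/-- `|r| ≤ cosh r`. -/
lemma abs_le_cosh (r : ℝ) : |r| ≤ Real.cosh r := by
  rw [← Real.cosh_abs]
  have h := Real.self_le_sinh_iff.2 (abs_nonneg r)
  have := Real.sinh_lt_cosh |r|
  linarith

/-- The weight of a negative norm is integrable against a Gaussian. -/
lemma integrable_neg_weight {c : ℝ} (hc : 0 < c) {a : ℝ} (ha : 0 < a) :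
    Integrable fun r : ℝ => r * Real.sinh r * Real.exp (-(a * (c * Real.cosh r) ^ 2)) := by
  set b := a * c ^ 2 with hb
  have hb0 : 0 < b := mul_pos ha (pow_pos hc 2)
  refine ((integrable_exp_neg_mul_sq (half_pos hb0)).const_mul
    (Real.exp (2 / b))).mono' (by fun_prop : Continuous _).aestronglyMeasurable
    (Eventually.of_forall fun r => ?_)
  rw [Real.norm_of_nonneg (mul_nonneg (mul_sinh_nonneg r) (Real.exp_pos _).le),
    ← Real.exp_add]
  have h1 : r * Real.sinh r ≤ Real.exp (2 * |r|) := by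
    have e : r * Real.sinh r = |r| * Real.sinh |r| := by
      rw [← Real.abs_sinh, ← abs_mul, abs_of_nonneg (mul_sinh_nonneg r)]
    have a1 : |r| ≤ Real.exp |r| := by linarith [Real.add_one_le_exp |r|]
    have a2 : Real.sinh |r| ≤ Real.exp |r| := by
      rw [← Real.sinh_add_cosh]; linarith [Real.cosh_pos |r|]
    rw [e, two_mul, Real.exp_add]
    exact mul_le_mul a1 a2 (Real.sinh_nonneg_iff.2 (abs_nonneg r)) (Real.exp_pos _).le
  refine (mul_le_mul_of_nonneg_right h1 (Real.exp_pos _).le).trans ?_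
  rw [← Real.exp_add, Real.exp_le_exp]
  have h2 : r ^ 2 ≤ Real.cosh r ^ 2 := by
    rw [← sq_abs r]; exact pow_le_pow_left₀ (abs_nonneg r) (abs_le_cosh r) 2
  have h3 : 2 * |r| ≤ 2 / b + b / 2 * r ^ 2 := by
    rw [← sub_nonneg]
    have : 2 / b + b / 2 * r ^ 2 - 2 * |r| = (2 - b * |r|) ^ 2 / (2 * b) := by
      field_simp
      rw [← sq_abs r]
      ring
    rw [this]
    positivity
  have h4 : b * r ^ 2 ≤ a * (c * Real.cosh r) ^ 2 := by
    rw [hb, mul_pow, ← mul_assoc]
    exact mul_le_mul_of_nonneg_left h2 (by positivity)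
  linarith

/-- The model sample of positive norm. -/
noncomputable def lineSamp : Samp ℝ where
  μ := volume
  sfin := inferInstance
  g := fun _ => 1
  l := fun x => x
  mg := aestronglyMeasurable_const
  ml := measurable_id
  hint a ha := by simpa using integrable_exp_neg_mul_sq ha

/-- The model sample of negative norm. -/
noncomputable def negSamp (c : ℝ) (hc : 0 < c) : Samp ℝ where
  μ := volume
  sfin := inferInstance
  g := fun r => ((r * Real.sinh r : ℝ) : ℂ)
  l := fun r => c * Real.cosh r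
  mg := (by fun_prop : Continuous fun r : ℝ => ((r * Real.sinh r : ℝ) : ℂ)).aestronglyMeasurable
  ml := (by fun_prop : Continuous fun r : ℝ => c * Real.cosh r).measurable
  hint a ha := (integrable_neg_weight hc ha).congr (Eventually.of_forall fun r => by
    dsimp only
    rw [Complex.norm_real, Real.norm_of_nonneg (mul_sinh_nonneg r)])

/-- The negative functional of a Gaussian. -/
noncomputable def negG (c a : ℝ) : ℝ :=
  ∫ r : ℝ, r * Real.sinh r * Real.exp (-(a * (c * Real.cosh r) ^ 2))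

/-- The negative functional of a Gaussian is real. -/
lemma negI_gs (c a : ℝ) : negI c (gs a) = (negG c a : ℂ) := by
  rw [negI, negG, ← integral_complex_ofReal]
  refine integral_congr_ae (Eventually.of_forall fun r => ?_)
  simp [gs]

/-- An explicit lower bound for the negative functional of a Gaussian. -/
lemma le_negG {c : ℝ} (hc : 0 < c) {a : ℝ} (ha : 0 < a) :
    1 / 2 * Real.sinh 1 * Real.exp (-(a * (c * Real.cosh (3 / 2)) ^ 2)) ≤ negG c a := by
  have hi := integrable_neg_weight hc ha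
  refine le_trans ?_ (setIntegral_le_integral (s := Set.Icc (1 : ℝ) (3 / 2)) hi
    (Eventually.of_forall fun r => mul_nonneg (mul_sinh_nonneg r) (Real.exp_pos _).le))
  refine le_trans (le_of_eq ?_) (setIntegral_ge_of_const_le_real (μ := volume)
    (c := Real.sinh 1 * Real.exp (-(a * (c * Real.cosh (3 / 2)) ^ 2))) measurableSet_Icc
    measure_Icc_lt_top.ne (fun r hr => ?_) hi.integrableOn)
  · rw [Real.volume_real_Icc]; norm_num; ring
  · refine mul_le_mul ?_ ?_ (Real.exp_pos _).le (mul_sinh_nonneg r)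
    · calc Real.sinh 1 ≤ Real.sinh r := Real.sinh_le_sinh.2 hr.1
        _ ≤ r * Real.sinh r :=
          le_mul_of_one_le_left (Real.sinh_nonneg_iff.2 (by linarith [hr.1])) hr.1
    · rw [Real.exp_le_exp, neg_le_neg_iff]
      refine mul_le_mul_of_nonneg_left
        (pow_le_pow_left₀ (mul_nonneg hc.le (Real.cosh_pos r).le) ?_ 2) ha.le
      refine mul_le_mul_of_nonneg_left (Real.cosh_le_cosh.2 ?_) hc.le
      rw [abs_of_nonneg (by linarith [hr.1]), abs_of_nonneg (by norm_num : (0 : ℝ) ≤ 3 / 2)]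
      exact hr.2

/-- The negative functional of a Gaussian is positive. -/
lemma negG_pos {c : ℝ} (hc : 0 < c) {a : ℝ} (ha : 0 < a) : 0 < negG c a :=
  lt_of_lt_of_le (mul_pos (mul_pos (by norm_num) (Real.sinh_pos_iff.2 one_pos)) (Real.exp_pos _))
    (le_negG hc ha)

/-- The functional of norm `n` of a pairing. -/
noncomputable def pairI {ι : Type*} [Fintype ι] (φ : ι → H3 → ℂ) (ψ : ι → Lz → ℂ) (n : ℤ)
    (F : ℝ → ℂ) : ℂ :=
  ∫ w, (rho0 w : ℂ) * pairSum n φ ψ F w ∂hmeas

/-- The coefficients of a pairing: its functionals divided by the model ones, tested on `gs π`. -/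
noncomputable def pairCoef {ι : Type*} [Fintype ι] (φ : ι → H3 → ℂ) (ψ : ι → Lz → ℂ) (n : ℤ) : ℂ :=
  if 0 < n then pairI φ ψ n (gs π) else if n < 0 then pairI φ ψ n (gs π) / negG (cn n) π else 0

section Pairing

variable {ι : Type*} [Fintype ι] {φ : ι → H3 → ℂ} {ψ : ι → Lz → ℂ} (hP : IsEigPair φ ψ)
include hP

/-- The functional as that of a sample. -/
lemma pairI_eq (n : ℤ) {F : ℝ → ℂ} (hF : Samp.Decay F) : pairI φ ψ n F = (sampI n hP).I F :=
  (I_eq_pairSum hP n hF).symm

/-- **Positive norms.** At `n > 0` the functional of an even function is the coefficient times its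
integral. -/
theorem pairI_pos {n : ℤ} (hn : 0 < n) {F : ℝ → ℂ} (hF : Samp.Decay F)
    (he : IsEvenF F) : pairI φ ψ n F = pairCoef φ ψ n * ∫ x, F x := by
  set c := Real.sqrt ((n : ℝ) / 3)
  have hn3 : (0 : ℝ) < (n : ℝ) / 3 := div_pos (Int.cast_pos.2 hn) (by norm_num)
  obtain ⟨κ, hκ⟩ := (sampI n hP).exists_const_pos (c := c) (Real.sqrt_pos.2 hn3) (by
    rw [Real.sq_sqrt hn3.le]; exact avg_sampI hP (nondeg_of_ne hn.ne' ψ))
  have h : ∀ G : ℝ → ℂ, Samp.Decay G → IsEvenF G → pairI φ ψ n G = κ * ∫ x, G x :=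
      fun G hG hGe => by
    rw [pairI_eq hP n hG, Samp.eq_of_eq_compact _ lineSamp κ (fun P hP hPe hB => ?_) hG hGe]
    · simp [Samp.I, lineSamp]
    · rw [hκ P hP hPe hB]
      simp [Samp.I, lineSamp]
  rw [h F hF he, pairCoef, if_pos hn, h (gs π) (decay_gs Real.pi_pos) (isEvenF_gs _), integral_gs,
    div_self Real.pi_ne_zero, Real.sqrt_one, Complex.ofReal_one, mul_one]

/-- **Negative norms.** At `n < 0` the functional of an even function is the coefficient times
`negI`. -/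
theorem pairI_neg {n : ℤ} (hn : n < 0) {F : ℝ → ℂ} (hF : Samp.Decay F)
    (he : IsEvenF F) : pairI φ ψ n F = pairCoef φ ψ n * negI (cn n) F := by
  have hc := cn_pos hn
  have hq : ∀ X : {X : Lz // q3 X = n}, qf (vec X.1) = -(cn n ^ 2) := fun X => by
    have h := q3_eq X.1
    have h2 : ((q3 X.1 : ℤ) : ℝ) = n := by exact_mod_cast X.2
    rw [sq_cn hn]; linarith
  obtain ⟨κ, hκ⟩ := (sampI n hP).exists_const_neg hc (by
    rw [sq_cn hn, show -(-(n : ℝ) / 3) = (n : ℝ) / 3 by ring]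
    exact avg_sampI hP (nondeg_of_ne hn.ne ψ)) (by
    change ∀ᵐ ω ∂(Measure.count.prod hmeas : Measure (Ix ι n × H3)), cn n < |lI n ω|
    rw [Measure.ae_prod_iff_ae_ae]
    · refine Eventually.of_forall fun i => ?_
      filter_upwards [ae_pos_len (vec i.2.1) (by
        rw [hq i.2, neg_ne_zero]; exact pow_ne_zero 2 hc.ne')] with w hw
      rw [hq i.2] at hw
      have h2 : cn n ^ 2 < |lI n (i, w)| ^ 2 := by rw [sq_abs, lI]; linarith
      exact lt_of_pow_lt_pow_left₀ 2 (abs_nonneg _) h2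
    · exact measurableSet_lt measurable_const (measurable_lI n).norm)
  have h : ∀ G : ℝ → ℂ, Samp.Decay G → IsEvenF G → pairI φ ψ n G = κ * negI (cn n) G :=
      fun G hG hGe => by
    rw [pairI_eq hP n hG,
      Samp.eq_of_eq_compact _ (negSamp (cn n) hc) κ (fun P hP hPe hB => ?_) hG hGe]
    · rfl
    · rw [hκ P hP hPe hB]; rfl
  rw [h F hF he, pairCoef, if_neg (not_lt.2 hn.le), if_pos hn,
    h (gs π) (decay_gs Real.pi_pos) (isEvenF_gs _), negI_gs, mul_div_assoc,
      div_self (Complex.ofReal_ne_zero.2 (negG_pos hc Real.pi_pos).ne'), mul_one]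

/-- The functionals of a Gaussian are bounded by an exponential in `n`. -/
lemma exists_pairI_gs_bound {a : ℝ} (ha : 0 < a) :
    ∃ C, 0 ≤ C ∧ ∀ n : ℤ, ‖pairI φ ψ n (gs a)‖ ≤ C * Real.exp (a * n / 6) := by
  obtain ⟨C, hC0, hC⟩ := exists_moment_bound hP ha
  refine ⟨C, hC0, fun n => ?_⟩
  rw [pairI_eq hP n (decay_gs ha)]
  refine (norm_integral_le_integral_norm _).trans (le_of_eq_of_le ?_ (hC n).2)
  refine integral_congr_ae (Eventually.of_forall fun p => ?_)
  change ‖gI φ ψ n p * gs a (lI n p)‖ = _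
  rw [norm_mul, gs, Complex.norm_real, Real.norm_of_nonneg (Real.exp_pos _).le]

/-- **Subexponential growth.** The coefficients of a pairing grow at most like `exp (ε |n|)`, for
every `ε > 0`. -/
theorem exists_pairCoef_bound {ε : ℝ} (hε : 0 < ε) :
    ∃ C, 0 ≤ C ∧ ∀ n : ℤ, ‖pairCoef φ ψ n‖ ≤ C * Real.exp (ε * |(n : ℝ)|) := by
  -- test on a Gaussian wide enough that both model functionals beat `exp (-ε |n|)`
  set K := Real.cosh (3 / 2) ^ 2 with hK
  have hK0 : 0 < K := pow_pos (Real.cosh_pos _) 2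
  set a := min (6 * ε) (3 * ε / K) with had
  have ha : 0 < a := lt_min (by positivity) (by positivity)
  obtain ⟨C, hC0, hC⟩ := exists_pairI_gs_bound hP ha
  set s := Real.sqrt (π / a) with hsd
  have hs : 0 < s := Real.sqrt_pos.2 (by positivity)
  have hL : 0 < 1 / 2 * Real.sinh 1 := mul_pos (by norm_num) (Real.sinh_pos_iff.2 one_pos)
  refine ⟨C / s + C / (1 / 2 * Real.sinh 1), by positivity, fun n => ?_⟩
  rcases lt_trichotomy 0 n with hn | hn | hn
  · have h := congrArg norm (pairI_pos hP hn (decay_gs ha) (isEvenF_gs a))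
    rw [norm_mul, integral_gs, Complex.norm_real, Real.norm_of_nonneg hs.le] at h
    have hn' : (0 : ℝ) < n := Int.cast_pos.2 hn
    calc ‖pairCoef φ ψ n‖ = ‖pairI φ ψ n (gs a)‖ / s := by
          rw [h, mul_div_assoc, div_self hs.ne', mul_one]
      _ ≤ C * Real.exp (a * n / 6) / s := div_le_div_of_nonneg_right (hC n) hs.le
      _ ≤ C / s * Real.exp (ε * |(n : ℝ)|) := by
        rw [mul_div_right_comm, abs_of_pos hn']
        refine mul_le_mul_of_nonneg_left (Real.exp_le_exp.2 ?_) (by positivity)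
        nlinarith [min_le_left (6 * ε) (3 * ε / K)]
      _ ≤ _ := mul_le_mul_of_nonneg_right (le_add_of_nonneg_right (by positivity))
        (Real.exp_pos _).le
  · subst hn
    simp only [pairCoef, lt_irrefl, if_false, _root_.norm_zero]
    positivity
  · have hc := cn_pos hn
    have hn' : (n : ℝ) < 0 := Int.cast_lt_zero.2 hn
    have h := congrArg norm (pairI_neg hP hn (decay_gs ha) (isEvenF_gs a))
    rw [norm_mul, negI_gs, Complex.norm_real, Real.norm_of_nonneg (negG_pos hc ha).le] at h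
    set X := Real.exp (-(a * (cn n * Real.cosh (3 / 2)) ^ 2))
    have h2 : ‖pairCoef φ ψ n‖ * (1 / 2 * Real.sinh 1 * X) ≤ C * 1 :=
      ((mul_le_mul_of_nonneg_left (le_negG hc ha) (norm_nonneg _)).trans_eq h.symm).trans
        ((hC n).trans (mul_le_mul_of_nonneg_left (Real.exp_le_one_iff.2 (by nlinarith)) hC0))
    calc ‖pairCoef φ ψ n‖ ≤ C * 1 / (1 / 2 * Real.sinh 1 * X) := by
          rw [le_div_iff₀ (mul_pos hL (Real.exp_pos _))]; exact h2
      _ = C / (1 / 2 * Real.sinh 1) * X⁻¹ := by rw [mul_one, ← div_div, div_eq_mul_inv _ X]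
      _ ≤ C / (1 / 2 * Real.sinh 1) * Real.exp (ε * |(n : ℝ)|) := by
        refine mul_le_mul_of_nonneg_left ?_ (by positivity)
        rw [← Real.exp_neg, neg_neg, Real.exp_le_exp, mul_pow, sq_cn hn, ← hK, abs_of_neg hn']
        have h3 : a * K ≤ 3 * ε := (le_div_iff₀ hK0).1 (min_le_right _ _)
        nlinarith
      _ ≤ _ := mul_le_mul_of_nonneg_right (le_add_of_nonneg_left (by positivity))
        (Real.exp_pos _).le

/-- The relation of the functionals at `p` with eigenvalue `l`. -/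
def HeckeRel {ι : Type*} [Fintype ι] (φ : ι → H3 → ℂ) (ψ : ι → Lz → ℂ) (p : ℕ) (l : ℂ) : Prop :=
  ∀ (n : ℤ) {F : ℝ → ℂ}, Samp.Decay F → l * pairI φ ψ n F = pairI φ ψ ((p : ℤ) * n) (dn p F)
    + if (p : ℤ) ∣ n then (p : ℂ) * pairI φ ψ (n / (p : ℤ)) (up p F) else 0

variable {p : ℕ} {l : ℂ}

/-- The relation from an integrated Hecke operator. -/
lemma pairI_hecke_of_eq (hp : 0 < p) (n : ℤ) {F : ℝ → ℂ} (hF : Samp.Decay F) {H : H3 → ℂ}
    (hI : l * pairI φ ψ n F = ∫ u, (rho0 u : ℂ) * H u ∂hmeas)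
    (hH : ∀ u, H u = pairSum ((p : ℤ) * n) φ ψ (dn p F) u
      + if (p : ℤ) ∣ n then (p : ℂ) * pairSum (n / (p : ℤ)) φ ψ (up p F) u else 0) :
    l * pairI φ ψ n F = pairI φ ψ ((p : ℤ) * n) (dn p F)
      + if (p : ℤ) ∣ n then (p : ℂ) * pairI φ ψ (n / (p : ℤ)) (up p F) else 0 := by
  have hint : ∀ (m : ℤ) (G : ℝ → ℂ), Samp.Decay G →
      Integrable (fun u => (rho0 u : ℂ) * pairSum m φ ψ G u) hmeas := fun m G hG =>
    integrable_rho0_pairSum (fun i => (hP.isEig i).cont.measurable) hP.bound hP.wbound m hG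
  rw [hI]
  simp only [hH, pairI]
  split_ifs with hd
  · simp only [mul_add]
    rw [integral_add (hint _ _ (decay_dn hp hF))]
    · congr 1
      rw [← integral_const_mul]
      exact integral_congr_ae (Eventually.of_forall fun u => mul_left_comm _ _ _)
    · exact ((hint _ _ (decay_up hp hF)).const_mul (p : ℂ)).congr
        (Eventually.of_forall fun u => mul_left_comm _ _ _)
  · simp

omit hP in
/-- The integral after scaling down. -/
lemma integral_dn (hp : 0 < p) (F : ℝ → ℂ) :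
    ∫ x, dn p F x = (Real.sqrt p : ℂ) * ∫ x, F x := by
  have hs : 0 < Real.sqrt p := Real.sqrt_pos.2 (Nat.cast_pos.2 hp)
  simp only [dn]
  rw [Measure.integral_comp_div (fun x => F x), abs_of_pos hs, Complex.real_smul]

omit hP in
/-- The integral after scaling up. -/
lemma integral_up (hp : 0 < p) (F : ℝ → ℂ) :
    ∫ x, up p F x = ((Real.sqrt p)⁻¹ : ℂ) * ∫ x, F x := by
  have hs : 0 < Real.sqrt p := Real.sqrt_pos.2 (Nat.cast_pos.2 hp)
  simp only [up]
  rw [Measure.integral_comp_mul_left (fun x => F x), abs_of_pos (inv_pos.2 hs), Complex.real_smul,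
    Complex.ofReal_inv]

/-- **Positive coefficients.** For `n > 0` a Hecke relation gives `l c(n) = √p (c(pn) + c(n/p))`. -/
theorem pairCoef_hecke_pos (hp : 0 < p) (hrel : HeckeRel φ ψ p l) {n : ℤ} (hn : 0 < n) :
    l * pairCoef φ ψ n
      = (Real.sqrt p : ℂ) * (pairCoef φ ψ ((p : ℤ) * n)
        + if (p : ℤ) ∣ n then pairCoef φ ψ (n / (p : ℤ)) else 0) := by
  have hpz : (0 : ℤ) < p := by exact_mod_cast hp
  have hG := decay_gs Real.pi_pos
  have hGe := isEvenF_gs π
  have hI : ∫ x, gs π x = 1 := by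
    rw [integral_gs, div_self Real.pi_ne_zero, Real.sqrt_one, Complex.ofReal_one]
  have h := hrel n hG
  rw [pairI_pos hP hn hG hGe, pairI_pos hP (mul_pos hpz hn) (decay_dn hp hG) (isEvenF_dn p hGe),
    integral_dn hp, hI, mul_one, mul_one] at h
  rw [h]
  split_ifs with hd
  · obtain ⟨m, rfl⟩ := hd
    have hm : 0 < m := pos_of_mul_pos_right hn hpz.le
    rw [Int.mul_ediv_cancel_left _ hpz.ne', pairI_pos hP hm (decay_up hp hG) (isEvenF_up p hGe),
      integral_up hp, hI, mul_one]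
    have hpc : (p : ℂ) = (Real.sqrt p : ℂ) * (Real.sqrt p : ℂ) := by
      rw [← Complex.ofReal_mul, Real.mul_self_sqrt (Nat.cast_nonneg p)]
      simp
    have hs : (Real.sqrt p : ℂ) ≠ 0 :=
      Complex.ofReal_ne_zero.2 (Real.sqrt_pos.2 (Nat.cast_pos.2 hp)).ne'
    rw [hpc]
    field_simp
  · simp [mul_comm]

omit hP in
/-- Scaling of `√(|n| / 3)`. -/
lemma cn_mul (n : ℤ) : cn ((p : ℤ) * n) = Real.sqrt p * cn n := by
  rw [cn, cn, ← Real.sqrt_mul (Nat.cast_nonneg p)]
  congr 1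
  push_cast
  ring

/-- **Negative coefficients.** For `n < 0` a Hecke relation gives `l c(n) = c(pn) + p c(n/p)`. -/
theorem pairCoef_hecke_neg (hp : 0 < p) (hrel : HeckeRel φ ψ p l) {n : ℤ} (hn : n < 0) :
    l * pairCoef φ ψ n = pairCoef φ ψ ((p : ℤ) * n)
      + (p : ℂ) * (if (p : ℤ) ∣ n then pairCoef φ ψ (n / (p : ℤ)) else 0) := by
  have hpz : (0 : ℤ) < p := by exact_mod_cast hp
  have hG := decay_gs Real.pi_pos
  have hGe := isEvenF_gs π
  have hs : Real.sqrt p ≠ 0 := (Real.sqrt_pos.2 (Nat.cast_pos.2 hp)).ne'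
  set L : ℂ := negI (cn n) (gs π) with hL
  have hL0 : L ≠ 0 := by
    rw [hL, negI_gs]; exact Complex.ofReal_ne_zero.2 (negG_pos (cn_pos hn) Real.pi_pos).ne'
  have h := hrel n hG
  have hpn : (p : ℤ) * n < 0 := mul_neg_of_pos_of_neg hpz hn
  have e1 : negI (cn ((p : ℤ) * n)) (dn p (gs π)) = L := by
    rw [cn_mul, hL, negI, negI]
    refine integral_congr_ae (Eventually.of_forall fun r => ?_)
    simp only [dn]
    rw [mul_assoc, mul_div_cancel_left₀ _ hs]
  rw [pairI_neg hP hn hG hGe, pairI_neg hP hpn (decay_dn hp hG) (isEvenF_dn p hGe), e1] at h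
  refine mul_right_cancel₀ hL0 ?_
  rw [mul_assoc, h]
  split_ifs with hd
  · obtain ⟨m, rfl⟩ := hd
    have hm : m < 0 := neg_of_mul_neg_right hn hpz.le
    have e2 : negI (cn m) (up p (gs π)) = L := by
      rw [hL, cn_mul, negI, negI]
      refine integral_congr_ae (Eventually.of_forall fun r => ?_)
      simp only [up, mul_assoc]
    rw [Int.mul_ediv_cancel_left _ hpz.ne', pairI_neg hP hm (decay_up hp hG) (isEvenF_up p hGe), e2]
    ring
  · ring

end Pairing

variable {E : ℕ} [NeZero E] (A : Auto E) {Ψ : Lz → ℂ}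

/-- The functional of norm `n` of `A` paired with the twists of `Ψ`. -/
noncomputable def cI (Ψ : Lz → ℂ) (n : ℤ) (F : ℝ → ℂ) : ℂ :=
  pairI (fun M : G1 (3 * E) => A.Φ M.1) (fun M => twist Ψ M.1) n F

/-- **The coefficients** `κ_n` of `A` paired with `Ψ`. -/
noncomputable def kap (Ψ : Lz → ℂ) (n : ℤ) : ℂ :=
  pairCoef (fun M : G1 (3 * E) => A.Φ M.1) (fun M => twist Ψ M.1) n

/-- The functional of norm zero vanishes. -/
theorem cI_zero (hΨ : Per (3 * E) Ψ) {F : ℝ → ℂ} (hF : Samp.Decay F) : cI A Ψ 0 F = 0 :=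
  integral_eq_zero_of_ae (Eventually.of_forall fun w =>
    mul_eq_zero_of_right _ (sG_zero A hΨ hF w))

/-- **Positive norms.** At `n > 0` the functional of `A` on an even function is `kap` times its
integral. -/
theorem cI_pos (hΨ : Per (3 * E) Ψ) {n : ℤ} (hn : 0 < n) {F : ℝ → ℂ} (hF : Samp.Decay F)
    (he : IsEvenF F) : cI A Ψ n F = kap A Ψ n * ∫ x, F x :=
  pairI_pos (A.pair hΨ) hn hF he

/-- **Subexponential growth.** The coefficients `kap` grow at most like `exp (ε |n|)`, for every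
`ε > 0`. -/
theorem exists_kap_bound (hΨ : Per (3 * E) Ψ) {ε : ℝ} (hε : 0 < ε) :
    ∃ C, 0 ≤ C ∧ ∀ n : ℤ, ‖kap A Ψ n‖ ≤ C * Real.exp (ε * |(n : ℝ)|) :=
  exists_pairCoef_bound (A.pair hΨ) hε

/-- The coefficient at `n / p`. -/
noncomputable def kapDiv (Ψ : Lz → ℂ) (p : ℕ) (n : ℤ) : ℂ :=
  if (p : ℤ) ∣ n then kap A Ψ (n / (p : ℤ)) else 0

variable {π' : EI} {p : ℕ}

/-- The relation of the functionals at a split prime `≡ 1 (mod 9 E)`. -/
lemma cI_hecke (hΨ : Per (3 * E) Ψ) (hπ : Prime π') (hn : QuadraticAlgebra.norm π' = (p : ℤ))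
    (hp : p.Prime) (h9 : (p : ZMod (3 * (3 * E))) = 1) (n : ℤ) {F : ℝ → ℂ} (hF : Samp.Decay F) :
    (A.lam π' : ℂ) * cI A Ψ n F = cI A Ψ ((p : ℤ) * n) (dn p F)
      + if (p : ℤ) ∣ n then (p : ℂ) * cI A Ψ (n / (p : ℤ)) (up p F) else 0 := by
  have := Fact.mk hp
  obtain ⟨D⟩ := exists_degOne hn (ne_three_of_isUnit (E := E) (h9 ▸ isUnit_one))
  exact pairI_hecke_of_eq (A.pair hΨ) hp.pos n hF (hecke_integral A hΨ hπ hn h9 D n hF)
    (sum_hFun_eq A hΨ hn h9 D n hF)

/-- **Positive coefficients.** For `n > 0` the eigenvalue times `κ(n)` is `√p (κ(pn) + κ(n/p))`. -/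
theorem kap_hecke_pos (hΨ : Per (3 * E) Ψ) (hπ : Prime π')
    (hnm : QuadraticAlgebra.norm π' = (p : ℤ)) (hp : p.Prime) (h9 : (p : ZMod (3 * (3 * E))) = 1)
    {n : ℤ} (hn : 0 < n) :
    (A.lam π' : ℂ) * kap A Ψ n
      = (Real.sqrt p : ℂ) * (kap A Ψ ((p : ℤ) * n) + kapDiv A Ψ p n) :=
  pairCoef_hecke_pos (A.pair hΨ) hp.pos (fun m {_} hF => cI_hecke A hΨ hπ hnm hp h9 m hF) hn

/-- **Negative coefficients.** For `n < 0` the eigenvalue times `κ(n)` is `κ(pn) + p κ(n/p)`. -/
theorem kap_hecke_neg (hΨ : Per (3 * E) Ψ) (hπ : Prime π')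
    (hnm : QuadraticAlgebra.norm π' = (p : ℤ)) (hp : p.Prime) (h9 : (p : ZMod (3 * (3 * E))) = 1)
    {n : ℤ} (hn : n < 0) :
    (A.lam π' : ℂ) * kap A Ψ n = kap A Ψ ((p : ℤ) * n) + (p : ℂ) * kapDiv A Ψ p n :=
  pairCoef_hecke_neg (A.pair hΨ) hp.pos (fun m {_} hF => cI_hecke A hΨ hπ hnm hp h9 m hF) hn

end Fermat.LT3
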