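import Fermat.Agent.LT3.Auto
import Fermat.Agent.LT3.Samp

/-!
# The samples attached to a norm

A finite family of eigenfunctions `φ` is paired with an equivariant family `ψ` of functions on the
lattice. For each `n` the pairs `(i, X)` with `q3 X = n`, times `H3`, with weight `rho0 · φ i · ψ i`
and height `lin X`, form a sample with all Gaussian moments.
-/

set_option autoImplicit false
open Matrix MeasureTheory Filter
open scoped ENNReal Classical

namespace Fermat.LT3
open Fermat.LT

/-- Integrability of functions bounded by the height on the Siegel set. -/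
lemma integrable_of_le_Sg {f : H3 → ℂ} (hf : Measurable f) {C : ℝ}
    (h : ∀ w, ‖f w‖ ≤ C * Sg.indicator (fun u => (H3.coord u).2) w) : Integrable f hmeas := by
  refine ⟨hf.aestronglyMeasurable, ?_⟩
  rw [hasFiniteIntegral_iff_enorm, lintegral_hmeas hf.enorm,
    lintegral_hvol_iter (fun p => ‖f (hmk p)‖ₑ) (hf.comp measurable_hmk).enorm]
  set B : ℂ → ℝ≥0∞ := (Metric.closedBall (0 : ℂ) 2).indicator 1
  set T : ℝ → ℝ≥0∞ := (Set.Ici (1 / 2 : ℝ)).indicator fun t => ENNReal.ofReal (t ^ (-2 : ℝ))
  -- on Sg the integrand is at most |C| t⁻², with z in a disc and t ≥ 1/2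
  have hC : ∀ z : ℂ, ∀ t ∈ Set.Ioi (0 : ℝ), ENNReal.ofReal ((t ^ 3)⁻¹) * ‖f (hmk (z, t))‖ₑ
      ≤ ENNReal.ofReal |C| * (B z * T t) := by
    intro z t (ht : 0 < t)
    have hw := h (hmk (z, t))
    by_cases hS : hmk (z, t) ∈ Sg
    · rw [Set.indicator_of_mem hS, hmk, H3.coord_mk_of_pos z ht] at hw
      obtain ⟨hu, hv, h2⟩ := hS
      rw [hmk, H3.coord_mk_of_pos z ht] at hu hv h2
      have hz : z ∈ Metric.closedBall (0 : ℂ) 2 := by
        rw [mem_closedBall_zero_iff, Complex.norm_def, Real.sqrt_le_left (by norm_num),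
          normSq_eq_cuv]
        simp only at hu hv
        have a1 : |cu z * cv z| ≤ 1 / 2 * (1 / 2) := by
          rw [abs_mul]; exact mul_le_mul hu hv (abs_nonneg _) (by norm_num)
        have a2 : cu z ^ 2 ≤ (1 / 2) ^ 2 := sq_le_sq' (abs_le.1 hu).1 (abs_le.1 hu).2
        have a3 : cv z ^ 2 ≤ (1 / 2) ^ 2 := sq_le_sq' (abs_le.1 hv).1 (abs_le.1 hv).2
        linarith [(abs_le.1 a1).2]
      simp only [B, T]
      rw [Set.indicator_of_mem hz, Set.indicator_of_mem (show t ∈ Set.Ici (1 / 2 : ℝ) from h2),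
        Pi.one_apply, one_mul, ← ofReal_norm, ← ENNReal.ofReal_mul (by positivity),
        ← ENNReal.ofReal_mul (abs_nonneg C)]
      refine ENNReal.ofReal_le_ofReal ((mul_le_mul_of_nonneg_left (hw.trans
        (mul_le_mul_of_nonneg_right (le_abs_self C) ht.le)) (by positivity)).trans_eq ?_)
      rw [Real.rpow_neg ht.le, show ((2 : ℝ)) = ((2 : ℕ) : ℝ) by norm_num, Real.rpow_natCast]
      field_simp
    · rw [Set.indicator_of_notMem hS, mul_zero] at hw
      simp [norm_le_zero_iff.1 hw]
  -- t⁻² is integrable on [1/2, ∞)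
  have hTf : ∫⁻ t in Set.Ioi (0 : ℝ), T t < ∞ := by
    refine lt_of_le_of_lt (setLIntegral_le_lintegral _ _) ?_
    rw [lintegral_indicator measurableSet_Ici, setLIntegral_congr Ioi_ae_eq_Ici.symm]
    have hi := integrableOn_Ioi_rpow_of_lt (show (-2 : ℝ) < -1 by norm_num)
      (show (0 : ℝ) < 1 / 2 by norm_num)
    exact Integrable.lintegral_lt_top hi
  -- integrate: disc area times this tail
  calc ∫⁻ z : ℂ, ∫⁻ t in Set.Ioi (0 : ℝ), ENNReal.ofReal ((t ^ 3)⁻¹) * ‖f (hmk (z, t))‖ₑ
      ≤ ∫⁻ z : ℂ, (ENNReal.ofReal |C| * ∫⁻ t in Set.Ioi (0 : ℝ), T t) * B z := by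
        refine lintegral_mono fun z => ?_
        refine (setLIntegral_mono' measurableSet_Ioi (hC z)).trans_eq ?_
        rw [lintegral_const_mul' _ _ ENNReal.ofReal_ne_top, mul_assoc, mul_comm _ (B z),
          lintegral_const_mul' _ _ ?_]
        simp only [B]
        by_cases hz : z ∈ Metric.closedBall (0 : ℂ) 2 <;> simp [hz]
    _ < ∞ := by
        rw [lintegral_const_mul' _ _ (ENNReal.mul_ne_top ENNReal.ofReal_ne_top hTf.ne)]
        refine ENNReal.mul_lt_top (ENNReal.mul_lt_top ENNReal.ofReal_lt_top hTf) ?_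
        rw [lintegral_indicator measurableSet_closedBall]
        simp only [Pi.one_apply, setLIntegral_one]
        exact measure_closedBall_lt_top

/-- The height weight times `C (1 + t) (1 + 1/t)` is at most `9 C t` on the Siegel set and zero
outside. -/
lemma rho0_mul_le {w : H3} {C : ℝ} (hC : 0 ≤ C) :
    rho0 w * (C * (1 + (H3.coord w).2) * (1 + ((H3.coord w).2)⁻¹))
      ≤ 9 * C * Sg.indicator (fun u => (H3.coord u).2) w := by
  by_cases hS : w ∈ Sg
  · rw [Set.indicator_of_mem hS]
    have h1 : rho0 w ≤ 1 := (rho0_le w).trans_eq (Set.indicator_of_mem hS _)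
    have h2 := hS.2.2
    have ht := H3.coord_pos w
    have h3 : 1 + ((H3.coord w).2)⁻¹ ≤ 3 := by
      have : ((H3.coord w).2)⁻¹ ≤ 2 := by
        rw [inv_le_comm₀ ht (by norm_num)]; linarith
      linarith
    calc rho0 w * (C * (1 + (H3.coord w).2) * (1 + ((H3.coord w).2)⁻¹))
        ≤ 1 * (C * (3 * (H3.coord w).2) * 3) := by gcongr; linarith
      _ = _ := by ring
  · have : rho0 w = 0 := le_antisymm ((rho0_le w).trans_eq (Set.indicator_of_notMem hS _))
      (part_rho0.nonneg w)
    simp [this, Set.indicator_of_notMem hS]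

/-- Matrices of norm determinant one. -/
abbrev G1 (N : ℕ) [NeZero N] : Type := {M : GN N // ndet M = 1}

/-- A family of bounded eigenfunctions and a bounded family of functions on the lattice, permuted
compatibly by `GL₂` of the Eisenstein integers. -/
structure IsEigPair {ι : Type*} (φ : ι → H3 → ℂ) (ψ : ι → Lz → ℂ) : Prop where
  /-- Each `φ i` is an eigenfunction. -/
  isEig : ∀ i, IsEig (φ i)
  /-- The eigenfunctions are uniformly bounded. -/
  bound : ∃ C, 0 ≤ C ∧ ∀ i v, ‖φ i v‖ ≤ C
  /-- The lattice functions are uniformly bounded. -/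
  wbound : ∃ B, 0 ≤ B ∧ ∀ i X, ‖ψ i X‖ ≤ B
  /-- Each matrix permutes both families in the same way. -/
  smul : ∀ γ : GL (Fin 2) EI, ∃ e : ι ≃ ι, (∀ i v, φ (e i) (gC γ • v) = φ i v) ∧
    ∀ i X, ψ (e i) (dact (γ : Matrix (Fin 2) (Fin 2) EI) X) = ψ i X

/-- The indices of norm `n`. -/
abbrev Ix (ι : Type*) (n : ℤ) : Type _ := ι × {X : Lz // q3 X = n}

/-- Every subset of the index type is measurable. -/
instance instMeasurableSpaceIx {ι : Type*} (n : ℤ) : MeasurableSpace (Ix ι n) := ⊤

variable {ι : Type*} [Fintype ι] (φ : ι → H3 → ℂ) (ψ : ι → Lz → ℂ) (n : ℤ)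

/-- The weight: `rho0` times the values of the pair. -/
noncomputable def gI (p : Ix ι n × H3) : ℂ :=
  (rho0 p.2 : ℂ) * φ p.1.1 p.2 * ψ p.1.1 p.1.2.1

/-- The height of the vector at the point. -/
noncomputable def lI (p : Ix ι n × H3) : ℝ := lin (vec p.1.2.1) p.2

variable {φ ψ} (hP : IsEigPair φ ψ)

include hP in
/-- The weight is measurable. -/
lemma measurable_gI : Measurable (gI φ ψ n) :=
  measurable_from_prod_countable_right fun i =>
    (((Complex.measurable_ofReal.comp part_rho0.meas).mul (hP.isEig i.1).cont.measurable).mul_const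
      (ψ i.1 i.2.1) :)

omit [Fintype ι] in
/-- The height is measurable. -/
lemma measurable_lI [Countable ι] : Measurable (lI (ι := ι) n) :=
  measurable_from_prod_countable_right fun i => (continuous_lin (vec i.2.1)).measurable

include hP

/-- The Gaussian sum over the points of norm `n` is at most `C exp (a n / 6) t` on the Siegel set
and zero outside. -/
lemma exists_sum_bound {a : ℝ} (ha : 0 < a) :
    ∃ C, 0 ≤ C ∧ ∀ (n : ℤ) (w : H3), Summable (fun i : Ix ι n => ‖gI φ ψ n (i, w)‖ *
        Real.exp (-(a * lI n (i, w) ^ 2))) ∧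
      ∑' i : Ix ι n, ‖gI φ ψ n (i, w)‖ * Real.exp (-(a * lI n (i, w) ^ 2))
        ≤ C * Real.exp (a * n / 6) * Sg.indicator (fun u => (H3.coord u).2) w := by
  obtain ⟨B, hB0, hB⟩ := hP.wbound
  obtain ⟨Cp, hCp0, hCp⟩ := hP.bound
  obtain ⟨C, hC0, hC⟩ := exists_maj_bound (a := a / 2) (half_pos ha)
  refine ⟨(Fintype.card ι : ℝ) * (9 * C) * (Cp * B), by positivity, fun n w => ?_⟩
  obtain ⟨hs, hle⟩ := hC (H3.coord w).1 (H3.coord w).2 (H3.coord_pos w)
  rw [H3.mk_coord] at hs hle
  set K := Cp * B * Real.exp (a * n / 6)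
  have hK : 0 ≤ K := by positivity
  -- trade the Gaussian in lI for one in maj, at the cost exp (a n / 6)
  have hterm : ∀ i : Ix ι n, ‖gI φ ψ n (i, w)‖ * Real.exp (-(a * lI n (i, w) ^ 2))
      ≤ K * (rho0 w * Real.exp (-(a / 2 * maj (vec i.2.1) w))) := by
    intro i
    have e : Real.exp (-(a * lI n (i, w) ^ 2))
        = Real.exp (a * n / 6) * Real.exp (-(a / 2 * maj (vec i.2.1) w)) := by
      rw [← Real.exp_add]
      congr 1
      have hq := q3_eq i.2.1
      rw [i.2.2] at hq
      rw [maj, lI]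
      linear_combination (a / 6) * hq
    rw [e, gI, norm_mul, norm_mul, Complex.norm_real, Real.norm_of_nonneg (part_rho0.nonneg w)]
    calc rho0 w * ‖φ i.1 w‖ * ‖ψ i.1 i.2.1‖ *
          (Real.exp (a * n / 6) * Real.exp (-(a / 2 * maj (vec i.2.1) w)))
        ≤ rho0 w * Cp * B * (Real.exp (a * n / 6) * Real.exp (-(a / 2 * maj (vec i.2.1) w))) := by
          have := part_rho0.nonneg w
          gcongr
          · exact hCp _ _
          · exact hB _ _
      _ = _ := by ring
  -- sum over X by the lattice bound, then over the finite set ι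
  set f : {X : Lz // q3 X = n} → ℝ := fun X => rho0 w * Real.exp (-(a / 2 * maj (vec X.1) w))
  have hf0 : ∀ X, 0 ≤ f X := fun X => mul_nonneg (part_rho0.nonneg w) (Real.exp_pos _).le
  have hfs : Summable f := (hs.comp_injective Subtype.val_injective).mul_left _
  have hfle : ∑' X, f X ≤ rho0 w * (C * (1 + (H3.coord w).2) * (1 + ((H3.coord w).2)⁻¹)) := by
    rw [tsum_mul_left]
    exact mul_le_mul_of_nonneg_left ((Summable.tsum_subtype_le _ _
      (fun _ => (Real.exp_pos _).le) hs).trans hle) (part_rho0.nonneg w)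
  have hrow : ∀ M : ι, Summable fun X : {X : Lz // q3 X = n} => K * f X :=
    fun M => hfs.mul_left K
  have hall : Summable fun i : Ix ι n => K * f i.2 :=
    (summable_prod_of_nonneg (f := fun i : Ix ι n => K * f i.2)
      fun i => mul_nonneg hK (hf0 _)).2 ⟨hrow, Summable.of_finite⟩
  have hsum := hall.of_nonneg_of_le (fun i => by positivity) hterm
  refine ⟨hsum, (hsum.tsum_le_tsum hterm hall).trans ?_⟩
  rw [hall.tsum_prod, tsum_fintype]
  simp only [tsum_mul_left, Finset.sum_const, Finset.card_univ, nsmul_eq_mul]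
  calc (Fintype.card ι : ℝ) * (K * ∑' X, f X)
      ≤ (Fintype.card ι : ℝ) * (K * (9 * C * Sg.indicator (fun u => (H3.coord u).2) w)) := by
        gcongr
        exact hfle.trans (rho0_mul_le hC0)
    _ = _ := by ring

/-- Counting measure times the invariant measure. -/
noncomputable def muI : Measure (Ix ι n × H3) := Measure.count.prod hmeas

/-- The Gaussian moment of norm `n` is finite, at most `C exp (a n / 6)`. -/
theorem exists_moment_bound {a : ℝ} (ha : 0 < a) :
    ∃ C, 0 ≤ C ∧ ∀ n : ℤ,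
      Integrable (fun p => ‖gI φ ψ n p‖ * Real.exp (-(a * lI n p ^ 2))) (muI n) ∧
      ∫ p, ‖gI φ ψ n p‖ * Real.exp (-(a * lI n p ^ 2)) ∂(muI n) ≤ C * Real.exp (a * n / 6) := by
  obtain ⟨C, hC0, hC⟩ := exists_sum_bound hP ha
  -- dominate by the height on the Siegel set
  set S : H3 → ℝ := Sg.indicator fun u => (H3.coord u).2
  have hS0 : ∀ w, 0 ≤ S w := fun w => Set.indicator_nonneg (fun u _ => (H3.coord_pos u).le) w
  have hSm : Measurable S := (continuous_coord.snd.measurable).indicator measurableSet_Sg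
  have hSi : Integrable S hmeas := by
    have h := integrable_of_le_Sg (f := fun w => (S w : ℂ)) (Complex.measurable_ofReal.comp hSm)
      (C := 1) fun w => by rw [Complex.norm_real, Real.norm_of_nonneg (hS0 w), one_mul]
    exact h.re
  refine ⟨C * ∫ w, S w ∂hmeas, mul_nonneg hC0 (integral_nonneg fun w => hS0 w), fun n => ?_⟩
  set f : Ix ι n × H3 → ℝ := fun p => ‖gI φ ψ n p‖ * Real.exp (-(a * lI n p ^ 2))
  have hf : Measurable f := (measurable_gI n hP).norm.mul
    ((((measurable_lI n).pow_const 2).const_mul a).neg.exp)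
  have hf0 : ∀ p, 0 ≤ f p := fun p => by positivity
  -- exchange the sum and the integral
  have hl : ∫⁻ p, ENNReal.ofReal (f p) ∂(muI n)
      ≤ ENNReal.ofReal (C * Real.exp (a * n / 6) * ∫ w, S w ∂hmeas) := by
    have : SFinite (hmeas : Measure H3) := inferInstance
    rw [muI, lintegral_prod _ hf.ennreal_ofReal.aemeasurable, lintegral_count,
      ← lintegral_tsum (f := fun (i : Ix ι n) w => ENNReal.ofReal (f (i, w)))
        fun i => (hf.comp measurable_prodMk_left).ennreal_ofReal.aemeasurable,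
      ← integral_const_mul, ofReal_integral_eq_lintegral_ofReal (hSi.const_mul _)
        (Eventually.of_forall fun w => mul_nonneg (mul_nonneg hC0 (Real.exp_pos _).le) (hS0 w))]
    refine lintegral_mono fun w => ?_
    rw [← ENNReal.ofReal_tsum_of_nonneg (fun i => hf0 (i, w)) (hC n w).1]
    exact ENNReal.ofReal_le_ofReal (hC n w).2
  have hint : Integrable f (muI n) := ⟨hf.aestronglyMeasurable, by
    rw [hasFiniteIntegral_iff_ofReal (Eventually.of_forall hf0)]
    exact hl.trans_lt ENNReal.ofReal_lt_top⟩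
  refine ⟨hint, ?_⟩
  rw [← ENNReal.ofReal_le_ofReal_iff,
    ofReal_integral_eq_lintegral_ofReal hint (Eventually.of_forall hf0)]
  · refine hl.trans (le_of_eq (congrArg ENNReal.ofReal ?_))
    ring
  · have : (0 : ℝ) ≤ ∫ w, S w ∂hmeas := integral_nonneg fun w => hS0 w
    positivity

/-- The sample of norm `n`. -/
noncomputable def sampI : Samp (Ix ι n × H3) where
  μ := muI n
  sfin := by unfold muI; infer_instance
  g := gI φ ψ n
  l := lI n
  mg := (measurable_gI n hP).aestronglyMeasurable
  ml := measurable_lI n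
  hint a ha := by
    obtain ⟨C, -, h⟩ := exists_moment_bound hP ha
    exact (h n).1

/-- The integral of the sample as the integral over `H3` of a sum over the indices. -/
lemma sampI_I {F : ℝ → ℂ}
    (hF : Integrable (fun p => gI φ ψ n p * F (lI n p)) (muI n)) :
    (sampI n hP).I F = ∫ w, ∑' i : Ix ι n, gI φ ψ n (i, w) * F (lI n (i, w)) ∂hmeas := by
  change ∫ p, gI φ ψ n p * F (lI n p) ∂(muI n) = _
  rw [muI, integral_prod_symm _ hF]
  refine integral_congr_ae ?_
  filter_upwards [(Integrable.prod_left_ae hF)] with w hw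
  rw [integral_countable hw]
  simp [Measure.real]

end Fermat.LT3
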