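import Fermat.Agent.LT3.Coef.Avg
import Fermat.Agent.LT3.Coef.Iso

/-!
# Nothing comes from the isotropic points

`sG_zero`: the invariant function of norm zero vanishes, as the twisted sums at isotropic points
do (`sum_iso`).
-/

set_option autoImplicit false
open Matrix

namespace Fermat.LT3
open Fermat.LT

variable {E : ℕ} [NeZero E] (A : Auto E) {Ψ : Lz → ℂ}

omit [NeZero E] in
/-- The reduction of a translation is an upper triangular matrix. -/
lemma gr_trI_eq (x : EI) :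
    (gr (3 * (3 * E)) (trI x) : GN (3 * E)) = upG 1 (red (3 * (3 * E)) x) 1 := by
  apply Units.ext
  ext i j : 1
  fin_cases i <;> fin_cases j <;> simp [gr_coe, trI, upE]

/-- Translations fix the axis. -/
lemma dact_trI_axis (x : EI) (a : ℤ) : dact (trI x).val ((a, (0, 0), 0) : Lz) = (a, (0, 0), 0) := by
  have h : (trI x).val = !![1, x; 0, 1] := rfl
  rw [h]
  simp [dact, bImg, dotE, bY]

/-- The sum vanishes at points of the axis. -/
lemma sum_axis (hΨ : Per (3 * E) Ψ) (a : ℤ) (w : H3) :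
    ∑ M : G1 (3 * E), A.Φ M.1 w * twist Ψ M.1 (a, (0, 0), 0) = 0 := by
  set S : H3 → ℂ := fun v => ∑ M : G1 (3 * E), A.Φ M.1 v * twist Ψ M.1 (a, (0, 0), 0)
  have key : ∀ x : EI, ∀ v, ∑ M : G1 (3 * E),
      A.Φ (gr (3 * (3 * E)) (trI x) * M.1) v * twist Ψ M.1 (a, (0, 0), 0) = S v := fun x v => by
    simp only [S]
    rw [← sum_G1_smul (trI x) fun N => A.Φ N v * twist Ψ N (a, (0, 0), 0)]
    refine Finset.sum_congr rfl fun M _ => ?_
    congr 1
    conv_rhs => rw [← dact_trI_axis x a]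
    exact (twist_gr_mul hΨ _ _ _).symm
  have h1 := key (E : EI) w
  have h2 := key ((2 * E : ℕ) : EI) w
  simp only [gr_trI_eq, map_natCast] at h1 h2
  have h3 : ∑ M : G1 (3 * E), (A.Φ M.1 w + A.Φ (upG 1 (E : RN E) 1 * M.1) w
      + A.Φ (upG 1 ((2 * E : ℕ) : RN E) 1 * M.1) w) * twist Ψ M.1 (a, (0, 0), 0) = 0 :=
    Finset.sum_eq_zero fun M _ => by rw [A.cusp, zero_mul]
  simp only [add_mul, Finset.sum_add_distrib] at h3
  rw [h1, h2] at h3
  have : (3 : ℂ) * S w = 0 := by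
    rw [← h3]; simp only [S]; ring
  exact (mul_eq_zero.1 this).resolve_left (by norm_num)

/-- **Isotropic points.** At an isotropic lattice point the twisted sum of the forms over `G1`
vanishes. -/
theorem sum_iso (hΨ : Per (3 * E) Ψ) {X : Lz} (hX : q3 X = 0) (w : H3) :
    ∑ M : G1 (3 * E), A.Φ M.1 w * twist Ψ M.1 X = 0 := by
  obtain ⟨γ, a, rfl⟩ := exists_iso_reduce hX
  rw [← sum_G1_smul γ (fun N => A.Φ N w * twist Ψ N (dact γ.val (a, (0, 0), 0))),
    ← sum_axis A hΨ a ((gC γ)⁻¹ • w)]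
  refine Finset.sum_congr rfl fun M _ => ?_
  rw [twist_gr_mul hΨ]
  conv_lhs => rw [show w = gC γ • (gC γ)⁻¹ • w from (smul_inv_smul _ _).symm, A.inv]

/-- **The invariant function of norm zero vanishes.** -/
theorem sG_zero (hΨ : Per (3 * E) Ψ) {F : ℝ → ℂ} (hF : Samp.Decay F) (w : H3) :
    sG A 0 Ψ F w = 0 := by
  obtain ⟨C, -, hC⟩ := exists_aM_bound (A.pair hΨ).wbound 0 hF
  simp only [sG, pairSum, aM, ← tsum_mul_left]
  rw [← Summable.tsum_finsetSum fun M _ => ((hC M w).1.of_norm).mul_left _]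
  refine (tsum_congr fun X => ?_).trans tsum_zero
  simp only [← mul_assoc, ← Finset.sum_mul, sum_iso A hΨ X.2, zero_mul]

end Fermat.LT3
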